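import Fermat.Agent.GS.Abs.Defs
import Fermat.Agent.GR.E.Root
import Fermat.Agent.GR.E.E0

/-! GS abstract part, file `Basic`: elementary facts on `vert`, `SatChart2`, `rootSet`. -/

set_option autoImplicit false

namespace Fermat.Agent.GS

open Fermat.Agent.GR.E

variable {R : Type*} [CommRing R] [IsDomain R] [IsDiscreteValuationRing R]
variable {F : Type*} [Field F] [Algebra R F]
variable {ϖ : R} {𝒪 𝒪₁ 𝒪₂ : ValuationSubring F}

theorem mem_vert {C : Subalgebra R F} (hle : ∀ x ∈ C, x ∈ 𝒪) (x : C) :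
    x ∈ vert ϖ 𝒪 C ↔ (x : F) / algebraMap R F ϖ ∈ 𝒪 := by
  constructor
  · intro hx
    refine Submodule.span_induction (p := fun (y : C) _ => (y : F) / algebraMap R F ϖ ∈ 𝒪)
      (fun y hy => hy) ?_ ?_ ?_ hx
    · simp
    · intro y z _ _ hy hz
      have : ((y + z : C) : F) / algebraMap R F ϖ
          = (y : F) / algebraMap R F ϖ + (z : F) / algebraMap R F ϖ := by
        push_cast; ring
      rw [this]
      exact add_mem hy hz
    · intro a y _ hy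
      have : ((a • y : C) : F) / algebraMap R F ϖ = (a : F) * ((y : F) / algebraMap R F ϖ) := by
        rw [smul_eq_mul]; push_cast; ring
      rw [this]
      exact mul_mem (hle _ a.2) hy
  · intro hx
    exact Ideal.subset_span hx

theorem algebraMap_mem_vert (hG : GaussRing ϖ 𝒪) (C : Subalgebra R F) :
    algebraMap R C ϖ ∈ vert ϖ 𝒪 C := by
  refine Ideal.subset_span ?_
  change algebraMap R F ϖ / algebraMap R F ϖ ∈ 𝒪
  rw [div_self hG.ne_zero]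
  exact one_mem 𝒪

theorem vert_isPrime (hG : GaussRing ϖ 𝒪) {C : Subalgebra R F} (hle : ∀ x ∈ C, x ∈ 𝒪) :
    (vert ϖ 𝒪 C).IsPrime := by
  refine ⟨?_, ?_⟩
  · rw [Ideal.ne_top_iff_one, mem_vert hle]
    intro h
    apply hG.inv_not_mem
    simpa using h
  · intro x y hxy
    rw [mem_vert hle] at hxy
    rw [mem_vert hle, mem_vert hle]
    by_contra hcon
    push Not at hcon
    obtain ⟨hx, hy⟩ := hcon
    have hx0 : (x : F) ≠ 0 := by
      intro h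
      apply hx
      rw [h, zero_div]
      exact zero_mem 𝒪
    rcases hG.unif (x : F) (hle _ x.2) with h | h
    · exact hx h
    · apply hy
      have : (y : F) / algebraMap R F ϖ
          = (x : F)⁻¹ * (((x * y : C) : F) / algebraMap R F ϖ) := by
        push_cast; field_simp
      rw [this]
      exact mul_mem h hxy

theorem SatChart2.symm {C : Subalgebra R F} (h : SatChart2 ϖ 𝒪₁ 𝒪₂ C) : SatChart2 ϖ 𝒪₂ 𝒪₁ C := by
  exact ⟨h.le₂, h.le₁, fun x hx h1 h2 => h.sat x hx h2 h1, h.closed⟩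

theorem NodalChart.symm {C : Subalgebra R F} (h : NodalChart ϖ 𝒪₁ 𝒪₂ C) :
    NodalChart ϖ 𝒪₂ 𝒪₁ C := by
  exact
    { toSatChart2 := h.toSatChart2.symm
      frac₁ := h.frac₂
      frac₂ := h.frac₁
      noeth := h.noeth
      ded₁ := h.ded₂
      ded₂ := h.ded₁
      radical := by rw [sup_comm]; exact h.radical
      sep₁ := h.sep₂
      sep₂ := h.sep₁ }

theorem SatChart2.sat_pow {C : Subalgebra R F} (hC : SatChart2 ϖ 𝒪₁ 𝒪₂ C) (m : ℕ) {x : F}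
    (hx : x ∈ C) (h₁ : x / algebraMap R F ϖ ^ m ∈ 𝒪₁) (h₂ : x / algebraMap R F ϖ ^ m ∈ 𝒪₂) :
    x / algebraMap R F ϖ ^ m ∈ C := by
  induction m with
  | zero => simpa using hx
  | succ m ih =>
    by_cases h0 : algebraMap R F ϖ = 0
    · rw [h0, zero_pow (Nat.succ_ne_zero m), div_zero]; exact C.zero_mem
    · have hϖ₁ : algebraMap R F ϖ ∈ 𝒪₁ := hC.le₁ _ (C.algebraMap_mem ϖ)
      have hϖ₂ : algebraMap R F ϖ ∈ 𝒪₂ := hC.le₂ _ (C.algebraMap_mem ϖ)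
      have e1 : x / algebraMap R F ϖ ^ m = x / algebraMap R F ϖ ^ (m + 1) * algebraMap R F ϖ := by
        rw [pow_succ]; field_simp
      have e2 : x / algebraMap R F ϖ ^ (m + 1) = x / algebraMap R F ϖ ^ m / algebraMap R F ϖ := by
        rw [pow_succ]; field_simp
      have h1 : x / algebraMap R F ϖ ^ m ∈ C :=
        ih (by rw [e1]; exact mul_mem h₁ hϖ₁) (by rw [e1]; exact mul_mem h₂ hϖ₂)
      rw [e2]
      refine hC.sat _ h1 ?_ ?_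
      · rw [← e2]; exact h₁
      · rw [← e2]; exact h₂

/-- `I(C) ⊆ 𝒪₁` (apply it to `hC.symm` for `𝒪₂`). -/
theorem rootSet_subset₁ {C : Subalgebra R F} (hC : SatChart2 ϖ 𝒪₁ 𝒪₂ C) {n : ℕ} (hn : 0 < n)
    {w a : F} (hw0 : w ≠ 0) (hw' : w⁻¹ ∈ 𝒪₁) (ha : a ∈ rootSet C n w) : a ∈ 𝒪₁ := by
  have h1 : a ^ n ∈ 𝒪₁ := by
    have : a ^ n = a ^ n * w * w⁻¹ := by field_simp
    rw [this]
    exact mul_mem (hC.le₁ _ ha) hw'
  rcases 𝒪₁.mem_or_inv_mem a with h | h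
  · exact h
  · by_cases ha0 : a = 0
    · rw [ha0]; exact zero_mem 𝒪₁
    · obtain ⟨k, rfl⟩ : ∃ k, n = k + 1 := ⟨n - 1, by omega⟩
      have : a = a ^ (k + 1) * a⁻¹ ^ k := by
        rw [pow_succ, inv_pow]; field_simp
      rw [this]
      exact mul_mem h1 (pow_mem h _)

/-- `I(C) ∩ ϖ ^ m (𝒪₁ ∩ 𝒪₂) = ϖ ^ m I(C)`. -/
theorem div_pow_mem_rootSet {C : Subalgebra R F} (hC : SatChart2 ϖ 𝒪₁ 𝒪₂ C) {n : ℕ} {w a : F}
    (hw₁ : w ∈ 𝒪₁) (hw₂ : w ∈ 𝒪₂) (m : ℕ) (ha : a ∈ rootSet C n w)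
    (h₁ : a / algebraMap R F ϖ ^ m ∈ 𝒪₁) (h₂ : a / algebraMap R F ϖ ^ m ∈ 𝒪₂) :
    a / algebraMap R F ϖ ^ m ∈ rootSet C n w := by
  have e : (a / algebraMap R F ϖ ^ m) ^ n * w = a ^ n * w / algebraMap R F ϖ ^ (m * n) := by
    rw [div_pow, ← pow_mul]; ring
  change (a / algebraMap R F ϖ ^ m) ^ n * w ∈ C
  rw [e]
  refine hC.sat_pow (m * n) ha ?_ ?_
  · rw [← e]; exact mul_mem (pow_mem h₁ n) hw₁
  · rw [← e]; exact mul_mem (pow_mem h₂ n) hw₂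

theorem vert_inf_vert (hG₁ : GaussRing ϖ 𝒪₁) {C : Subalgebra R F}
    (hC : SatChart2 ϖ 𝒪₁ 𝒪₂ C) :
    vert ϖ 𝒪₁ C ⊓ vert ϖ 𝒪₂ C = Ideal.span {algebraMap R C ϖ} := by
  apply le_antisymm
  · intro x hx
    obtain ⟨hx1, hx2⟩ := hx
    have hx1' := (mem_vert hC.le₁ x).1 hx1
    have hx2' := (mem_vert hC.le₂ x).1 hx2
    have h3 : (x : F) / algebraMap R F ϖ ∈ C := hC.sat _ x.2 hx1' hx2'
    rw [Ideal.mem_span_singleton]
    refine ⟨⟨_, h3⟩, Subtype.ext ?_⟩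
    have := hG₁.ne_zero
    change (x : F) = algebraMap R F ϖ * ((x : F) / algebraMap R F ϖ)
    field_simp
  · rw [Ideal.span_singleton_le_iff_mem]
    refine ⟨algebraMap_mem_vert hG₁ C, Ideal.subset_span ?_⟩
    change algebraMap R F ϖ / algebraMap R F ϖ ∈ 𝒪₂
    rw [div_self hG₁.ne_zero]
    exact one_mem 𝒪₂

theorem vert_le_or_vert_le (hG₁ : GaussRing ϖ 𝒪₁) {C : Subalgebra R F}
    (hC : SatChart2 ϖ 𝒪₁ 𝒪₂ C) (𝔪 : Ideal C) [𝔪.IsPrime] (hϖ𝔪 : algebraMap R C ϖ ∈ 𝔪) :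
    vert ϖ 𝒪₁ C ≤ 𝔪 ∨ vert ϖ 𝒪₂ C ≤ 𝔪 := by
  rw [← Ideal.IsPrime.inf_le (inferInstance : 𝔪.IsPrime), vert_inf_vert hG₁ hC,
    Ideal.span_singleton_le_iff_mem]
  exact hϖ𝔪

/-- The overlap chart is saturated (copy of `GR.E.satChart_mid`). -/
theorem satChart2_mid {h : F} (hh₁ : h ∈ 𝒪₁) (hh₁' : h⁻¹ ∈ 𝒪₁) (hh₂ : h ∈ 𝒪₂) (hh₂' : h⁻¹ ∈ 𝒪₂)
    (h0 : h ≠ 0) (hC : SatChart2 ϖ 𝒪₁ 𝒪₂ (chart R ({h} : Set F))) :
    SatChart2 ϖ 𝒪₁ 𝒪₂ (chart R ({h, h⁻¹} : Set F)) := by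
  have key : ∀ x ∈ chart R ({h, h⁻¹} : Set F), ∃ k : ℕ, h ^ k * x ∈ chart R ({h} : Set F) := by
    intro x hx
    have hx' : x ∈ chart R (insert h⁻¹ ({h} : Set F)) := by
      rw [show insert h⁻¹ ({h} : Set F) = {h, h⁻¹} from Set.pair_comm _ _]
      exact hx
    exact exists_pow_mul_mem_chart (Set.mem_singleton _) h0 hx'
  have hle : chart R ({h} : Set F) ≤ chart R ({h, h⁻¹} : Set F) :=
    chart_mono (Set.singleton_subset_iff.mpr (Set.mem_insert _ _))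
  have hinv : h⁻¹ ∈ chart R ({h, h⁻¹} : Set F) :=
    subset_chart _ (Set.mem_insert_of_mem _ rfl)
  refine ⟨?_, ?_, ?_, chart_closed _⟩
  · intro x hx
    obtain ⟨k, hk⟩ := key x hx
    have h1 : h ^ k * x ∈ 𝒪₁ := hC.le₁ _ hk
    have h2 : x = h⁻¹ ^ k * (h ^ k * x) := by
      rw [← mul_assoc, ← mul_pow, inv_mul_cancel₀ h0, one_pow, one_mul]
    rw [h2]
    exact mul_mem (pow_mem hh₁' k) h1
  · intro x hx
    obtain ⟨k, hk⟩ := key x hx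
    have h1 : h ^ k * x ∈ 𝒪₂ := hC.le₂ _ hk
    have h2 : x = h⁻¹ ^ k * (h ^ k * x) := by
      rw [← mul_assoc, ← mul_pow, inv_mul_cancel₀ h0, one_pow, one_mul]
    rw [h2]
    exact mul_mem (pow_mem hh₂' k) h1
  · intro x hx hxo₁ hxo₂
    obtain ⟨k, hk⟩ := key x hx
    have h1 : h ^ k * x / algebraMap R F ϖ ∈ 𝒪₁ := by
      rw [mul_div_assoc]
      exact mul_mem (pow_mem hh₁ k) hxo₁
    have h1' : h ^ k * x / algebraMap R F ϖ ∈ 𝒪₂ := by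
      rw [mul_div_assoc]
      exact mul_mem (pow_mem hh₂ k) hxo₂
    have h2 := hle (hC.sat _ hk h1 h1')
    have h3 : x / algebraMap R F ϖ = h⁻¹ ^ k * (h ^ k * x / algebraMap R F ϖ) := by
      rw [mul_div_assoc, ← mul_assoc, ← mul_pow, inv_mul_cancel₀ h0, one_pow, one_mul]
    rw [h3]
    exact mul_mem (pow_mem hinv k) h2

/-- `F` is the fraction field of a nodal chart. -/
theorem NodalChart.isFractionRing {C : Subalgebra R F} (hC : NodalChart ϖ 𝒪₁ 𝒪₂ C) :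
    IsFractionRing C F := by
  refine IsFractionRing.of_field C F fun z => ?_
  have key : ∀ x ∈ 𝒪₁, ∃ a b : C, (b : F) ≠ 0 ∧ x = (a : F) / (b : F) := by
    intro x hx
    obtain ⟨b, hb, hb', hxb⟩ := hC.frac₁ x hx
    have hb0 : b ≠ 0 := by
      rintro rfl
      exact hb' (by simp)
    exact ⟨⟨x * b, hxb⟩, ⟨b, hb⟩, hb0, by field_simp⟩
  rcases 𝒪₁.mem_or_inv_mem z with hz | hz
  · obtain ⟨a, b, _, h⟩ := key z hz
    exact ⟨a, b, h⟩
  · obtain ⟨a, b, _, h⟩ := key z⁻¹ hz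
    refine ⟨b, a, ?_⟩
    have : z = ((a : F) / (b : F))⁻¹ := by rw [← h, inv_inv]
    rw [this, inv_div]
    rfl

end Fermat.Agent.GS
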