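import Fermat.Agent.GS.Abs.Defs

/-! GS abstract part, file `Cert`: formal properties of certificates. -/

set_option autoImplicit false

namespace Fermat.Agent.GS

open Fermat.Agent.GR.E

variable {R : Type*} [CommRing R] [IsDomain R] [IsDiscreteValuationRing R]
variable {F : Type*} [Field F] [Algebra R F]
variable {ϖ : R} {𝒪₁ 𝒪₂ : ValuationSubring F}

theorem CertAt.mono {C C' : Subalgebra R F} (h : C ≤ C') {n : ℕ} {w : F}
    (hw : CertAt ϖ C n w) : CertAt ϖ C' n w := by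
  obtain ⟨M, m, a, b, ha, hb, hs⟩ := hw
  exact ⟨M, m, a, b, fun i => h (ha i), fun i => h (hb i), hs⟩

theorem CertAt.inv {C : Subalgebra R F} {n : ℕ} {w : F} (hw : CertAt ϖ C n w) :
    CertAt ϖ C n w⁻¹ := by
  obtain ⟨M, m, a, b, ha, hb, hs⟩ := hw
  refine ⟨M, m, b, a, hb, fun i => ?_, ?_⟩
  · rw [inv_inv]
    exact ha i
  · rw [← hs]
    exact Finset.sum_congr rfl fun i _ => mul_comm _ _

theorem CertAt.mul {C : Subalgebra R F} {n : ℕ} {w w' : F} (hw : CertAt ϖ C n w)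
    (hw' : CertAt ϖ C n w') : CertAt ϖ C n (w * w') := by
  obtain ⟨M, m, a, b, ha, hb, hs⟩ := hw
  obtain ⟨M', m', a', b', ha', hb', hs'⟩ := hw'
  refine ⟨M + M', m * m', fun k => a (finProdFinEquiv.symm k).1 * a' (finProdFinEquiv.symm k).2,
    fun k => b (finProdFinEquiv.symm k).1 * b' (finProdFinEquiv.symm k).2, fun k => ?_,
    fun k => ?_, ?_⟩
  · have h := C.mul_mem (ha (finProdFinEquiv.symm k).1) (ha' (finProdFinEquiv.symm k).2)
    have e : (a (finProdFinEquiv.symm k).1 * a' (finProdFinEquiv.symm k).2) ^ n * (w * w') =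
        a (finProdFinEquiv.symm k).1 ^ n * w * (a' (finProdFinEquiv.symm k).2 ^ n * w') := by
      ring
    rw [e]
    exact h
  · have h := C.mul_mem (hb (finProdFinEquiv.symm k).1) (hb' (finProdFinEquiv.symm k).2)
    have e : (b (finProdFinEquiv.symm k).1 * b' (finProdFinEquiv.symm k).2) ^ n * (w * w')⁻¹ =
        b (finProdFinEquiv.symm k).1 ^ n * w⁻¹ * (b' (finProdFinEquiv.symm k).2 ^ n * w'⁻¹) := by
      rw [mul_inv]
      ring
    rw [e]
    exact h
  · rw [pow_add, ← hs, ← hs', Finset.sum_mul_sum, ← Fintype.sum_prod_type',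
      ← Equiv.sum_comp finProdFinEquiv.symm]
    exact Finset.sum_congr rfl fun k _ => by ring

theorem CertAt.one {C : Subalgebra R F} {n : ℕ} : CertAt ϖ C n (1 : F) :=
  ⟨0, 1, fun _ => 1, fun _ => 1, fun _ => by simp, fun _ => by simp, by simp⟩

theorem CertAt.pow {C : Subalgebra R F} {n : ℕ} {w : F} (hw : CertAt ϖ C n w) (c : ℕ) :
    CertAt ϖ C n (w ^ c) := by
  induction c with
  | zero => rw [pow_zero]; exact CertAt.one
  | succ c ih => rw [pow_succ]; exact ih.mul hw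

/-- multiplying `w` by an `n`-th power does not change anything -/
theorem CertAt.mul_pow {C : Subalgebra R F} {n : ℕ} {w : F} (hw : CertAt ϖ C n w) {z : F}
    (hz : z ≠ 0) : CertAt ϖ C n (w * z ^ n) := by
  obtain ⟨M, m, a, b, ha, hb, hs⟩ := hw
  refine ⟨M, m, fun i => a i / z, fun i => b i * z, fun i => ?_, fun i => ?_, ?_⟩
  · have e : (a i / z) ^ n * (w * z ^ n) = a i ^ n * w := by
      rw [div_pow]
      field_simp
    rw [e]
    exact ha i
  · have e : (b i * z) ^ n * (w * z ^ n)⁻¹ = b i ^ n * w⁻¹ := by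
      rw [_root_.mul_pow, mul_inv]
      field_simp
    rw [e]
    exact hb i
  · rw [← hs]
    refine Finset.sum_congr rfl fun i _ => ?_
    field_simp

/-- The structure map of a DVR into a field is injective as soon as it does not kill a
uniformizer. -/
theorem Cert_algebraMap_injective (hϖ : Irreducible ϖ) (hϖ0 : algebraMap R F ϖ ≠ 0) :
    Function.Injective (algebraMap R F) := by
  rw [injective_iff_map_eq_zero]
  intro r hr
  by_contra hr0
  obtain ⟨k, u, rfl⟩ := IsDiscreteValuationRing.eq_unit_mul_pow_irreducible hr0 hϖ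
  rw [map_mul, map_pow] at hr
  rcases mul_eq_zero.1 hr with h | h
  · exact (u.isUnit.map (algebraMap R F)).ne_zero h
  · exact hϖ0 (eq_zero_of_pow_eq_zero h)

/-- `τ ϖ = unit * ϖ`. -/
theorem Cert_map_unif (hϖ : Irreducible ϖ) (hϖ0 : algebraMap R F ϖ ≠ 0) {h : F} {τ : F ≃+* F}
    (hτ : ChartAut R 𝒪₁ 𝒪₂ h τ) :
    ∃ s t : R, s * t = 1 ∧ τ (algebraMap R F ϖ) = algebraMap R F ϖ * algebraMap R F s := by
  have hinj := Cert_algebraMap_injective (F := F) hϖ hϖ0
  obtain ⟨ϖ', h'⟩ := hτ.mapR ϖ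
  obtain ⟨ϖ'', h''⟩ := hτ.mapR_symm ϖ
  have hnu' : ¬ IsUnit ϖ' := by
    rintro ⟨u, hu⟩
    obtain ⟨r', hr'⟩ := hτ.mapR_symm ((u⁻¹ : Rˣ) : R)
    apply hϖ.not_isUnit
    refine IsUnit.of_mul_eq_one r' (hinj ?_)
    rw [map_mul, map_one, ← hr', ← τ.symm_apply_apply (algebraMap R F ϖ), h', ← map_mul, ← map_mul,
      ← hu, Units.mul_inv, map_one, map_one]
  have hnu'' : ¬ IsUnit ϖ'' := by
    rintro ⟨u, hu⟩
    obtain ⟨r', hr'⟩ := hτ.mapR ((u⁻¹ : Rˣ) : R)
    apply hϖ.not_isUnit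
    refine IsUnit.of_mul_eq_one r' (hinj ?_)
    rw [map_mul, map_one, ← hr', ← τ.apply_symm_apply (algebraMap R F ϖ), h'', ← map_mul, ← map_mul,
      ← hu, Units.mul_inv, map_one, map_one]
  have hdvd : ∀ x : R, ¬ IsUnit x → ϖ ∣ x := by
    intro x hx
    have : x ∈ IsLocalRing.maximalIdeal R := (IsLocalRing.mem_maximalIdeal x).2 hx
    rw [hϖ.maximalIdeal_eq, Ideal.mem_span_singleton] at this
    exact this
  obtain ⟨s, rfl⟩ := hdvd ϖ' hnu'
  obtain ⟨t, rfl⟩ := hdvd ϖ'' hnu''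
  obtain ⟨t', ht'⟩ := hτ.mapR t
  refine ⟨s, t', ?_, by rw [h', map_mul]⟩
  have e : algebraMap R F ϖ = algebraMap R F (ϖ * (s * t')) := by
    conv_lhs => rw [← τ.apply_symm_apply (algebraMap R F ϖ), h'', map_mul, map_mul, h', ht']
    rw [← map_mul]
    congr 1
    ring
  have e2 := hinj e
  have hϖne : ϖ ≠ 0 := hϖ.ne_zero
  exact (mul_left_cancel₀ hϖne (by rw [mul_one]; exact e2)).symm

/-- `τ ϖ = unit * ϖ` because `τ` induces an automorphism of the DVR `R`. -/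
theorem CertAt.map (hϖ : Irreducible ϖ) (hϖ0 : algebraMap R F ϖ ≠ 0) {h : F} {τ : F ≃+* F}
    (hτ : ChartAut R 𝒪₁ 𝒪₂ h τ) {C : Subalgebra R F} (hτC : ∀ x ∈ C, τ x ∈ C) {n : ℕ} {w : F}
    (hw : CertAt ϖ C n w) : CertAt ϖ C n (τ w) := by
  obtain ⟨s, t, hst, hτϖ⟩ := Cert_map_unif hϖ hϖ0 hτ
  obtain ⟨M, m, a, b, ha, hb, hs⟩ := hw
  refine ⟨M, m, fun i => τ (a i) * algebraMap R F t ^ M, fun i => τ (b i), fun i => ?_,
    fun i => ?_, ?_⟩
  · have e : (τ (a i) * algebraMap R F t ^ M) ^ n * τ w =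
        τ (a i ^ n * w) * algebraMap R F (t ^ (M * n)) := by
      rw [map_mul, map_pow, map_pow, pow_mul]
      ring
    rw [e]
    exact C.mul_mem (hτC _ (ha i)) (C.algebraMap_mem _)
  · have e : τ (b i) ^ n * (τ w)⁻¹ = τ (b i ^ n * w⁻¹) := by
      rw [map_mul, map_pow, map_inv₀]
    rw [e]
    exact hτC _ (hb i)
  · have e : ∑ i, τ (a i) * algebraMap R F t ^ M * τ (b i) =
        τ (∑ i, a i * b i) * algebraMap R F t ^ M := by
      rw [map_sum, Finset.sum_mul]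
      refine Finset.sum_congr rfl fun i _ => ?_
      rw [map_mul]
      ring
    rw [e, hs, map_pow, hτϖ, ← _root_.mul_pow, mul_assoc, ← map_mul, hst, map_one, mul_one]

/-- An element of the chart `chart R {x}` lies in every valuation subring containing `R` and `x`. -/
theorem Cert_mem_of_mem_chart (V : ValuationSubring F) (hR : ∀ r : R, algebraMap R F r ∈ V) {x : F}
    (hx : x ∈ V) {y : F} (hy : y ∈ chart R ({x} : Set F)) : y ∈ V := by
  let S' : Subalgebra R F := { V.toSubring.toSubsemiring with algebraMap_mem' := hR }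
  have hle : Algebra.adjoin R ({x} : Set F) ≤ S' := by
    apply Algebra.adjoin_le
    intro z hz
    rw [Set.mem_singleton_iff] at hz
    rw [hz]
    exact hx
  let f : ↥(Algebra.adjoin R ({x} : Set F)) →+* ↥V :=
    RingHom.codRestrict (algebraMap (↥(Algebra.adjoin R ({x} : Set F))) F) V (fun a => hle a.2)
  obtain ⟨p, hpm, hpe⟩ := mem_chart.1 hy
  have hint : IsIntegral ↥V y := by
    refine ⟨p.map f, hpm.map f, ?_⟩
    rw [Polynomial.eval₂_map]
    exact hpe
  obtain ⟨v, hv⟩ := (IsIntegrallyClosed.isIntegral_iff (R := ↥V) (K := F)).mp hint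
  rw [← hv]
  exact v.2

/-- One chart. -/
theorem Cert_divisible_of_mem (hϖ0 : algebraMap R F ϖ ≠ 0) (V : ValuationSubring F)
    (hR : ∀ r : R, algebraMap R F r ∈ V) (hR' : ∀ r : R, (algebraMap R F r)⁻¹ ∈ V) {x : F}
    (hx : x ∈ V) {n : ℕ} (hn : 0 < n) {w : F} (c0 : CertAt ϖ (chart R ({x} : Set F)) n w) :
    ∃ a : F, a ≠ 0 ∧ a ^ n * w ∈ V ∧ (a ^ n * w)⁻¹ ∈ V := by
  obtain ⟨M, m, a, b, ha, hb, hsum⟩ := c0
  have haV : ∀ i, a i ^ n * w ∈ V := fun i => Cert_mem_of_mem_chart V hR hx (ha i)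
  have hbV : ∀ i, b i ^ n * w⁻¹ ∈ V := fun i => Cert_mem_of_mem_chart V hR hx (hb i)
  by_cases hw : w = 0
  · refine ⟨1, one_ne_zero, ?_, ?_⟩ <;> simp [hw, V.zero_mem]
  have hpow : ∀ i, (a i * b i) ^ n = (a i ^ n * w) * (b i ^ n * w⁻¹) := by
    intro i
    rw [_root_.mul_pow]
    field_simp
  have hcV : ∀ i, a i * b i ∈ V := by
    intro i
    have h1 : (a i * b i) ^ n ∈ V := by
      rw [hpow i]
      exact V.mul_mem _ _ (haV i) (hbV i)
    have hint : IsIntegral ↥V (a i * b i) := by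
      refine IsIntegral.of_pow hn ?_
      have : (a i * b i) ^ n = algebraMap ↥V F ⟨_, h1⟩ := rfl
      rw [this]
      exact isIntegral_algebraMap
    obtain ⟨v, hv⟩ := (IsIntegrallyClosed.isIntegral_iff (R := ↥V) (K := F)).mp hint
    rw [← hv]
    exact v.2
  have hunit : ∃ i, IsUnit (⟨a i * b i, hcV i⟩ : ↥V) := by
    by_contra hcon
    push Not at hcon
    have hmem : ∀ i, (⟨a i * b i, hcV i⟩ : ↥V) ∈ IsLocalRing.maximalIdeal ↥V := fun i =>
      (IsLocalRing.mem_maximalIdeal _).mpr (hcon i)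
    have hs : (∑ i, (⟨a i * b i, hcV i⟩ : ↥V)) ∈ IsLocalRing.maximalIdeal ↥V :=
      Ideal.sum_mem _ (fun i _ => hmem i)
    have h1 : (∑ i, (⟨a i * b i, hcV i⟩ : ↥V)) = ⟨algebraMap R F ϖ ^ M, pow_mem (hR ϖ) M⟩ := by
      apply Subtype.ext
      rw [AddSubmonoidClass.coe_finsetSum]
      exact hsum
    rw [h1] at hs
    refine (IsLocalRing.mem_maximalIdeal _).mp hs ?_
    refine IsUnit.of_mul_eq_one ⟨(algebraMap R F ϖ)⁻¹ ^ M, pow_mem (hR' ϖ) M⟩ ?_
    apply Subtype.ext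
    show algebraMap R F ϖ ^ M * (algebraMap R F ϖ)⁻¹ ^ M = 1
    rw [← _root_.mul_pow, mul_inv_cancel₀ hϖ0, one_pow]
  obtain ⟨i, hi⟩ := hunit
  obtain ⟨u, hu⟩ := hi
  have hinv : (a i * b i)⁻¹ ∈ V := by
    have h2 : ((u⁻¹ : (↥V)ˣ) : ↥V) * (u : ↥V) = 1 := Units.inv_mul u
    have h3 : (((u⁻¹ : (↥V)ˣ) : ↥V) : F) * (a i * b i) = 1 := by
      have := congrArg (fun z : ↥V => (z : F)) h2
      simpa [hu] using this
    have h4 : (a i * b i)⁻¹ = (((u⁻¹ : (↥V)ˣ) : ↥V) : F) := (eq_inv_of_mul_eq_one_left h3).symm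
    rw [h4]
    exact ((u⁻¹ : (↥V)ˣ) : ↥V).2
  have hne : a i * b i ≠ 0 := by
    intro h0
    have h2 : ((u⁻¹ : (↥V)ˣ) : ↥V) * (u : ↥V) = 1 := Units.inv_mul u
    have := congrArg (fun z : ↥V => (z : F)) h2
    simp [hu, h0] at this
  have hai : a i ≠ 0 := left_ne_zero_of_mul hne
  refine ⟨a i, hai, haV i, ?_⟩
  have hkey : (a i ^ n * w)⁻¹ = (b i ^ n * w⁻¹) * ((a i * b i)⁻¹) ^ n := by
    have hbi : b i ≠ 0 := right_ne_zero_of_mul hne
    rw [inv_pow, _root_.mul_pow, mul_inv, mul_inv]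
    have h1 : a i ^ n ≠ 0 := pow_ne_zero n hai
    have h2 : b i ^ n ≠ 0 := pow_ne_zero n hbi
    field_simp
  rw [hkey]
  exact V.mul_mem _ _ (hbV i) (pow_mem hinv n)

/-- Certificates on the two charts give divisibility at all places of the generic fibre
(as in `GR.E.divisibleAtPlaces_of_certificate`: a valuation subring `V ⊇ Frac R` contains `h` or
`h⁻¹`, hence one of the two charts; `∑ a i * b i = ϖ ^ M` is a unit of `V`, all `a i * b i ∈ V`, so
some `a i * b i` is a unit of `V`, and then `a i ^ n * w` is a unit of `V`).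
NB: the hypothesis `hϖ0` is necessary (for `ϖ = 0` every `w` has a certificate). -/
theorem divisibleAtPlaces_of_certAt (hϖ0 : algebraMap R F ϖ ≠ 0) {h : F} {n : ℕ} (hn : 0 < n)
    {w : F}
    (h0 : CertAt ϖ (chart R ({h} : Set F)) n w) (h1 : CertAt ϖ (chart R ({h⁻¹} : Set F)) n w) :
    DivisibleAtPlaces R n w := by
  intro V hR hR'
  rcases V.mem_or_inv_mem h with hh | hh
  · exact Cert_divisible_of_mem hϖ0 V hR hR' hh hn h0
  · exact Cert_divisible_of_mem hϖ0 V hR hR' hh hn h1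

/-- `τ` preserves the charts attached to `h`. -/
theorem ChartAut.map_mem_chart {h : F} {τ : F ≃+* F} (hτ : ChartAut R 𝒪₁ 𝒪₂ h τ) {S : Set F}
    (hS : ∀ s ∈ S, τ s ∈ S) {x : F} (hx : x ∈ chart R S) : τ x ∈ chart R S := by
  have hadj : ∀ y ∈ Algebra.adjoin R S, τ y ∈ Algebra.adjoin R S := by
    intro y hy
    induction hy using Algebra.adjoin_induction with
    | mem s hs => exact Algebra.subset_adjoin (hS s hs)
    | algebraMap r =>
      obtain ⟨r', hr'⟩ := hτ.mapR r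
      rw [hr']
      exact Subalgebra.algebraMap_mem _ r'
    | add y z _ _ hy hz => rw [map_add]; exact Subalgebra.add_mem _ hy hz
    | mul y z _ _ hy hz => rw [map_mul]; exact Subalgebra.mul_mem _ hy hz
  let f : ↥(Algebra.adjoin R S) →+* ↥(Algebra.adjoin R S) :=
    RingHom.codRestrict ((τ : F →+* F).comp (algebraMap (↥(Algebra.adjoin R S)) F))
      (Algebra.adjoin R S) (fun a => hadj a a.2)
  obtain ⟨p, hpm, hpe⟩ := mem_chart.1 hx
  rw [mem_chart]
  refine ⟨p.map f, hpm.map f, ?_⟩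
  rw [Polynomial.eval₂_map]
  have hcomp : (algebraMap (↥(Algebra.adjoin R S)) F).comp f =
      (τ : F →+* F).comp (algebraMap (↥(Algebra.adjoin R S)) F) := by
    ext a
    rfl
  rw [hcomp]
  have := Polynomial.hom_eval₂ p (algebraMap (↥(Algebra.adjoin R S)) F) (τ : F →+* F) x
  rw [hpe, map_zero] at this
  exact this.symm

end Fermat.Agent.GS
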