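import Fermat.Agent.GS.Abs.Basic
import Fermat.Agent.GR.E.E5

/-! GS abstract part, file `Diff`. -/

set_option autoImplicit false

namespace Fermat.Agent.GS

open Fermat.Agent.GR.E

variable {R : Type*} [CommRing R] [IsDomain R] [IsDiscreteValuationRing R]
variable {F : Type*} [Field F] [Algebra R F]
variable {ϖ : R} {𝒪₁ 𝒪₂ : ValuationSubring F}

/-- the one-valuation estimate: `(a₀ - a₁) / ϖ ^ m ∈ 𝒪`. -/
theorem Diff_sub_div_pow_mem {𝒪 : ValuationSubring F} (hG : GaussRing ϖ 𝒪)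
    (hRO : ∀ r : R, algebraMap R F r ∈ 𝒪) {n : ℕ}
    (hn : IsUnit (n : R)) {w : F} (hw1 : (w - 1) / algebraMap R F ϖ ∈ 𝒪)
    {a₀ a₁ : F} {m : ℕ}
    (h₀' : (a₀ - 1) / algebraMap R F ϖ ∈ 𝒪) (h₁' : (a₁ - 1) / algebraMap R F ϖ ∈ 𝒪)
    (h₀m : (a₀ ^ n * w - 1) / algebraMap R F ϖ ^ m ∈ 𝒪)
    (h₁m : (a₁ ^ n * w - 1) / algebraMap R F ϖ ^ m ∈ 𝒪) :
    (a₀ - a₁) / algebraMap R F ϖ ^ m ∈ 𝒪 := by
  set P := algebraMap R F ϖ with hP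
  have hP0 : P ≠ 0 := hG.ne_zero
  obtain ⟨hw, hw', hw0⟩ := hG.mem_of_sub_one hw1
  set S := ∑ i ∈ Finset.range n, a₀ ^ i * a₁ ^ (n - 1 - i) with hS
  have hSn : (S - (n : F)) / P ∈ 𝒪 := by
    have : (S - (n : F)) / P = ∑ i ∈ Finset.range n, (a₀ ^ i * a₁ ^ (n - 1 - i) - 1) / P := by
      rw [← Finset.sum_div, Finset.sum_sub_distrib, Finset.sum_const, Finset.card_range,
        nsmul_eq_mul, mul_one]
    rw [this]
    exact sum_mem fun i _ => E5_mul_sub_one hG (E5_pow_sub_one hG h₀' i) (E5_pow_sub_one hG h₁' _)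
  have hnO : (n : F) ∈ 𝒪 := natCast_mem 𝒪 n
  have hSO : S ∈ 𝒪 := by
    have : S = (n : F) + P * ((S - (n : F)) / P) := by
      field_simp
      ring
    rw [this]
    exact 𝒪.add_mem _ _ hnO (𝒪.mul_mem _ _ hG.mem hSn)
  obtain ⟨u, hu⟩ := hn
  have h1 : (n : F) * algebraMap R F ((u⁻¹ : Rˣ) : R) = 1 := by
    rw [← map_natCast (algebraMap R F), ← hu, ← map_mul, Units.mul_inv, map_one]
  have hnP : (n : F) / P ∉ 𝒪 := by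
    intro hn'
    apply hG.inv_not_mem
    have : P⁻¹ = algebraMap R F ((u⁻¹ : Rˣ) : R) * ((n : F) / P) := by
      rw [mul_div_assoc', mul_comm _ (n : F), h1, one_div]
    rw [← hP, this]
    exact 𝒪.mul_mem _ _ (hRO _) hn'
  have hSP : S / P ∉ 𝒪 := by
    intro h
    apply hnP
    have : (n : F) / P = S / P - (S - (n : F)) / P := by ring
    rw [this]
    exact 𝒪.sub_mem h hSn
  have hSinv : S⁻¹ ∈ 𝒪 := (hG.unif S hSO).resolve_left hSP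
  have hS0 : S ≠ 0 := by
    intro h0
    apply hSP
    rw [h0, zero_div]
    exact 𝒪.zero_mem
  have hgeom : S * (a₀ - a₁) = a₀ ^ n - a₁ ^ n := geom_sum₂_mul a₀ a₁ n
  have : (a₀ - a₁) / P ^ m =
      S⁻¹ * w⁻¹ * ((a₀ ^ n * w - 1) / P ^ m - (a₁ ^ n * w - 1) / P ^ m) := by
    have h2 : (a₀ ^ n * w - 1) / P ^ m - (a₁ ^ n * w - 1) / P ^ m =
        S * (a₀ - a₁) * w / P ^ m := by
      rw [hgeom]
      ring
    rw [h2]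
    field_simp
  rw [this]
  exact 𝒪.mul_mem _ _ (𝒪.mul_mem _ _ hSinv hw') (𝒪.sub_mem h₀m h₁m)

/-- Comparison on the overlap (analogue of `GR.E.sub_div_pow_mem_rootSet`). -/
theorem sub_div_pow_mem_rootSet2 (hϖ : Irreducible ϖ) (hG₁ : GaussRing ϖ 𝒪₁)
    (hG₂ : GaussRing ϖ 𝒪₂) {C : Subalgebra R F} (hC : SatChart2 ϖ 𝒪₁ 𝒪₂ C) {n : ℕ}
    (hn : IsUnit (n : R)) {w : F}
    (hw₁ : (w - 1) / algebraMap R F ϖ ∈ 𝒪₁) (hw₂ : (w - 1) / algebraMap R F ϖ ∈ 𝒪₂)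
    {a₀ a₁ : F} {m : ℕ} (h₀ : a₀ ∈ rootSet C n w) (h₁ : a₁ ∈ rootSet C n w)
    (h₀₁ : (a₀ - 1) / algebraMap R F ϖ ∈ 𝒪₁) (h₀₂ : (a₀ - 1) / algebraMap R F ϖ ∈ 𝒪₂)
    (h₁₁ : (a₁ - 1) / algebraMap R F ϖ ∈ 𝒪₁) (h₁₂ : (a₁ - 1) / algebraMap R F ϖ ∈ 𝒪₂)
    (h₀m : (a₀ ^ n * w - 1) / algebraMap R F ϖ ^ m ∈ C)
    (h₁m : (a₁ ^ n * w - 1) / algebraMap R F ϖ ^ m ∈ C) :
    (a₀ - a₁) / algebraMap R F ϖ ^ m ∈ rootSet C n w := by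
  have hn0 : 0 < n := by
    rcases Nat.eq_zero_or_pos n with h | h
    · subst h
      simp at hn
    · exact h
  have hbroot : a₀ - a₁ ∈ rootSet C n w := by
    rw [sub_eq_add_neg]
    exact rootSet_add hC.closed hn0 h₀ (rootSet_neg h₁)
  exact div_pow_mem_rootSet hC (hG₁.mem_of_sub_one hw₁).1 (hG₂.mem_of_sub_one hw₂).1 m hbroot
    (Diff_sub_div_pow_mem hG₁ (fun r => hC.le₁ _ (C.algebraMap_mem r)) hn hw₁ h₀₁ h₁₁
      (hC.le₁ _ h₀m) (hC.le₁ _ h₁m))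
    (Diff_sub_div_pow_mem hG₂ (fun r => hC.le₂ _ (C.algebraMap_mem r)) hn hw₂ h₀₂ h₁₂
      (hC.le₂ _ h₀m) (hC.le₂ _ h₁m))

end Fermat.Agent.GS
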