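import Fermat.Agent.GS.Abs.Glue

/-! GS abstract part, file `GlueNode`. -/

set_option autoImplicit false

namespace Fermat.Agent.GS

open Fermat.Agent.GR.E

variable {R : Type*} [CommRing R] [IsDomain R] [IsDiscreteValuationRing R]
variable {F : Type*} [Field F] [Algebra R F]
variable {ϖ : R} {𝒪₁ 𝒪₂ : ValuationSubring F}

theorem GlueNode_cong_mul {𝒪 : ValuationSubring F} {P x x' y y' : F} (hx : x ∈ 𝒪) (hy' : y' ∈ 𝒪)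
    (h1 : (x - x') / P ∈ 𝒪) (h2 : (y - y') / P ∈ 𝒪) : (x * y - x' * y') / P ∈ 𝒪 := by
  have : (x * y - x' * y') / P = x * ((y - y') / P) + y' * ((x - x') / P) := by ring
  rw [this]
  exact add_mem (mul_mem hx h2) (mul_mem hy' h1)

theorem GlueNode_cong_pow {𝒪 : ValuationSubring F} {P x x' : F} (hx : x ∈ 𝒪) (hx' : x' ∈ 𝒪)
    (h : (x - x') / P ∈ 𝒪) (k : ℕ) : (x ^ k - x' ^ k) / P ∈ 𝒪 := by
  induction k with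
  | zero => simp
  | succ k ih =>
    rw [pow_succ, pow_succ]
    exact GlueNode_cong_mul (pow_mem hx k) hx' ih h

theorem GlueNode_cong_trans {𝒪 : ValuationSubring F} {P x y z : F}
    (h1 : (x - y) / P ∈ 𝒪) (h2 : (y - z) / P ∈ 𝒪) : (x - z) / P ∈ 𝒪 := by
  have : (x - z) / P = (x - y) / P + (y - z) / P := by ring
  rw [this]
  exact add_mem h1 h2

/-- `τ ϖ / ϖ` is integral. -/
theorem GlueNode_map_unif {𝒪 : ValuationSubring F} (hG : GaussRing ϖ 𝒪) {τ : F ≃+* F}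
    (hmem : ∀ x, τ x ∈ 𝒪 ↔ x ∈ 𝒪) :
    τ (algebraMap R F ϖ) / algebraMap R F ϖ ∈ 𝒪 := by
  rcases hG.unif (τ (algebraMap R F ϖ)) ((hmem _).2 hG.mem) with h | h
  · exact h
  · exfalso
    apply hG.inv_not_mem
    rw [← hmem, map_inv₀]
    exact h

theorem GlueNode_cong_map {𝒪 : ValuationSubring F} (hG : GaussRing ϖ 𝒪) {τ : F ≃+* F}
    (hmem : ∀ x, τ x ∈ 𝒪 ↔ x ∈ 𝒪) {x y : F} (h : (x - y) / algebraMap R F ϖ ∈ 𝒪) :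
    (τ x - τ y) / algebraMap R F ϖ ∈ 𝒪 := by
  have h0 := hG.ne_zero
  have : (τ x - τ y) / algebraMap R F ϖ =
      τ ((x - y) / algebraMap R F ϖ) * (τ (algebraMap R F ϖ) / algebraMap R F ϖ) := by
    rw [map_div₀, map_sub]
    have h1 : τ (algebraMap R F ϖ) ≠ 0 := by simpa using h0
    field_simp
  rw [this]
  exact mul_mem ((hmem _).2 h) (GlueNode_map_unif hG hmem)

/-- One branch: `b₀ ≡ β` modulo `ϖ 𝒪`. -/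
theorem GlueNode_branch {𝒪 : ValuationSubring F} (hG : GaussRing ϖ 𝒪) {τ : F ≃+* F}
    (hmem : ∀ x, τ x ∈ 𝒪 ↔ x ∈ 𝒪) {w a α : F} (hw : (w - 1) / algebraMap R F ϖ ∈ 𝒪)
    (ha : a ∈ 𝒪) (hα : α ∈ 𝒪) (h : (a - α) / algebraMap R F ϖ ∈ 𝒪) (k c : ℕ) :
    (τ a * (a ^ k * w) ^ c - τ α * (α ^ k) ^ c) / algebraMap R F ϖ ∈ 𝒪 := by
  obtain ⟨hw𝒪, -, -⟩ := hG.mem_of_sub_one hw
  refine GlueNode_cong_mul ((hmem _).2 ha) (pow_mem (pow_mem hα k) c)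
    (GlueNode_cong_map hG hmem h) ?_
  refine GlueNode_cong_pow (mul_mem (pow_mem ha k) hw𝒪) (pow_mem hα k) ?_ c
  have := GlueNode_cong_mul (P := algebraMap R F ϖ) (pow_mem ha k) (one_mem 𝒪)
    (GlueNode_cong_pow ha hα h k) hw
  simpa using this

/-- A node.  `b₀ = τ a * (a ^ (n-1) * w) ^ c` where `a ^ n * w = ε ∉ 𝔪`; on both branches
`b₀ ≡ ε ^ c` at `𝔪`. -/
theorem glueAt_node (hϖ : Irreducible ϖ) (hG₁ : GaussRing ϖ 𝒪₁) (hG₂ : GaussRing ϖ 𝒪₂)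
    {C : Subalgebra R F} (hC : NodalChart ϖ 𝒪₁ 𝒪₂ C) {n : ℕ} (hn : 0 < n) {w : F}
    (hw₁ : (w - 1) / algebraMap R F ϖ ∈ 𝒪₁) (hw₂ : (w - 1) / algebraMap R F ϖ ∈ 𝒪₂)
    {h : F} {τ : F ≃+* F} (hτ : ChartAut R 𝒪₁ 𝒪₂ h τ) (hτC : ∀ x ∈ C, τ x ∈ C) {c : ℕ}
    (hc : FrobLike ϖ 𝒪₁ 𝒪₂ C τ c)
    (𝔪 : Ideal C) (h𝔪 : 𝔪.IsMaximal) (h₁ : vert ϖ 𝒪₁ C ≤ 𝔪) (h₂ : vert ϖ 𝒪₂ C ≤ 𝔪)
    (hu : ∃ a : F, ∃ h : a ^ n * w ∈ C, (⟨a ^ n * w, h⟩ : C) ∉ 𝔪) :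
    GlueAt ϖ 𝒪₁ 𝒪₂ C n (τ w / w ^ c) 𝔪 := by
  obtain ⟨a, haC, ham⟩ := hu
  obtain ⟨k, rfl⟩ : ∃ k, n = k + 1 := ⟨n - 1, by omega⟩
  set P : F := algebraMap R F ϖ with hP
  obtain ⟨hw𝒪₁, hw'₁, hw0⟩ := hG₁.mem_of_sub_one hw₁
  obtain ⟨hw𝒪₂, hw'₂, -⟩ := hG₂.mem_of_sub_one hw₂
  have hS : SatChart2 ϖ 𝒪₁ 𝒪₂ C := hC.toSatChart2
  have ha₁ : a ∈ 𝒪₁ := rootSet_subset₁ hS hn hw0 hw'₁ haC
  have ha₂ : a ∈ 𝒪₂ := rootSet_subset₁ hS.symm hn hw0 hw'₂ haC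
  -- `a ^ n ≡ ε`
  have hε₁ : (a ^ (k + 1) - a ^ (k + 1) * w) / P ∈ 𝒪₁ := by
    have : (a ^ (k + 1) - a ^ (k + 1) * w) / P = -(a ^ (k + 1) * ((w - 1) / P)) := by ring
    rw [this]
    exact neg_mem (mul_mem (pow_mem ha₁ _) hw₁)
  have hε₂ : (a ^ (k + 1) - a ^ (k + 1) * w) / P ∈ 𝒪₂ := by
    have : (a ^ (k + 1) - a ^ (k + 1) * w) / P = -(a ^ (k + 1) * ((w - 1) / P)) := by ring
    rw [this]
    exact neg_mem (mul_mem (pow_mem ha₂ _) hw₂)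
  obtain ⟨α₁, hα₁C, hα₁⟩ := exists_cong₁ hG₁ hC hn haC ha₁ hε₁
  obtain ⟨α₂, hα₂C, hα₂⟩ := exists_cong₁ hG₂ hC.symm hn haC ha₂ hε₂
  have hα₁𝒪 : α₁ ∈ 𝒪₁ := hS.le₁ _ hα₁C
  have hα₂𝒪 : α₂ ∈ 𝒪₂ := hS.le₂ _ hα₂C
  -- elements of `C`
  set E : C := ⟨a ^ (k + 1) * w, haC⟩ with hE
  set A₁ : C := ⟨α₁, hα₁C⟩ with hA₁
  set A₂ : C := ⟨α₂, hα₂C⟩ with hA₂
  set T₁ : C := ⟨τ α₁, hτC _ hα₁C⟩ with hT₁
  set T₂ : C := ⟨τ α₂, hτC _ hα₂C⟩ with hT₂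
  set TE : C := ⟨τ (a ^ (k + 1) * w), hτC _ haC⟩ with hTE
  set B₁ : C := T₁ * (A₁ ^ k) ^ c with hB₁
  set B₂ : C := T₂ * (A₂ ^ k) ^ c with hB₂
  set b₀ : F := τ a * (a ^ k * w) ^ c with hb₀
  have hbr₁ : (b₀ - (B₁ : F)) / P ∈ 𝒪₁ := GlueNode_branch hG₁ hτ.mem₁ hw₁ ha₁ hα₁𝒪 hα₁ k c
  have hbr₂ : (b₀ - (B₂ : F)) / P ∈ 𝒪₂ := GlueNode_branch hG₂ hτ.mem₂ hw₂ ha₂ hα₂𝒪 hα₂ k c
  -- congruences modulo `𝔪`
  have hfrob : ∀ (x : C) (Tx : C), (Tx : F) = τ x → Tx - x ^ c ∈ 𝔪 := by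
    intro x Tx hTx
    obtain ⟨y₁, hy₁C, y₂, hy₂C, hy₁, hy₂, hxy⟩ := hc x x.2
    have e : Tx - x ^ c = (⟨y₁, hy₁C⟩ : C) + ⟨y₂, hy₂C⟩ := by
      apply Subtype.ext
      push_cast
      rw [hTx, hxy]
    rw [e]
    exact 𝔪.add_mem (h₁ ((mem_vert hS.le₁ _).2 hy₁)) (h₂ ((mem_vert hS.le₂ _).2 hy₂))
  have hAE₁ : A₁ ^ (k + 1) - E ∈ 𝔪 := by
    apply h₁
    rw [mem_vert hS.le₁]
    have h1 : (α₁ ^ (k + 1) - a ^ (k + 1)) / P ∈ 𝒪₁ := by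
      have := GlueNode_cong_pow (P := P) ha₁ hα₁𝒪 hα₁ (k + 1)
      have e : (α₁ ^ (k + 1) - a ^ (k + 1)) / P = -((a ^ (k + 1) - α₁ ^ (k + 1)) / P) := by ring
      rw [e]; exact neg_mem this
    exact GlueNode_cong_trans h1 hε₁
  have hAE₂ : A₂ ^ (k + 1) - E ∈ 𝔪 := by
    apply h₂
    rw [mem_vert hS.le₂]
    have h1 : (α₂ ^ (k + 1) - a ^ (k + 1)) / P ∈ 𝒪₂ := by
      have := GlueNode_cong_pow (P := P) ha₂ hα₂𝒪 hα₂ (k + 1)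
      have e : (α₂ ^ (k + 1) - a ^ (k + 1)) / P = -((a ^ (k + 1) - α₂ ^ (k + 1)) / P) := by ring
      rw [e]; exact neg_mem this
    exact GlueNode_cong_trans h1 hε₂
  have hBE : ∀ (A T : C), T - A ^ c ∈ 𝔪 → A ^ (k + 1) - E ∈ 𝔪 →
      T * (A ^ k) ^ c - E ^ c ∈ 𝔪 := by
    intro A T hT hA
    rw [← Ideal.Quotient.eq] at hT hA ⊢
    rw [map_mul, map_pow, map_pow, hT, map_pow, map_pow, ← hA, map_pow]
    ring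
  have hB₁E : B₁ - E ^ c ∈ 𝔪 := hBE A₁ T₁ (hfrob A₁ T₁ rfl) hAE₁
  have hB₂E : B₂ - E ^ c ∈ 𝔪 := hBE A₂ T₂ (hfrob A₂ T₂ rfl) hAE₂
  have hδ : B₁ - B₂ ∈ 𝔪 := by
    have : B₁ - B₂ = (B₁ - E ^ c) - (B₂ - E ^ c) := by ring
    rw [this]
    exact 𝔪.sub_mem hB₁E hB₂E
  have hprime : 𝔪.IsPrime := h𝔪.isPrime
  have hB₁m : B₁ ∉ 𝔪 := by
    intro hB
    have : E ^ c ∈ 𝔪 := by
      have e : E ^ c = B₁ - (B₁ - E ^ c) := by ring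
      rw [e]
      exact 𝔪.sub_mem hB hB₁E
    exact ham (hprime.mem_of_pow_mem c this)
  obtain ⟨s, hs, hsδ⟩ := exists_mul_mem_vert_sup hϖ hG₁ hG₂ hC 𝔪 h𝔪 h₁ h₂ (B₁ - B₂) hδ
  obtain ⟨y₁, hy₁, y₂, hy₂, hy⟩ := Submodule.mem_sup.1 hsδ
  have hy₁' := (mem_vert hS.le₁ y₁).1 hy₁
  have hy₂' := (mem_vert hS.le₂ y₂).1 hy₂
  have hyF : (y₁ : F) + y₂ = s * (B₁ - B₂) := by
    have := congrArg (fun x : C => (x : F)) hy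
    simpa using this
  refine ⟨s * b₀, ?_, s * B₁ - y₁, ?_, ?_, ?_⟩
  · -- membership in the root set
    show (s * b₀) ^ (k + 1) * (τ w / w ^ c) ∈ C
    have e : ((s : F) * b₀) ^ (k + 1) * (τ w / w ^ c) =
        ((s ^ (k + 1) * TE * E ^ (k * c) : C) : F) := by
      push_cast
      rw [hb₀, hTE, hE]
      simp only [map_mul, map_pow]
      field_simp
      ring
    rw [e]
    exact Subtype.mem _
  · intro he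
    have : s * B₁ ∈ 𝔪 := by
      have e : s * B₁ = (s * B₁ - y₁) + y₁ := by ring
      rw [e]
      exact 𝔪.add_mem he (h₁ hy₁)
    rcases hprime.mem_or_mem this with h | h
    · exact hs h
    · exact hB₁m h
  · have e : ((s : F) * b₀ - ((s * B₁ - y₁ : C) : F)) / P =
        s * ((b₀ - (B₁ : F)) / P) + (y₁ : F) / P := by
      push_cast; ring
    rw [e]
    exact add_mem (mul_mem (hS.le₁ _ s.2) hbr₁) hy₁'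
  · have e : ((s : F) * b₀ - ((s * B₁ - y₁ : C) : F)) / P =
        s * ((b₀ - (B₂ : F)) / P) - (y₂ : F) / P := by
      have h3 : (y₁ : F) = s * (B₁ - B₂) - y₂ := by rw [← hyF]; ring
      push_cast
      rw [h3]; ring
    rw [e]
    exact sub_mem (mul_mem (hS.le₂ _ s.2) hbr₂) hy₂'

end Fermat.Agent.GS
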