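import Fermat.Agent.GS.Abs.One
import Fermat.Agent.GS.Abs.GlueNode
import Fermat.Agent.GS.Abs.Diff
import Fermat.Agent.GR.E.E6b

/-! GS abstract part, file `Crux`: THE NODAL CRUX. -/

set_option autoImplicit false

namespace Fermat.Agent.GS

open Fermat.Agent.GR.E

variable {R : Type*} [CommRing R] [IsDomain R] [IsDiscreteValuationRing R]
variable {F : Type*} [Field F] [Algebra R F]
variable {ϖ : R} {𝒪₁ 𝒪₂ : ValuationSubring F}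

/-- every element of `F` is a fraction of elements of a nodal chart -/
theorem Crux_frac {C : Subalgebra R F} (hC : NodalChart ϖ 𝒪₁ 𝒪₂ C) (x : F) :
    ∃ b ∈ C, b ≠ 0 ∧ x * b ∈ C := by
  rcases 𝒪₁.mem_or_inv_mem x with hx | hx
  · obtain ⟨b, hb, hb', hxb⟩ := hC.frac₁ x hx
    refine ⟨b, hb, ?_, hxb⟩
    rintro rfl
    exact hb' (by simp [𝒪₁.zero_mem])
  · obtain ⟨b, hb, hb', hxb⟩ := hC.frac₁ x⁻¹ hx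
    have hb0 : b ≠ 0 := by
      rintro rfl
      exact hb' (by simp [𝒪₁.zero_mem])
    by_cases hx0 : x = 0
    · exact ⟨b, hb, hb0, by simp [hx0, C.zero_mem]⟩
    · refine ⟨x⁻¹ * b, hxb, mul_ne_zero (inv_ne_zero hx0) hb0, ?_⟩
      rw [← mul_assoc, mul_inv_cancel₀ hx0, one_mul]
      exact hb

/-- Same Cech argument as `GR.E.crux_abstract`. -/
theorem nodal_crux_of_glue (hϖ : Irreducible ϖ) (hG₁ : GaussRing ϖ 𝒪₁) (hG₂ : GaussRing ϖ 𝒪₂)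
    {h : F} (hh₁ : h ∈ 𝒪₁) (hh₁' : h⁻¹ ∈ 𝒪₁) (hh₂ : h ∈ 𝒪₂) (hh₂' : h⁻¹ ∈ 𝒪₂) (h0 : h ≠ 0)
    (hC0 : NodalChart ϖ 𝒪₁ 𝒪₂ (chart R ({h} : Set F)))
    (hC1 : NodalChart ϖ 𝒪₁ 𝒪₂ (chart R ({h⁻¹} : Set F)))
    (hfin : Module.Finite (Algebra.adjoin R ({h} : Set F))
      (integralClosure (Algebra.adjoin R ({h} : Set F)) F))
    {n : ℕ} (hn : IsUnit (n : R)) {w : F}
    (hw₁ : (w - 1) / algebraMap R F ϖ ∈ 𝒪₁) (hw₂ : (w - 1) / algebraMap R F ϖ ∈ 𝒪₂)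
    (hg0 : ∀ 𝔪 : Ideal (chart R ({h} : Set F)), 𝔪.IsMaximal → algebraMap R _ ϖ ∈ 𝔪 →
      GlueAt ϖ 𝒪₁ 𝒪₂ (chart R ({h} : Set F)) n w 𝔪)
    (hg1 : ∀ 𝔪 : Ideal (chart R ({h⁻¹} : Set F)), 𝔪.IsMaximal → algebraMap R _ ϖ ∈ 𝔪 →
      GlueAt ϖ 𝒪₁ 𝒪₂ (chart R ({h⁻¹} : Set F)) n w 𝔪) :
    ∃ a : F, a ≠ 0 ∧ a ^ n * w ∈ chart R ({h} : Set F) ∧ a ^ n * w ∈ chart R ({h⁻¹} : Set F) := by
  have hn0 : 0 < n := by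
    rcases Nat.eq_zero_or_pos n with rfl | hpos
    · simp at hn
    · exact hpos
  obtain ⟨-, hw', hw0⟩ := hG₁.mem_of_sub_one hw₁
  set P : F := algebraMap R F ϖ with hP
  have hP0 : P ≠ 0 := hG₁.ne_zero
  obtain ⟨m₀, hm₀⟩ := exists_bound_rootSet hϖ h0 hfin (Crux_frac hC0) hn0 hw0
  obtain ⟨a₀, ha₀, ha₀₁, ha₀₂, ha₀m⟩ :=
    exists_one_pow hG₁ hG₂ hC0.toSatChart2 hn hw₁ hw₂ hg0 (m₀ + 1)
  obtain ⟨a₁, ha₁, ha₁₁, ha₁₂, ha₁m⟩ :=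
    exists_one_pow hG₁ hG₂ hC1.toSatChart2 hn hw₁ hw₂ hg1 (m₀ + 1)
  have hmid : SatChart2 ϖ 𝒪₁ 𝒪₂ (chart R ({h, h⁻¹} : Set F)) :=
    satChart2_mid hh₁ hh₁' hh₂ hh₂' h0 hC0.toSatChart2
  have hle0 : chart R ({h} : Set F) ≤ chart R ({h, h⁻¹} : Set F) :=
    chart_mono (by intro x hx; exact Or.inl hx)
  have hle1 : chart R ({h⁻¹} : Set F) ≤ chart R ({h, h⁻¹} : Set F) :=
    chart_mono (by intro x hx; exact Or.inr hx)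
  have hc : (a₀ - a₁) / P ^ (m₀ + 1) ∈ rootSet (chart R ({h, h⁻¹} : Set F)) n w :=
    sub_div_pow_mem_rootSet2 hϖ hG₁ hG₂ hmid hn hw₁ hw₂ (hle0 ha₀) (hle1 ha₁) ha₀₁ ha₀₂ ha₁₁ ha₁₂
      (hle0 ha₀m) (hle1 ha₁m)
  obtain ⟨b₀, hb₀, b₁, hb₁, hb⟩ := hm₀ _ hc (m₀ + 1)
    ⟨a₀, ha₀, -a₁, rootSet_neg ha₁, by
      rw [mul_div_cancel₀ _ (pow_ne_zero _ hP0)]; ring⟩
  have hkey : a₀ - a₁ = P * (b₀ + b₁) := by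
    rw [← hb, ← mul_assoc, ← pow_succ', mul_div_cancel₀ _ (pow_ne_zero _ hP0)]
  have hPC0 : P ∈ chart R ({h} : Set F) := (chart R ({h} : Set F)).algebraMap_mem ϖ
  have hPC1 : P ∈ chart R ({h⁻¹} : Set F) := (chart R ({h⁻¹} : Set F)).algebraMap_mem ϖ
  have hA0 : a₀ + -(P * b₀) ∈ rootSet (chart R ({h} : Set F)) n w :=
    rootSet_add hC0.closed hn0 ha₀ (rootSet_neg (rootSet_mul hPC0 hb₀))
  have hA1 : a₁ + P * b₁ ∈ rootSet (chart R ({h⁻¹} : Set F)) n w :=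
    rootSet_add hC1.closed hn0 ha₁ (rootSet_mul hPC1 hb₁)
  have heq : a₀ + -(P * b₀) = a₁ + P * b₁ := by linear_combination hkey
  refine ⟨a₀ + -(P * b₀), ?_, hA0, ?_⟩
  · intro hzero
    have hb₀𝒪 : b₀ ∈ 𝒪₁ := rootSet_subset₁ hC0.toSatChart2 hn0 hw0 hw' hb₀
    have h1 : (a₀ - 1) / P - b₀ ∈ 𝒪₁ := 𝒪₁.sub_mem ha₀₁ hb₀𝒪
    have h2 : (a₀ - 1) / P - b₀ = -P⁻¹ := by
      field_simp
      linear_combination hzero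
    rw [h2] at h1
    exact hG₁.inv_not_mem (by simpa using 𝒪₁.neg_mem _ h1)
  · rw [heq]
    exact hA1

/-- `τ w / w ^ c ≡ 1` for one valuation. -/
theorem Crux_cong {𝒪 : ValuationSubring F} (hG : GaussRing ϖ 𝒪) {τ : F ≃+* F}
    (hmem : ∀ x, τ x ∈ 𝒪 ↔ x ∈ 𝒪) {w : F} (hw : (w - 1) / algebraMap R F ϖ ∈ 𝒪) (c : ℕ) :
    (τ w / w ^ c - 1) / algebraMap R F ϖ ∈ 𝒪 := by
  set P : F := algebraMap R F ϖ with hP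
  have hP0 : P ≠ 0 := hG.ne_zero
  have hτP0 : τ P ≠ 0 := by simpa using hP0
  have hτP : τ P / P ∈ 𝒪 := by
    refine (hG.unif (τ P) ((hmem P).2 hG.mem)).resolve_right ?_
    rw [← map_inv₀, hmem]
    exact hG.inv_not_mem
  have h1 : (τ w - 1) / P ∈ 𝒪 := by
    have h2 : τ ((w - 1) / P) ∈ 𝒪 := (hmem _).2 hw
    have h3 : (τ w - 1) / P = τ ((w - 1) / P) * (τ P / P) := by
      rw [map_div₀, map_sub, map_one]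
      field_simp
    rw [h3]
    exact 𝒪.mul_mem _ _ h2 hτP
  have h4 : (w ^ c - 1) / P ∈ 𝒪 := E5_pow_sub_one hG hw c
  obtain ⟨-, h5, h6⟩ := hG.mem_of_sub_one h4
  have h7 : ((w ^ c)⁻¹ - 1) / P ∈ 𝒪 := by
    have : ((w ^ c)⁻¹ - 1) / P = -((w ^ c - 1) / P * (w ^ c)⁻¹) := by
      field_simp
      ring
    rw [this]
    exact 𝒪.neg_mem _ (𝒪.mul_mem _ _ h4 h5)
  rw [div_eq_mul_inv (τ w)]
  exact E5_mul_sub_one hG h1 h7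

theorem Crux_glueAt_symm {C : Subalgebra R F} {n : ℕ} {w : F} {𝔪 : Ideal C}
    (h : GlueAt ϖ 𝒪₂ 𝒪₁ C n w 𝔪) : GlueAt ϖ 𝒪₁ 𝒪₂ C n w 𝔪 := by
  obtain ⟨b, hb, e, he, h1, h2⟩ := h
  exact ⟨b, hb, e, he, h2, h1⟩

/-- gluing at all closed points of the special fibre of one nodal chart -/
theorem Crux_glue (hϖ : Irreducible ϖ) (hG₁ : GaussRing ϖ 𝒪₁) (hG₂ : GaussRing ϖ 𝒪₂)
    {C : Subalgebra R F} (hC : NodalChart ϖ 𝒪₁ 𝒪₂ C) {n : ℕ} (hn : 0 < n) {w : F}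
    (hw₁ : (w - 1) / algebraMap R F ϖ ∈ 𝒪₁) (hw₂ : (w - 1) / algebraMap R F ϖ ∈ 𝒪₂)
    {h : F} {τ : F ≃+* F} (hτ : ChartAut R 𝒪₁ 𝒪₂ h τ) (hτC : ∀ x ∈ C, τ x ∈ C) {c : ℕ}
    (hc : FrobLike ϖ 𝒪₁ 𝒪₂ C τ c)
    (hdiv : DivisibleAtPlaces R n w) (hcert : CertAt ϖ C n w)
    (hdiv' : DivisibleAtPlaces R n (τ w / w ^ c)) (hcert' : CertAt ϖ C n (τ w / w ^ c))
    (𝔪 : Ideal C) (h𝔪 : 𝔪.IsMaximal) (hϖ𝔪 : algebraMap R C ϖ ∈ 𝔪) :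
    GlueAt ϖ 𝒪₁ 𝒪₂ C n (τ w / w ^ c) 𝔪 := by
  have hw₁' := Crux_cong hG₁ hτ.mem₁ hw₁ c
  have hw₂' := Crux_cong hG₂ hτ.mem₂ hw₂ c
  have hu := exists_unit_at hϖ hG₁ hG₂ hC hn hw₁ hw₂ hdiv hcert 𝔪 h𝔪 hϖ𝔪
  have hu' := exists_unit_at hϖ hG₁ hG₂ hC hn hw₁' hw₂' hdiv' hcert' 𝔪 h𝔪 hϖ𝔪
  haveI := h𝔪.isPrime
  by_cases h₁ : vert ϖ 𝒪₁ C ≤ 𝔪
  · by_cases h₂ : vert ϖ 𝒪₂ C ≤ 𝔪
    · exact glueAt_node hϖ hG₁ hG₂ hC hn hw₁ hw₂ hτ hτC hc 𝔪 h𝔪 h₁ h₂ hu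
    · exact glueAt_of_not_le hϖ hG₁ hG₂ hC hn hw₁' hw₂' 𝔪 h𝔪 h₁ h₂ hu'
  · have h₂ : vert ϖ 𝒪₂ C ≤ 𝔪 :=
      (vert_le_or_vert_le hG₁ hC.toSatChart2 𝔪 hϖ𝔪).resolve_left h₁
    exact Crux_glueAt_symm (glueAt_of_not_le hϖ hG₂ hG₁ hC.symm hn hw₂' hw₁' 𝔪 h𝔪 h₂ h₁ hu')

/-- THE NODAL CRUX.  `w ≡ 1` on both components, `n ∣ div w`, `τ` a Galois automorphism which is
`x ↦ x ^ c` at the nodes.  Then `τ w / w ^ c` is a constant times an `n`-th power. -/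
theorem nodal_crux (hϖ : Irreducible ϖ) (hG₁ : GaussRing ϖ 𝒪₁) (hG₂ : GaussRing ϖ 𝒪₂)
    {h : F} (hh₁ : h ∈ 𝒪₁) (hh₁' : h⁻¹ ∈ 𝒪₁) (hh₂ : h ∈ 𝒪₂) (hh₂' : h⁻¹ ∈ 𝒪₂) (h0 : h ≠ 0)
    (hC0 : NodalChart ϖ 𝒪₁ 𝒪₂ (chart R ({h} : Set F)))
    (hC1 : NodalChart ϖ 𝒪₁ 𝒪₂ (chart R ({h⁻¹} : Set F)))
    (hfin : Module.Finite (Algebra.adjoin R ({h} : Set F))
      (integralClosure (Algebra.adjoin R ({h} : Set F)) F))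
    {n : ℕ} (hn : IsUnit (n : R)) {w : F}
    (hw₁ : (w - 1) / algebraMap R F ϖ ∈ 𝒪₁) (hw₂ : (w - 1) / algebraMap R F ϖ ∈ 𝒪₂)
    (hcert0 : CertAt ϖ (chart R ({h} : Set F)) n w)
    (hcert1 : CertAt ϖ (chart R ({h⁻¹} : Set F)) n w)
    {τ : F ≃+* F} (hτ : ChartAut R 𝒪₁ 𝒪₂ h τ) {c : ℕ}
    (hc0 : FrobLike ϖ 𝒪₁ 𝒪₂ (chart R ({h} : Set F)) τ c)
    (hc1 : FrobLike ϖ 𝒪₁ 𝒪₂ (chart R ({h⁻¹} : Set F)) τ c) :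
    ∃ a : F, a ≠ 0 ∧ a ^ n * (τ w / w ^ c) ∈ chart R ({h} : Set F) ∧
      a ^ n * (τ w / w ^ c) ∈ chart R ({h⁻¹} : Set F) := by
  have hn0 : 0 < n := by
    rcases Nat.eq_zero_or_pos n with rfl | hpos
    · simp at hn
    · exact hpos
  have hτC0 : ∀ x ∈ chart R ({h} : Set F), τ x ∈ chart R ({h} : Set F) := fun x hx =>
    hτ.map_mem_chart (S := {h}) (by
      intro s hs
      rw [Set.mem_singleton_iff] at hs ⊢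
      rw [hs, hτ.fix]) hx
  have hτC1 : ∀ x ∈ chart R ({h⁻¹} : Set F), τ x ∈ chart R ({h⁻¹} : Set F) := fun x hx =>
    hτ.map_mem_chart (S := {h⁻¹}) (by
      intro s hs
      rw [Set.mem_singleton_iff] at hs ⊢
      rw [hs, map_inv₀, hτ.fix]) hx
  have hcert0' : CertAt ϖ (chart R ({h} : Set F)) n (τ w / w ^ c) := by
    rw [div_eq_mul_inv]
    exact (hcert0.map hϖ hG₁.ne_zero hτ hτC0).mul (hcert0.pow c).inv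
  have hcert1' : CertAt ϖ (chart R ({h⁻¹} : Set F)) n (τ w / w ^ c) := by
    rw [div_eq_mul_inv]
    exact (hcert1.map hϖ hG₁.ne_zero hτ hτC1).mul (hcert1.pow c).inv
  have hdiv : DivisibleAtPlaces R n w := divisibleAtPlaces_of_certAt hG₁.ne_zero hn0 hcert0 hcert1
  have hdiv' : DivisibleAtPlaces R n (τ w / w ^ c) :=
    divisibleAtPlaces_of_certAt hG₁.ne_zero hn0 hcert0' hcert1'
  exact nodal_crux_of_glue hϖ hG₁ hG₂ hh₁ hh₁' hh₂ hh₂' h0 hC0 hC1 hfin hn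
    (Crux_cong hG₁ hτ.mem₁ hw₁ c) (Crux_cong hG₂ hτ.mem₂ hw₂ c)
    (Crux_glue hϖ hG₁ hG₂ hC0 hn0 hw₁ hw₂ hτ hτC0 hc0 hdiv hcert0 hdiv' hcert0')
    (Crux_glue hϖ hG₁ hG₂ hC1 hn0 hw₁ hw₂ hτ hτC1 hc1 hdiv hcert1 hdiv' hcert1')

end Fermat.Agent.GS
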