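import Fermat.Agent.GR.E.Defs

/-!
# Project GS (semistable reduction at `q ∥ N`), abstract part: definitions

`R` is a DVR with uniformizer `ϖ`, `F` a field which is an `R`-algebra (a function field over
`Frac R`), `𝒪₁ 𝒪₂` the two "Gauss" valuation subrings of `F` (the two components of the special
fibre).  A nodal chart is an integrally closed `R`-subalgebra `C` of `F` with
`C / ϖ C ↪ C/𝔭₁ × C/𝔭₂`, both `C/𝔭ᵢ` Dedekind, and `𝔭₁ + 𝔭₂` a radical ideal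
(the two components cross transversally).
-/

set_option autoImplicit false

namespace Fermat.Agent.GS

open Fermat.Agent.GR.E

variable {R : Type*} [CommRing R] {F : Type*} [Field F] [Algebra R F]

/-- The vertical ideal `{x ∈ C : x / ϖ ∈ 𝒪}` of `C` (see `mem_vert`). -/
def vert (ϖ : R) (𝒪 : ValuationSubring F) (C : Subalgebra R F) : Ideal C :=
  Ideal.span {x : C | (x : F) / algebraMap R F ϖ ∈ 𝒪}

/-- The chart conditions which are also needed on the overlap chart. -/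
structure SatChart2 (ϖ : R) (𝒪₁ 𝒪₂ : ValuationSubring F) (C : Subalgebra R F) : Prop where
  le₁ : ∀ x ∈ C, x ∈ 𝒪₁
  le₂ : ∀ x ∈ C, x ∈ 𝒪₂
  sat : ∀ x ∈ C, x / algebraMap R F ϖ ∈ 𝒪₁ → x / algebraMap R F ϖ ∈ 𝒪₂ →
    x / algebraMap R F ϖ ∈ C
  closed : ∀ x : F, IsIntegral C x → x ∈ C

/-- A chart whose special fibre consists of two normal components crossing transversally. -/
structure NodalChart (ϖ : R) (𝒪₁ 𝒪₂ : ValuationSubring F) (C : Subalgebra R F) : Prop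
    extends SatChart2 ϖ 𝒪₁ 𝒪₂ C where
  frac₁ : ∀ x ∈ 𝒪₁, ∃ b ∈ C, b / algebraMap R F ϖ ∉ 𝒪₁ ∧ x * b ∈ C
  frac₂ : ∀ x ∈ 𝒪₂, ∃ b ∈ C, b / algebraMap R F ϖ ∉ 𝒪₂ ∧ x * b ∈ C
  noeth : IsNoetherianRing C
  ded₁ : IsDedekindDomain (C ⧸ vert ϖ 𝒪₁ C)
  ded₂ : IsDedekindDomain (C ⧸ vert ϖ 𝒪₂ C)
  radical : (vert ϖ 𝒪₁ C ⊔ vert ϖ 𝒪₂ C).IsRadical
  sep₁ : ∃ e ∈ C, e / algebraMap R F ϖ ∈ 𝒪₂ ∧ e / algebraMap R F ϖ ∉ 𝒪₁
  sep₂ : ∃ e ∈ C, e / algebraMap R F ϖ ∈ 𝒪₁ ∧ e / algebraMap R F ϖ ∉ 𝒪₂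

/-- A certificate that the divisor of `w` on the generic fibre of `Spec C` is divisible by `n`:
`I(w) I(w⁻¹) ∋ ϖ ^ M`, where `I(w) = rootSet C n w`. -/
def CertAt (ϖ : R) (C : Subalgebra R F) (n : ℕ) (w : F) : Prop :=
  ∃ (M m : ℕ) (a b : Fin m → F), (∀ i, a i ^ n * w ∈ C) ∧ (∀ i, b i ^ n * w⁻¹ ∈ C) ∧
    ∑ i, a i * b i = algebraMap R F ϖ ^ M

/-- A ring automorphism of `F` (a Galois automorphism acting on coefficients) which preserves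
`R`, the two valuation subrings and the base function `h`. -/
structure ChartAut (R : Type*) [CommRing R] {F : Type*} [Field F] [Algebra R F]
    (𝒪₁ 𝒪₂ : ValuationSubring F) (h : F) (τ : F ≃+* F) : Prop where
  mapR : ∀ r : R, ∃ r' : R, τ (algebraMap R F r) = algebraMap R F r'
  mapR_symm : ∀ r : R, ∃ r' : R, τ.symm (algebraMap R F r) = algebraMap R F r'
  mem₁ : ∀ x, τ x ∈ 𝒪₁ ↔ x ∈ 𝒪₁
  mem₂ : ∀ x, τ x ∈ 𝒪₂ ↔ x ∈ 𝒪₂
  fix : τ h = h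

/-- `τ x ≡ x ^ c` modulo `𝔭₁ + 𝔭₂` (i.e. at all the nodes of `Spec C`). -/
def FrobLike (ϖ : R) (𝒪₁ 𝒪₂ : ValuationSubring F) (C : Subalgebra R F) (τ : F ≃+* F) (c : ℕ) :
    Prop :=
  ∀ x ∈ C, ∃ y₁ ∈ C, ∃ y₂ ∈ C, y₁ / algebraMap R F ϖ ∈ 𝒪₁ ∧ y₂ / algebraMap R F ϖ ∈ 𝒪₂ ∧
    τ x - x ^ c = y₁ + y₂

/-- The localization of `C` at a prime ideal, as a subalgebra of `F`. -/
def locAt (C : Subalgebra R F) (𝔪 : Ideal C) [h𝔪 : 𝔪.IsPrime] : Subalgebra R F where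
  carrier := {x | ∃ s : C, s ∉ 𝔪 ∧ x * s ∈ C}
  mul_mem' := by
    rintro x y ⟨s, hs, hx⟩ ⟨t, ht, hy⟩
    refine ⟨s * t, fun h => (h𝔪.mem_or_mem h).elim hs ht, ?_⟩
    have : x * y * ((s * t : C) : F) = (x * s) * (y * t) := by
      push_cast; ring
    rw [this]
    exact C.mul_mem hx hy
  add_mem' := by
    rintro x y ⟨s, hs, hx⟩ ⟨t, ht, hy⟩
    refine ⟨s * t, fun h => (h𝔪.mem_or_mem h).elim hs ht, ?_⟩
    have : (x + y) * ((s * t : C) : F) = (x * s) * t + (y * t) * s := by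
      push_cast; ring
    rw [this]
    exact C.add_mem (C.mul_mem hx t.2) (C.mul_mem hy s.2)
  algebraMap_mem' r := ⟨1, fun h => h𝔪.ne_top ((Ideal.eq_top_iff_one _).2 h), by
    simpa using C.algebraMap_mem r⟩

theorem mem_locAt {C : Subalgebra R F} {𝔪 : Ideal C} [𝔪.IsPrime] {x : F} :
    x ∈ locAt C 𝔪 ↔ ∃ s : C, s ∉ 𝔪 ∧ x * s ∈ C := Iff.rfl

theorem le_locAt (C : Subalgebra R F) (𝔪 : Ideal C) [h𝔪 : 𝔪.IsPrime] : C ≤ locAt C 𝔪 :=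
  fun x hx => ⟨1, fun h => h𝔪.ne_top ((Ideal.eq_top_iff_one _).2 h), by simpa using hx⟩

end Fermat.Agent.GS
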