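import Fermat.Agent.GS.Abs.Unit
import Fermat.Agent.GR.E.Small

/-! GS abstract part, file `Glue`: the gluing constants at the nodes are Galois equivariant. -/

set_option autoImplicit false

namespace Fermat.Agent.GS

open Fermat.Agent.GR.E

variable {R : Type*} [CommRing R] [IsDomain R] [IsDiscreteValuationRing R]
variable {F : Type*} [Field F] [Algebra R F]
variable {ϖ : R} {𝒪₁ 𝒪₂ : ValuationSubring F}

/-- Near `𝔪` the module `I(C) / ϖ I(C) ⊆ κ₁ × κ₂` contains an element of `C / ϖ C` which is a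
unit at `𝔪`. -/
def GlueAt (ϖ : R) (𝒪₁ 𝒪₂ : ValuationSubring F) (C : Subalgebra R F) (n : ℕ) (w : F)
    (𝔪 : Ideal C) : Prop :=
  ∃ b ∈ rootSet C n w, ∃ e : C, e ∉ 𝔪 ∧ (b - (e : F)) / algebraMap R F ϖ ∈ 𝒪₁ ∧
    (b - (e : F)) / algebraMap R F ϖ ∈ 𝒪₂

/-- The image of `C` in the residue field of `𝒪₁` is integrally closed
(`GR.E.dvd_of_pow_eq_mul_pow` in `C ⧸ 𝔭₁` + `frac₁`). -/
theorem exists_cong₁ (hG₁ : GaussRing ϖ 𝒪₁) {C : Subalgebra R F} (hC : NodalChart ϖ 𝒪₁ 𝒪₂ C)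
    {n : ℕ} (hn : 0 < n) {a ε : F} (hε : ε ∈ C) (ha : a ∈ 𝒪₁)
    (h : (a ^ n - ε) / algebraMap R F ϖ ∈ 𝒪₁) :
    ∃ α ∈ C, (a - α) / algebraMap R F ϖ ∈ 𝒪₁ := by
  obtain ⟨b, hbC, hb, hab⟩ := hC.frac₁ a ha
  have hb0 : b ≠ 0 := by
    rintro rfl
    apply hb
    rw [zero_div]
    exact zero_mem _
  have hbinv : b⁻¹ ∈ 𝒪₁ := (hG₁.unif b (hC.le₁ b hbC)).resolve_left hb
  have := hC.ded₁
  set 𝔭 := vert ϖ 𝒪₁ C with h𝔭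
  have hmem : ∀ x : C, x ∈ 𝔭 ↔ (x : F) / algebraMap R F ϖ ∈ 𝒪₁ := mem_vert hC.le₁
  -- the equation in `C ⧸ 𝔭`
  have h1 : (Ideal.Quotient.mk 𝔭 ⟨a * b, hab⟩) ^ n =
      Ideal.Quotient.mk 𝔭 ⟨ε, hε⟩ * (Ideal.Quotient.mk 𝔭 ⟨b, hbC⟩) ^ n := by
    rw [← map_pow, ← map_pow, ← map_mul, Ideal.Quotient.eq, hmem]
    have : (((⟨a * b, hab⟩ : C) ^ n - ⟨ε, hε⟩ * (⟨b, hbC⟩ : C) ^ n : C) : F) / algebraMap R F ϖ =
        (a ^ n - ε) / algebraMap R F ϖ * b ^ n := by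
      push_cast
      ring
    rw [this]
    exact mul_mem h (pow_mem (hC.le₁ b hbC) n)
  have hbne : Ideal.Quotient.mk 𝔭 ⟨b, hbC⟩ ≠ 0 := by
    rw [ne_eq, Ideal.Quotient.eq_zero_iff_mem, hmem]
    exact hb
  obtain ⟨d, hd⟩ := dvd_of_pow_eq_mul_pow n hn _ _ _ hbne h1
  obtain ⟨α, rfl⟩ := Ideal.Quotient.mk_surjective d
  refine ⟨α, α.2, ?_⟩
  rw [← map_mul, Ideal.Quotient.eq, hmem] at hd
  have : (a - (α : F)) / algebraMap R F ϖ =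
      b⁻¹ * ((((⟨a * b, hab⟩ : C) - ⟨b, hbC⟩ * α : C) : F) / algebraMap R F ϖ) := by
    push_cast
    field_simp
  rw [this]
  exact mul_mem hbinv hd

/-- A closed point on the first component only. -/
theorem glueAt_of_not_le (hϖ : Irreducible ϖ) (hG₁ : GaussRing ϖ 𝒪₁) (hG₂ : GaussRing ϖ 𝒪₂)
    {C : Subalgebra R F} (hC : NodalChart ϖ 𝒪₁ 𝒪₂ C) {n : ℕ} (hn : 0 < n) {w : F}
    (hw₁ : (w - 1) / algebraMap R F ϖ ∈ 𝒪₁) (hw₂ : (w - 1) / algebraMap R F ϖ ∈ 𝒪₂)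
    (𝔪 : Ideal C) (h𝔪 : 𝔪.IsMaximal) (h₁ : vert ϖ 𝒪₁ C ≤ 𝔪) (h₂ : ¬ vert ϖ 𝒪₂ C ≤ 𝔪)
    (hu : ∃ a : F, ∃ h : a ^ n * w ∈ C, (⟨a ^ n * w, h⟩ : C) ∉ 𝔪) :
    GlueAt ϖ 𝒪₁ 𝒪₂ C n w 𝔪 := by
  obtain ⟨a, hε, hε𝔪⟩ := hu
  obtain ⟨hw1, hw1', hw0⟩ := hG₁.mem_of_sub_one hw₁
  obtain ⟨hw2, hw2', -⟩ := hG₂.mem_of_sub_one hw₂
  have haR : a ∈ rootSet C n w := hε
  have ha1 : a ∈ 𝒪₁ := rootSet_subset₁ hC.toSatChart2 hn hw0 hw1' haR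
  have ha2 : a ∈ 𝒪₂ := rootSet_subset₁ hC.toSatChart2.symm hn hw0 hw2' haR
  have hcong : (a ^ n - a ^ n * w) / algebraMap R F ϖ ∈ 𝒪₁ := by
    have : (a ^ n - a ^ n * w) / algebraMap R F ϖ = -(a ^ n * ((w - 1) / algebraMap R F ϖ)) := by
      ring
    rw [this]
    exact neg_mem (mul_mem (pow_mem ha1 n) hw₁)
  obtain ⟨α, hαC, hα⟩ := exists_cong₁ hG₁ hC hn hε ha1 hcong
  have hα1 : α ∈ 𝒪₁ := hC.le₁ α hαC
  have hprime : 𝔪.IsPrime := h𝔪.isPrime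
  -- `α ∉ 𝔪`
  have hα𝔪 : (⟨α, hαC⟩ : C) ∉ 𝔪 := by
    intro hmem
    apply hε𝔪
    have h3 : (⟨α, hαC⟩ : C) ^ n - ⟨a ^ n * w, hε⟩ ∈ vert ϖ 𝒪₁ C := by
      rw [mem_vert hC.le₁]
      have hgeom : α ^ n - a ^ n = (α - a) * ∑ i ∈ Finset.range n, α ^ i * a ^ (n - 1 - i) :=
        (Commute.all α a).mul_geom_sum₂ n |>.symm
      have : ((((⟨α, hαC⟩ : C) ^ n - ⟨a ^ n * w, hε⟩ : C)) : F) / algebraMap R F ϖ =
          -((a - α) / algebraMap R F ϖ) * (∑ i ∈ Finset.range n, α ^ i * a ^ (n - 1 - i)) +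
            (a ^ n - a ^ n * w) / algebraMap R F ϖ := by
        push_cast
        have h4 : α ^ n - a ^ n * w = (α ^ n - a ^ n) + (a ^ n - a ^ n * w) := by ring
        rw [h4, hgeom]
        ring
      rw [this]
      refine add_mem (mul_mem (neg_mem hα) (sum_mem fun i _ => ?_)) hcong
      exact mul_mem (pow_mem hα1 _) (pow_mem ha1 _)
    have h5 : (⟨a ^ n * w, hε⟩ : C) = (⟨α, hαC⟩ : C) ^ n -
        ((⟨α, hαC⟩ : C) ^ n - ⟨a ^ n * w, hε⟩) := by ring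
    rw [h5]
    exact 𝔪.sub_mem (𝔪.pow_mem_of_mem hmem n hn) (h₁ h3)
  obtain ⟨y, hy2, hy𝔪⟩ := SetLike.not_le_iff_exists.mp h₂
  rw [mem_vert hC.le₂] at hy2
  refine ⟨(y : F) * a, rootSet_mul y.2 haR, y * ⟨α, hαC⟩, ?_, ?_, ?_⟩
  · intro hmem
    rcases hprime.mem_or_mem hmem with h | h
    · exact hy𝔪 h
    · exact hα𝔪 h
  · have : ((y : F) * a - ((y * ⟨α, hαC⟩ : C) : F)) / algebraMap R F ϖ =
        (y : F) * ((a - α) / algebraMap R F ϖ) := by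
      push_cast
      ring
    rw [this]
    exact mul_mem (hC.le₁ y y.2) hα
  · have : ((y : F) * a - ((y * ⟨α, hαC⟩ : C) : F)) / algebraMap R F ϖ =
        (y : F) / algebraMap R F ϖ * (a - α) := by
      push_cast
      ring
    rw [this]
    exact mul_mem hy2 (sub_mem ha2 (hC.le₂ α hαC))

end Fermat.Agent.GS
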