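import Fermat.Agent.GS.Abs.Basic

/-! GS abstract part, file `Loc`: localization of a nodal chart at a closed point of the
special fibre. -/

set_option autoImplicit false

namespace Fermat.Agent.GS

open Fermat.Agent.GR.E

variable {R : Type*} [CommRing R] [IsDomain R] [IsDiscreteValuationRing R]
variable {F : Type*} [Field F] [Algebra R F]
variable {ϖ : R} {𝒪₁ 𝒪₂ : ValuationSubring F}

omit [IsDomain R] [IsDiscreteValuationRing R] in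
theorem Loc_coe_ne_zero {C : Subalgebra R F} (𝔪 : Ideal C) {x : C} (hx : x ∉ 𝔪) :
    (x : F) ≠ 0 := by
  intro h
  apply hx
  have : x = 0 := Subtype.ext h
  rw [this]
  exact 𝔪.zero_mem

omit [IsDomain R] [IsDiscreteValuationRing R] in
/-- An element of `C` outside `𝔪` is a unit of the localization. -/
theorem inv_mem_locAt_of_not_mem {C : Subalgebra R F} (𝔪 : Ideal C) [𝔪.IsPrime] {x : C}
    (hx : x ∉ 𝔪) : (x : F)⁻¹ ∈ locAt C 𝔪 := by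
  refine ⟨x, hx, ?_⟩
  rw [inv_mul_cancel₀ (Loc_coe_ne_zero 𝔪 hx)]
  exact C.one_mem

/-- A nonzero element of `C` is a unit of the localization iff it is outside `𝔪`. -/
theorem inv_mem_locAt_iff {C : Subalgebra R F} (𝔪 : Ideal C) [𝔪.IsPrime] {x : C} (hx : x ≠ 0) :
    (x : F)⁻¹ ∈ locAt C 𝔪 ↔ x ∉ 𝔪 := by
  refine ⟨?_, inv_mem_locAt_of_not_mem 𝔪⟩
  rintro ⟨s, hs, hc⟩ hx𝔪
  apply hs
  have hx0 : (x : F) ≠ 0 := fun h => hx (Subtype.ext h)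
  have : s = x * ⟨_, hc⟩ := by
    apply Subtype.ext
    show (s : F) = x * ((x : F)⁻¹ * s)
    rw [mul_inv_cancel_left₀ hx0]
  rw [this]
  exact 𝔪.mul_mem_right _ hx𝔪

/-- `locAt C 𝔪` with its natural `C`-algebra structure is the localization of `C` at `𝔪`
(use it to transport noetherianity, Dedekind quotients, ...). -/
theorem isLocalization_locAt {C : Subalgebra R F} (𝔪 : Ideal C) [𝔪.IsPrime] :
    letI : Algebra C (locAt C 𝔪) := (Subalgebra.inclusion (le_locAt C 𝔪)).toRingHom.toAlgebra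
    IsLocalization.AtPrime (locAt C 𝔪) 𝔪 := by
  let _ : Algebra C (locAt C 𝔪) := (Subalgebra.inclusion (le_locAt C 𝔪)).toRingHom.toAlgebra
  have hmap : ∀ c : C, ((algebraMap C (locAt C 𝔪) c : locAt C 𝔪) : F) = c := fun _ => rfl
  refine ⟨?_, ?_, ?_⟩
  · rintro ⟨s, hs⟩
    have hs' : s ∉ 𝔪 := hs
    refine IsUnit.of_mul_eq_one ⟨(s : F)⁻¹, inv_mem_locAt_of_not_mem 𝔪 hs'⟩ (Subtype.ext ?_)
    show (s : F) * (s : F)⁻¹ = 1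
    exact mul_inv_cancel₀ (Loc_coe_ne_zero 𝔪 hs')
  · rintro ⟨z, s, hs, hc⟩
    exact ⟨(⟨_, hc⟩, ⟨s, hs⟩), Subtype.ext rfl⟩
  · intro x y hxy
    refine ⟨1, ?_⟩
    have : (x : F) = y := by rw [← hmap x, ← hmap y, hxy]
    rw [Subtype.ext this]

omit [IsDomain R] [IsDiscreteValuationRing R] in
/-- elements of `C` outside a prime containing `𝔭` are units of `𝒪`. -/
theorem Loc_inv_mem {𝒪 : ValuationSubring F} (hG : GaussRing ϖ 𝒪) {C : Subalgebra R F}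
    (hle : ∀ x ∈ C, x ∈ 𝒪) (𝔪 : Ideal C) (h : vert ϖ 𝒪 C ≤ 𝔪) {s : C} (hs : s ∉ 𝔪) :
    (s : F)⁻¹ ∈ 𝒪 := by
  rcases hG.unif (s : F) (hle _ s.2) with h1 | h1
  · exact absurd (h (Ideal.subset_span h1)) hs
  · exact h1

/-- a prime of `C` strictly containing `𝔭₁` is maximal. -/
theorem Loc_isMaximal_of_lt {C : Type*} [CommRing C] (𝔭 : Ideal C) [IsDedekindDomain (C ⧸ 𝔭)]
    (P : Ideal C) [hP : P.IsPrime] (hle : 𝔭 ≤ P) {e : C} (heP : e ∈ P) (he : e ∉ 𝔭) :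
    P.IsMaximal := by
  have hsurj : Function.Surjective (Ideal.Quotient.mk 𝔭) := Ideal.Quotient.mk_surjective
  have hker : RingHom.ker (Ideal.Quotient.mk 𝔭) ≤ P := by rwa [Ideal.mk_ker]
  have hprime : (P.map (Ideal.Quotient.mk 𝔭)).IsPrime := Ideal.map_isPrime_of_surjective hsurj hker
  have hne : P.map (Ideal.Quotient.mk 𝔭) ≠ ⊥ := by
    intro h
    have h1 : Ideal.Quotient.mk 𝔭 e ∈ P.map (Ideal.Quotient.mk 𝔭) := Ideal.mem_map_of_mem _ heP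
    rw [h, Ideal.mem_bot, Ideal.Quotient.eq_zero_iff_mem] at h1
    exact he h1
  have hmax : (P.map (Ideal.Quotient.mk 𝔭)).IsMaximal := hprime.isMaximal hne
  have hcomap : (P.map (Ideal.Quotient.mk 𝔭)).comap (Ideal.Quotient.mk 𝔭) = P := by
    rw [Ideal.comap_map_of_surjective _ hsurj, ← RingHom.ker_eq_comap_bot]
    exact sup_eq_left.mpr hker
  rw [← hcomap]
  exact Ideal.comap_isMaximal_of_surjective _ hsurj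

/-- abstract form of `exists_mul_mem_vert_sup`. -/
theorem Loc_exists_mul_mem {C : Type*} [CommRing C] [IsNoetherianRing C] (I : Ideal C)
    (hI : I.IsRadical) (hmax : ∀ P ∈ I.minimalPrimes, P.IsMaximal) (𝔪 : Ideal C)
    (h𝔪 : 𝔪.IsPrime) (δ : C) (hδ : δ ∈ 𝔪) : ∃ s : C, s ∉ 𝔪 ∧ s * δ ∈ I := by
  classical
  have hfin : I.minimalPrimes.Finite := I.finite_minimalPrimes_of_isNoetherianRing
  set S : Finset (Ideal C) := hfin.toFinset.erase 𝔪 with hS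
  have hnot : ¬ S.inf id ≤ 𝔪 := by
    intro hle
    obtain ⟨P, hPS, hP𝔪⟩ := h𝔪.inf_le'.mp hle
    rw [hS, Finset.mem_erase, Set.Finite.mem_toFinset] at hPS
    exact hPS.1 ((hmax P hPS.2).eq_of_le h𝔪.ne_top hP𝔪)
  obtain ⟨s, hsS, hs𝔪⟩ := SetLike.not_le_iff_exists.mp hnot
  refine ⟨s, hs𝔪, ?_⟩
  rw [← hI.radical, ← Ideal.sInf_minimalPrimes, Ideal.mem_sInf]
  intro P hP
  by_cases hP𝔪 : P = 𝔪
  · rw [hP𝔪]
    exact 𝔪.mul_mem_left _ hδ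
  · have hPS : P ∈ S := by
      rw [hS, Finset.mem_erase, Set.Finite.mem_toFinset]
      exact ⟨hP𝔪, hP⟩
    have : S.inf id ≤ P := Finset.inf_le hPS
    exact P.mul_mem_right _ (this hsS)

/-- Annihilating an element of `𝔪` modulo `𝔭₁ + 𝔭₂` by an element outside `𝔪`. -/
theorem exists_mul_mem_vert_sup (hϖ : Irreducible ϖ) (hG₁ : GaussRing ϖ 𝒪₁)
    (hG₂ : GaussRing ϖ 𝒪₂) {C : Subalgebra R F} (hC : NodalChart ϖ 𝒪₁ 𝒪₂ C) (𝔪 : Ideal C)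
    (h𝔪 : 𝔪.IsMaximal) (h₁ : vert ϖ 𝒪₁ C ≤ 𝔪) (h₂ : vert ϖ 𝒪₂ C ≤ 𝔪) (δ : C) (hδ : δ ∈ 𝔪) :
    ∃ s : C, s ∉ 𝔪 ∧ s * δ ∈ vert ϖ 𝒪₁ C ⊔ vert ϖ 𝒪₂ C := by
  have := hC.noeth
  have := hC.ded₁
  obtain ⟨e, heC, he₂, he₁⟩ := hC.sep₁
  refine Loc_exists_mul_mem _ hC.radical (fun P hP => ?_) 𝔪 h𝔪.isPrime δ hδ
  have hPprime : P.IsPrime := hP.1.1
  have hle : vert ϖ 𝒪₁ C ⊔ vert ϖ 𝒪₂ C ≤ P := hP.1.2
  refine Loc_isMaximal_of_lt (vert ϖ 𝒪₁ C) P (le_sup_left.trans hle) (e := ⟨e, heC⟩) ?_ ?_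
  · exact hle (Ideal.mem_sup_right (Ideal.subset_span he₂))
  · rw [mem_vert hC.le₁]
    exact he₁

/-- A node: every nonunit of the localization lies in `𝔭₁ + 𝔭₂` (because `𝔭₁ + 𝔭₂` is radical
and `C / (𝔭₁ + 𝔭₂)` is artinian). -/
theorem locAt_nonunit (hϖ : Irreducible ϖ) (hG₁ : GaussRing ϖ 𝒪₁) (hG₂ : GaussRing ϖ 𝒪₂)
    {C : Subalgebra R F} (hC : NodalChart ϖ 𝒪₁ 𝒪₂ C) (𝔪 : Ideal C) [𝔪.IsPrime]
    (h𝔪 : 𝔪.IsMaximal) (h₁ : vert ϖ 𝒪₁ C ≤ 𝔪) (h₂ : vert ϖ 𝒪₂ C ≤ 𝔪) :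
    ∀ x ∈ locAt C 𝔪, x⁻¹ ∈ locAt C 𝔪 ∨ ∃ y₁ ∈ locAt C 𝔪, ∃ y₂ ∈ locAt C 𝔪,
      y₁ / algebraMap R F ϖ ∈ 𝒪₁ ∧ y₂ / algebraMap R F ϖ ∈ 𝒪₂ ∧ x = y₁ + y₂ := by
  rintro x ⟨s, hs, hc⟩
  have hs0 : (s : F) ≠ 0 := Loc_coe_ne_zero 𝔪 hs
  by_cases hc𝔪 : (⟨_, hc⟩ : C) ∈ 𝔪
  · right
    obtain ⟨s', hs', hmem⟩ := exists_mul_mem_vert_sup hϖ hG₁ hG₂ hC 𝔪 h𝔪 h₁ h₂ _ hc𝔪
    obtain ⟨z₁, hz₁, z₂, hz₂, hz⟩ := Submodule.mem_sup.mp hmem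
    have hs'0 : (s' : F) ≠ 0 := Loc_coe_ne_zero 𝔪 hs'
    have hss' : s * s' ∉ 𝔪 := fun h => (‹𝔪.IsPrime›.mem_or_mem h).elim hs hs'
    have hz' : (z₁ : F) + z₂ = s' * (x * s) := congrArg (fun c : C => (c : F)) hz
    rw [mem_vert hC.le₁] at hz₁
    rw [mem_vert hC.le₂] at hz₂
    have hinv₁ : ((s * s' : C) : F)⁻¹ ∈ 𝒪₁ := Loc_inv_mem hG₁ hC.le₁ 𝔪 h₁ hss'
    have hinv₂ : ((s * s' : C) : F)⁻¹ ∈ 𝒪₂ := Loc_inv_mem hG₂ hC.le₂ 𝔪 h₂ hss'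
    have hinvL : ((s * s' : C) : F)⁻¹ ∈ locAt C 𝔪 := inv_mem_locAt_of_not_mem 𝔪 hss'
    refine ⟨z₁ * ((s * s' : C) : F)⁻¹, (locAt C 𝔪).mul_mem (le_locAt C 𝔪 z₁.2) hinvL,
      z₂ * ((s * s' : C) : F)⁻¹, (locAt C 𝔪).mul_mem (le_locAt C 𝔪 z₂.2) hinvL, ?_, ?_, ?_⟩
    · rw [mul_div_right_comm]
      exact 𝒪₁.mul_mem _ _ hz₁ hinv₁
    · rw [mul_div_right_comm]
      exact 𝒪₂.mul_mem _ _ hz₂ hinv₂
    · rw [← add_mul, hz']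
      show x = s' * (x * s) * ((s : F) * s')⁻¹
      field_simp
  · left
    refine ⟨⟨_, hc⟩, hc𝔪, ?_⟩
    have hx0 : x ≠ 0 := by
      rintro rfl
      apply hc𝔪
      have : (⟨(0 : F) * s, hc⟩ : C) = 0 := Subtype.ext (zero_mul _)
      rw [this]
      exact 𝔪.zero_mem
    show x⁻¹ * (x * s) ∈ C
    rw [inv_mul_cancel_left₀ hx0]
    exact s.2

/-- A node: `𝔭₁ + 𝔭₂` is a proper ideal of the localization. -/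
theorem locAt_ne_one (hG₁ : GaussRing ϖ 𝒪₁) (hG₂ : GaussRing ϖ 𝒪₂)
    {C : Subalgebra R F} (hC : NodalChart ϖ 𝒪₁ 𝒪₂ C) (𝔪 : Ideal C) [𝔪.IsPrime]
    (h₁ : vert ϖ 𝒪₁ C ≤ 𝔪) (h₂ : vert ϖ 𝒪₂ C ≤ 𝔪) :
    ∀ y₁ ∈ locAt C 𝔪, ∀ y₂ ∈ locAt C 𝔪, y₁ / algebraMap R F ϖ ∈ 𝒪₁ →
      y₂ / algebraMap R F ϖ ∈ 𝒪₂ → y₁ + y₂ ≠ 1 := by
  rintro y₁ ⟨s₁, hs₁, hc₁⟩ y₂ ⟨s₂, hs₂, hc₂⟩ hy₁ hy₂ hsum
  have hm₁ : (⟨_, hc₁⟩ : C) ∈ 𝔪 := by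
    apply h₁
    apply Ideal.subset_span
    show y₁ * s₁ / algebraMap R F ϖ ∈ 𝒪₁
    rw [mul_div_right_comm]
    exact 𝒪₁.mul_mem _ _ hy₁ (hC.le₁ _ s₁.2)
  have hm₂ : (⟨_, hc₂⟩ : C) ∈ 𝔪 := by
    apply h₂
    apply Ideal.subset_span
    show y₂ * s₂ / algebraMap R F ϖ ∈ 𝒪₂
    rw [mul_div_right_comm]
    exact 𝒪₂.mul_mem _ _ hy₂ (hC.le₂ _ s₂.2)
  have key : s₁ * s₂ = ⟨_, hc₁⟩ * s₂ + ⟨_, hc₂⟩ * s₁ := by
    apply Subtype.ext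
    show (s₁ : F) * s₂ = y₁ * s₁ * s₂ + y₂ * s₂ * s₁
    have : y₁ * s₁ * s₂ + y₂ * s₂ * s₁ = (y₁ + y₂) * (s₁ * s₂) := by ring
    rw [this, hsum, one_mul]
  have hmem : s₁ * s₂ ∈ 𝔪 := by
    rw [key]
    exact 𝔪.add_mem (𝔪.mul_mem_right _ hm₁) (𝔪.mul_mem_right _ hm₂)
  exact (‹𝔪.IsPrime›.mem_or_mem hmem).elim hs₁ hs₂

/-- Back from the localization to the chart (end of the proof of `GR.E.exists_mem_rootSet_not_mem`). -/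
theorem exists_of_unit_locAt {C : Subalgebra R F} (𝔪 : Ideal C) [𝔪.IsPrime] {n : ℕ} (hn : 0 < n)
    {w a : F} (h : a ^ n * w ∈ locAt C 𝔪) (h' : (a ^ n * w)⁻¹ ∈ locAt C 𝔪)
    (h0 : a ^ n * w ≠ 0) :
    ∃ a' : F, ∃ h : a' ^ n * w ∈ C, (⟨a' ^ n * w, h⟩ : C) ∉ 𝔪 := by
  obtain ⟨s, hs, hc⟩ := h
  obtain ⟨t, ht, hd⟩ := h'
  obtain ⟨m, rfl⟩ : ∃ m, n = m + 1 := ⟨n - 1, by omega⟩
  have hc𝔪 : (⟨_, hc⟩ : C) ∉ 𝔪 := by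
    intro hmem
    have key : s * t = ⟨_, hc⟩ * ⟨_, hd⟩ := by
      apply Subtype.ext
      show (s : F) * t = a ^ (m + 1) * w * s * ((a ^ (m + 1) * w)⁻¹ * t)
      have : a ^ (m + 1) * w * s * ((a ^ (m + 1) * w)⁻¹ * t) =
          (a ^ (m + 1) * w * (a ^ (m + 1) * w)⁻¹) * (s * t) := by ring
      rw [this, mul_inv_cancel₀ h0, one_mul]
    have : s * t ∈ 𝔪 := by
      rw [key]
      exact 𝔪.mul_mem_right _ hmem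
    exact (‹𝔪.IsPrime›.mem_or_mem this).elim hs ht
  have heq : (a * s) ^ (m + 1) * w = ((s ^ m * ⟨_, hc⟩ : C) : F) := by
    show (a * s) ^ (m + 1) * w = (s : F) ^ m * (a ^ (m + 1) * w * s)
    ring
  refine ⟨a * s, heq ▸ (s ^ m * ⟨_, hc⟩ : C).2, ?_⟩
  have : (⟨(a * s) ^ (m + 1) * w, heq ▸ (s ^ m * ⟨_, hc⟩ : C).2⟩ : C) = s ^ m * ⟨_, hc⟩ :=
    Subtype.ext heq
  rw [this]
  intro hmem
  rcases ‹𝔪.IsPrime›.mem_or_mem hmem with h1 | h1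
  · exact hs (‹𝔪.IsPrime›.mem_of_pow_mem _ h1)
  · exact hc𝔪 h1

end Fermat.Agent.GS
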