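import Fermat.Agent.GS.Abs.Loc

/-! GS abstract part, file `LocGood`. -/

set_option autoImplicit false

namespace Fermat.Agent.GS

open Fermat.Agent.GR.E

variable {R : Type*} [CommRing R] [IsDomain R] [IsDiscreteValuationRing R]
variable {F : Type*} [Field F] [Algebra R F]
variable {ϖ : R} {𝒪₁ 𝒪₂ : ValuationSubring F}

/-- A closed point lying on the first component only: the localization is a good chart in the
sense of GR-E for `𝒪₁`. -/
theorem locAt_goodChart (hϖ : Irreducible ϖ) (hG₁ : GaussRing ϖ 𝒪₁) (hG₂ : GaussRing ϖ 𝒪₂)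
    {C : Subalgebra R F} (hC : NodalChart ϖ 𝒪₁ 𝒪₂ C) (𝔪 : Ideal C) [𝔪.IsPrime]
    (h𝔪 : 𝔪.IsMaximal) (h₁ : vert ϖ 𝒪₁ C ≤ 𝔪) (h₂ : ¬ vert ϖ 𝒪₂ C ≤ 𝔪) :
    GoodChart ϖ 𝒪₁ (locAt C 𝔪) := by
  classical
  have hπ0 : algebraMap R F ϖ ≠ 0 := hG₁.ne_zero
  -- an element of `𝔭₂` outside `𝔪`
  obtain ⟨e, he₂, he𝔪⟩ : ∃ e : C, e ∈ vert ϖ 𝒪₂ C ∧ e ∉ 𝔪 := by
    by_contra hcon
    push Not at hcon
    exact h₂ hcon
  have he₂' : (e : F) / algebraMap R F ϖ ∈ 𝒪₂ := (mem_vert hC.le₂ e).1 he₂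
  -- elements outside `𝔪` are units of `𝒪₁`
  have hunit : ∀ s : C, s ∉ 𝔪 → (s : F) ≠ 0 ∧ (s : F)⁻¹ ∈ 𝒪₁ := by
    intro s hs
    refine ⟨fun h0 => hs ?_, ?_⟩
    · have : s = 0 := Subtype.ext h0
      rw [this]; exact 𝔪.zero_mem
    · rcases hG₁.unif s (hC.le₁ _ s.2) with h | h
      · exact absurd (h₁ ((mem_vert hC.le₁ s).2 h)) hs
      · exact h
  have hle : ∀ x ∈ locAt C 𝔪, x ∈ 𝒪₁ := by
    rintro x ⟨s, hs, hx⟩
    obtain ⟨hs0, hsinv⟩ := hunit s hs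
    have : x = x * s * (s : F)⁻¹ := by field_simp
    rw [this]
    exact 𝒪₁.mul_mem _ _ (hC.le₁ _ hx) hsinv
  have hsat : ∀ x ∈ locAt C 𝔪, x / algebraMap R F ϖ ∈ 𝒪₁ → x / algebraMap R F ϖ ∈ locAt C 𝔪 := by
    rintro x ⟨s, hs, hx⟩ hx1
    refine ⟨e * s, fun h => (‹𝔪.IsPrime›.mem_or_mem h).elim he𝔪 hs, ?_⟩
    have e1 : x / algebraMap R F ϖ * ((e * s : C) : F) = (e : F) * (x * s) / algebraMap R F ϖ := by
      push_cast; field_simp
    rw [e1]
    refine hC.sat _ (C.mul_mem e.2 hx) ?_ ?_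
    · have : (e : F) * (x * s) / algebraMap R F ϖ = (e : F) * (x / algebraMap R F ϖ) * s := by
        field_simp
      rw [this]
      exact 𝒪₁.mul_mem _ _ (𝒪₁.mul_mem _ _ (hC.le₁ _ e.2) hx1) (hC.le₁ _ s.2)
    · have : (e : F) * (x * s) / algebraMap R F ϖ = (e : F) / algebraMap R F ϖ * (x * s) := by
        field_simp
      rw [this]
      exact 𝒪₂.mul_mem _ _ he₂' (hC.le₂ _ hx)
  -- the localization structure
  let _ : Algebra C (locAt C 𝔪) := (Subalgebra.inclusion (le_locAt C 𝔪)).toRingHom.toAlgebra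
  have hloc : IsLocalization.AtPrime (locAt C 𝔪) 𝔪 := isLocalization_locAt 𝔪
  have htower : IsScalarTower C (locAt C 𝔪) F := IsScalarTower.of_algebraMap_eq (fun _ => rfl)
  have hclosed : ∀ x : F, IsIntegral (locAt C 𝔪) x → x ∈ locAt C 𝔪 := by
    intro x hx
    obtain ⟨m, hm⟩ := IsIntegral.exists_multiple_integral_of_isLocalization 𝔪.primeCompl x hx
    have h2 : (m : C) • x ∈ C := hC.closed _ hm
    refine ⟨m, m.2, ?_⟩
    have : x * ((m : C) : F) = (m : C) • x := by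
      rw [Algebra.smul_def, mul_comm]; rfl
    rw [this]; exact h2
  have hnoethC : IsNoetherianRing C := hC.noeth
  have hnoeth : IsNoetherianRing (locAt C 𝔪) :=
    IsLocalization.isNoetherianRing 𝔪.primeCompl (locAt C 𝔪) hnoethC
  refine { le := hle, sat := hsat, closed := hclosed, frac := ?_, noeth := hnoeth, dedekind := ?_ }
  · intro x hx
    obtain ⟨b, hb, hb', hxb⟩ := hC.frac₁ x hx
    exact ⟨b, le_locAt C 𝔪 hb, hb', le_locAt C 𝔪 hxb⟩
  · -- the Dedekind quotient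
    have hded₁ : IsDedekindDomain (C ⧸ vert ϖ 𝒪₁ C) := hC.ded₁
    have hM : Algebra.algebraMapSubmonoid (C ⧸ vert ϖ 𝒪₁ C) 𝔪.primeCompl ≤
        nonZeroDivisors (C ⧸ vert ϖ 𝒪₁ C) := by
      rintro _ ⟨s, hs, rfl⟩
      apply mem_nonZeroDivisors_of_ne_zero
      intro h0
      exact hs (h₁ (Ideal.Quotient.eq_zero_iff_mem.1 h0))
    have hdom : IsDomain (locAt C 𝔪 ⧸ (vert ϖ 𝒪₁ C).map (algebraMap C (locAt C 𝔪))) :=
      IsLocalization.isDomain_of_le_nonZeroDivisors (R := C ⧸ vert ϖ 𝒪₁ C)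
        (locAt C 𝔪 ⧸ (vert ϖ 𝒪₁ C).map (algebraMap C (locAt C 𝔪))) hM
    have hded : IsDedekindDomain
        (locAt C 𝔪 ⧸ (vert ϖ 𝒪₁ C).map (algebraMap C (locAt C 𝔪))) :=
      IsLocalization.isDedekindDomain (C ⧸ vert ϖ 𝒪₁ C) hM _
    have hI : (vert ϖ 𝒪₁ C).map (algebraMap C (locAt C 𝔪)) =
        Ideal.span {algebraMap R (locAt C 𝔪) ϖ} := by
      apply le_antisymm
      · rw [Ideal.map_le_iff_le_comap]
        intro y hy
        rw [Ideal.mem_comap, Ideal.mem_span_singleton]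
        -- `e y ∈ 𝔭₁ ∩ 𝔭₂ = (ϖ)`
        have hey : e * y ∈ vert ϖ 𝒪₁ C ⊓ vert ϖ 𝒪₂ C :=
          ⟨Ideal.mul_mem_left _ _ hy, Ideal.mul_mem_right _ _ he₂⟩
        rw [vert_inf_vert hG₁ hC.toSatChart2, Ideal.mem_span_singleton] at hey
        obtain ⟨c, hc⟩ := hey
        have heinv : (e : F)⁻¹ ∈ locAt C 𝔪 := inv_mem_locAt_of_not_mem 𝔪 he𝔪
        have he0 : (e : F) ≠ 0 := (hunit e he𝔪).1
        refine ⟨⟨(c : F) * (e : F)⁻¹, (locAt C 𝔪).mul_mem (le_locAt C 𝔪 c.2) heinv⟩, ?_⟩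
        apply Subtype.ext
        have hc' : (e : F) * (y : F) = algebraMap R F ϖ * (c : F) := congrArg Subtype.val hc
        show (y : F) = algebraMap R F ϖ * ((c : F) * (e : F)⁻¹)
        rw [← mul_assoc, ← hc']
        field_simp
      · rw [Ideal.span_le, Set.singleton_subset_iff]
        have : algebraMap R (locAt C 𝔪) ϖ = algebraMap C (locAt C 𝔪) (algebraMap R C ϖ) := rfl
        rw [this]
        exact Ideal.mem_map_of_mem _ (algebraMap_mem_vert hG₁ C)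
    rw [hI] at hded
    exact hded

end Fermat.Agent.GS
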