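import Fermat.Agent.GS.Abs.Loc

/-! GS abstract part, file `LocNode`. -/

set_option autoImplicit false
set_option linter.style.haveILetI false
set_option linter.unusedSectionVars false

namespace Fermat.Agent.GS

open Fermat.Agent.GR.E

variable {R : Type*} [CommRing R] [IsDomain R] [IsDiscreteValuationRing R]
variable {F : Type*} [Field F] [Algebra R F]
variable {ϖ : R} {𝒪₁ 𝒪₂ : ValuationSubring F}

theorem LocNode_coe_ne_zero {C : Subalgebra R F} (𝔪 : Ideal C) {s : C} (hs : s ∉ 𝔪) :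
    (s : F) ≠ 0 := by
  intro h
  apply hs
  have : s = 0 := Subtype.ext h
  rw [this]
  exact 𝔪.zero_mem

theorem LocNode_inv_mem {𝒪 : ValuationSubring F} (hG : GaussRing ϖ 𝒪) {C : Subalgebra R F}
    (hle : ∀ x ∈ C, x ∈ 𝒪) (𝔪 : Ideal C) (hv : vert ϖ 𝒪 C ≤ 𝔪) {s : C} (hs : s ∉ 𝔪) :
    (s : F)⁻¹ ∈ 𝒪 := by
  have h1 : s ∉ vert ϖ 𝒪 C := fun h => hs (hv h)
  rw [mem_vert hle] at h1
  exact (hG.unif _ (hle _ s.2)).resolve_left h1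

theorem LocNode_le {𝒪 : ValuationSubring F} (hG : GaussRing ϖ 𝒪) {C : Subalgebra R F}
    (hle : ∀ x ∈ C, x ∈ 𝒪) (𝔪 : Ideal C) [𝔪.IsPrime] (hv : vert ϖ 𝒪 C ≤ 𝔪) :
    ∀ x ∈ locAt C 𝔪, x ∈ 𝒪 := by
  rintro x ⟨s, hs, hx⟩
  have hs0 := LocNode_coe_ne_zero 𝔪 hs
  have : x = (x * s) * (s : F)⁻¹ := by field_simp
  rw [this]
  exact 𝒪.mul_mem _ _ (hle _ hx) (LocNode_inv_mem hG hle 𝔪 hv hs)

theorem LocNode_closed {C : Subalgebra R F} (𝔪 : Ideal C) [𝔪.IsPrime]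
    (hcl : ∀ x : F, IsIntegral C x → x ∈ C) :
    ∀ x : F, IsIntegral (locAt C 𝔪) x → x ∈ locAt C 𝔪 := by
  intro x hx
  letI : Algebra C (locAt C 𝔪) := (Subalgebra.inclusion (le_locAt C 𝔪)).toRingHom.toAlgebra
  haveI : IsLocalization.AtPrime (locAt C 𝔪) 𝔪 := isLocalization_locAt 𝔪
  haveI : IsScalarTower C (locAt C 𝔪) F := IsScalarTower.of_algebraMap_eq (fun c => rfl)
  obtain ⟨m, hm⟩ := IsIntegral.exists_multiple_integral_of_isLocalization 𝔪.primeCompl x hx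
  have h1 := hcl _ hm
  refine ⟨m.1, m.2, ?_⟩
  rw [mul_comm]
  exact h1

theorem LocNode_noeth {C : Subalgebra R F} (𝔪 : Ideal C) [𝔪.IsPrime] (h : IsNoetherianRing C) :
    IsNoetherianRing (locAt C 𝔪) := by
  letI : Algebra C (locAt C 𝔪) := (Subalgebra.inclusion (le_locAt C 𝔪)).toRingHom.toAlgebra
  haveI : IsLocalization.AtPrime (locAt C 𝔪) 𝔪 := isLocalization_locAt 𝔪
  exact IsLocalization.isNoetherianRing 𝔪.primeCompl (locAt C 𝔪) h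

/-- the quotient of the localization by its vertical ideal is a localization of `C / 𝔭`. -/
theorem LocNode_ded {𝒪 : ValuationSubring F} (hG : GaussRing ϖ 𝒪) {C : Subalgebra R F}
    (hle : ∀ x ∈ C, x ∈ 𝒪) (𝔪 : Ideal C) [𝔪.IsPrime] (hv : vert ϖ 𝒪 C ≤ 𝔪)
    (hded : IsDedekindDomain (C ⧸ vert ϖ 𝒪 C)) :
    IsDedekindDomain (locAt C 𝔪 ⧸ vert ϖ 𝒪 (locAt C 𝔪)) := by
  have hleB := LocNode_le hG hle 𝔪 hv
  haveI : (vert ϖ 𝒪 (locAt C 𝔪)).IsPrime := vert_isPrime hG hleB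
  haveI : (vert ϖ 𝒪 C).IsPrime := vert_isPrime hG hle
  haveI : IsDomain (C ⧸ vert ϖ 𝒪 C) := Ideal.Quotient.isDomain _
  haveI : IsDomain (locAt C 𝔪 ⧸ vert ϖ 𝒪 (locAt C 𝔪)) := Ideal.Quotient.isDomain _
  have hM : 𝔪.primeCompl.map (Ideal.Quotient.mk (vert ϖ 𝒪 C)) ≤
      nonZeroDivisors (C ⧸ vert ϖ 𝒪 C) := by
    rintro _ ⟨s, hs, rfl⟩
    apply mem_nonZeroDivisors_of_ne_zero
    intro h
    rw [Ideal.Quotient.eq_zero_iff_mem] at h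
    exact hs (hv h)
  letI : Algebra C (locAt C 𝔪) := (Subalgebra.inclusion (le_locAt C 𝔪)).toRingHom.toAlgebra
  haveI : IsLocalization.AtPrime (locAt C 𝔪) 𝔪 := isLocalization_locAt 𝔪
  have hcomap : vert ϖ 𝒪 C ≤ (vert ϖ 𝒪 (locAt C 𝔪)).comap (algebraMap C (locAt C 𝔪)) := by
    intro c hc
    rw [Ideal.mem_comap, mem_vert hleB]
    rw [mem_vert hle] at hc
    exact hc
  letI : Algebra (C ⧸ vert ϖ 𝒪 C) (locAt C 𝔪 ⧸ vert ϖ 𝒪 (locAt C 𝔪)) :=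
    (Ideal.quotientMap (vert ϖ 𝒪 (locAt C 𝔪)) (algebraMap C (locAt C 𝔪)) hcomap).toAlgebra
  haveI : IsLocalization (𝔪.primeCompl.map (Ideal.Quotient.mk (vert ϖ 𝒪 C)))
      (locAt C 𝔪 ⧸ vert ϖ 𝒪 (locAt C 𝔪)) := by
    refine IsLocalization.of_surjective 𝔪.primeCompl (locAt C 𝔪) (Ideal.Quotient.mk (vert ϖ 𝒪 C))
      Ideal.Quotient.mk_surjective (Ideal.Quotient.mk (vert ϖ 𝒪 (locAt C 𝔪)))
      Ideal.Quotient.mk_surjective rfl ?_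
    rw [Ideal.mk_ker, Ideal.mk_ker]
    intro y hy
    rw [mem_vert hleB] at hy
    obtain ⟨s, hs, hys⟩ := y.2
    have hs0 := LocNode_coe_ne_zero 𝔪 hs
    have hc : (⟨(y : F) * s, hys⟩ : C) ∈ vert ϖ 𝒪 C := by
      rw [mem_vert hle]
      have : ((y : F) * s) / algebraMap R F ϖ = ((y : F) / algebraMap R F ϖ) * s := by ring
      change ((y : F) * s) / algebraMap R F ϖ ∈ 𝒪
      rw [this]
      exact 𝒪.mul_mem _ _ hy (hle _ s.2)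
    have hsinv : (s : F)⁻¹ ∈ locAt C 𝔪 := inv_mem_locAt_of_not_mem 𝔪 hs
    have hy2 : y = (⟨(s : F)⁻¹, hsinv⟩ : locAt C 𝔪) *
        algebraMap C (locAt C 𝔪) ⟨(y : F) * s, hys⟩ := by
      apply Subtype.ext
      change (y : F) = (s : F)⁻¹ * ((y : F) * s)
      field_simp
    rw [hy2]
    exact Ideal.mul_mem_left _ _ (Ideal.mem_map_of_mem _ hc)
  exact IsLocalization.isDedekindDomain (C ⧸ vert ϖ 𝒪 C)
    (M := 𝔪.primeCompl.map (Ideal.Quotient.mk (vert ϖ 𝒪 C))) hM _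

theorem LocNode_mem_sup {C : Subalgebra R F} (hle₁ : ∀ x ∈ C, x ∈ 𝒪₁) (hle₂ : ∀ x ∈ C, x ∈ 𝒪₂)
    (x : C) : x ∈ vert ϖ 𝒪₁ C ⊔ vert ϖ 𝒪₂ C ↔ ∃ y₁ ∈ C, ∃ y₂ ∈ C,
      y₁ / algebraMap R F ϖ ∈ 𝒪₁ ∧ y₂ / algebraMap R F ϖ ∈ 𝒪₂ ∧ (x : F) = y₁ + y₂ := by
  rw [Submodule.mem_sup]
  constructor
  · rintro ⟨y, hy, z, hz, rfl⟩
    rw [mem_vert hle₁] at hy
    rw [mem_vert hle₂] at hz
    exact ⟨y, y.2, z, z.2, hy, hz, rfl⟩
  · rintro ⟨y, hyC, z, hzC, hy, hz, hx⟩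
    exact ⟨⟨y, hyC⟩, (mem_vert hle₁ _).mpr hy, ⟨z, hzC⟩, (mem_vert hle₂ _).mpr hz,
      Subtype.ext hx.symm⟩

/-- A node: the localization is a nodal chart. -/
theorem locAt_nodalChart (hϖ : Irreducible ϖ) (hG₁ : GaussRing ϖ 𝒪₁) (hG₂ : GaussRing ϖ 𝒪₂)
    {C : Subalgebra R F} (hC : NodalChart ϖ 𝒪₁ 𝒪₂ C) (𝔪 : Ideal C) [𝔪.IsPrime]
    (h𝔪 : 𝔪.IsMaximal) (h₁ : vert ϖ 𝒪₁ C ≤ 𝔪) (h₂ : vert ϖ 𝒪₂ C ≤ 𝔪) :
    NodalChart ϖ 𝒪₁ 𝒪₂ (locAt C 𝔪) := by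
  have hB₁ := LocNode_le hG₁ hC.le₁ 𝔪 h₁
  have hB₂ := LocNode_le hG₂ hC.le₂ 𝔪 h₂
  have hCB := le_locAt C 𝔪
  refine
    { le₁ := hB₁
      le₂ := hB₂
      sat := ?_
      closed := LocNode_closed 𝔪 hC.closed
      frac₁ := ?_
      frac₂ := ?_
      noeth := LocNode_noeth 𝔪 hC.noeth
      ded₁ := LocNode_ded hG₁ hC.le₁ 𝔪 h₁ hC.ded₁
      ded₂ := LocNode_ded hG₂ hC.le₂ 𝔪 h₂ hC.ded₂
      radical := ?_
      sep₁ := ?_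
      sep₂ := ?_ }
  · rintro x ⟨s, hs, hx⟩ hx₁ hx₂
    refine ⟨s, hs, ?_⟩
    have e : x / algebraMap R F ϖ * s = (x * s) / algebraMap R F ϖ := by ring
    rw [e]
    refine hC.sat _ hx ?_ ?_
    · rw [← e]; exact 𝒪₁.mul_mem _ _ hx₁ (hC.le₁ _ s.2)
    · rw [← e]; exact 𝒪₂.mul_mem _ _ hx₂ (hC.le₂ _ s.2)
  · intro x hx
    obtain ⟨b, hb, hb', hxb⟩ := hC.frac₁ x hx
    exact ⟨b, hCB hb, hb', hCB hxb⟩
  · intro x hx
    obtain ⟨b, hb, hb', hxb⟩ := hC.frac₂ x hx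
    exact ⟨b, hCB hb, hb', hCB hxb⟩
  · rintro x ⟨k, hk⟩
    rw [LocNode_mem_sup hB₁ hB₂] at hk ⊢
    obtain ⟨y₁, ⟨s₁, hs₁, hy₁C⟩, y₂, ⟨s₂, hs₂, hy₂C⟩, hy₁, hy₂, hxk⟩ := hk
    obtain ⟨s, hs, hxC⟩ := x.2
    set t : C := s * s₁ * s₂ with ht
    have htm : t ∉ 𝔪 := fun h =>
      (‹𝔪.IsPrime›.mem_or_mem h).elim (fun h' => (‹𝔪.IsPrime›.mem_or_mem h').elim hs hs₁) hs₂
    have ht0 := LocNode_coe_ne_zero 𝔪 htm
    have htx : (x : F) * t ∈ C := by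
      have : (x : F) * t = ((x : F) * s) * (s₁ * s₂ : C) := by rw [ht]; push_cast; ring
      rw [this]
      exact C.mul_mem hxC (s₁ * s₂ : C).2
    have hY₁ : y₁ * t ∈ C := by
      have : y₁ * t = (y₁ * s₁) * (s * s₂ : C) := by rw [ht]; push_cast; ring
      rw [this]
      exact C.mul_mem hy₁C (s * s₂ : C).2
    have hY₂ : y₂ * t ∈ C := by
      have : y₂ * t = (y₂ * s₂) * (s * s₁ : C) := by rw [ht]; push_cast; ring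
      rw [this]
      exact C.mul_mem hy₂C (s * s₁ : C).2
    have hxk' : (x : F) ^ k = y₁ + y₂ := by rw [← hxk]; rfl
    have hmem : (t * (⟨(x : F) * t, htx⟩ : C)) ^ (k + 1) ∈ vert ϖ 𝒪₁ C ⊔ vert ϖ 𝒪₂ C := by
      rw [LocNode_mem_sup hC.le₁ hC.le₂]
      have hW : (x : F) * t * (t : F) ^ (2 * k) ∈ C := C.mul_mem htx (C.pow_mem t.2 _)
      refine ⟨y₁ * t * ((x : F) * t * (t : F) ^ (2 * k)), C.mul_mem hY₁ hW,
        y₂ * t * ((x : F) * t * (t : F) ^ (2 * k)), C.mul_mem hY₂ hW, ?_, ?_, ?_⟩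
      · have e : y₁ * t * ((x : F) * t * (t : F) ^ (2 * k)) / algebraMap R F ϖ =
            y₁ / algebraMap R F ϖ * (t * ((x : F) * t * (t : F) ^ (2 * k))) := by ring
        rw [e]
        exact 𝒪₁.mul_mem _ _ hy₁ (hC.le₁ _ (C.mul_mem t.2 hW))
      · have e : y₂ * t * ((x : F) * t * (t : F) ^ (2 * k)) / algebraMap R F ϖ =
            y₂ / algebraMap R F ϖ * (t * ((x : F) * t * (t : F) ^ (2 * k))) := by ring
        rw [e]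
        exact 𝒪₂.mul_mem _ _ hy₂ (hC.le₂ _ (C.mul_mem t.2 hW))
      · change ((t : F) * ((x : F) * t)) ^ (k + 1) = _
        calc ((t : F) * ((x : F) * t)) ^ (k + 1)
            = (x : F) ^ k * (t * ((x : F) * t * (t : F) ^ (2 * k))) := by ring
          _ = _ := by rw [hxk']; ring
    have hmem2 := hC.radical ⟨k + 1, hmem⟩
    rw [LocNode_mem_sup hC.le₁ hC.le₂] at hmem2
    obtain ⟨z₁, hz₁C, z₂, hz₂C, hz₁, hz₂, hz⟩ := hmem2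
    have ht2 : t * t ∉ 𝔪 := fun h => (‹𝔪.IsPrime›.mem_or_mem h).elim htm htm
    have hti₁ := LocNode_inv_mem hG₁ hC.le₁ 𝔪 h₁ htm
    have hti₂ := LocNode_inv_mem hG₂ hC.le₂ 𝔪 h₂ htm
    refine ⟨z₁ * ((t : F)⁻¹ * (t : F)⁻¹), ⟨t * t, ht2, ?_⟩, z₂ * ((t : F)⁻¹ * (t : F)⁻¹),
      ⟨t * t, ht2, ?_⟩, ?_, ?_, ?_⟩
    · have : z₁ * ((t : F)⁻¹ * (t : F)⁻¹) * ((t * t : C) : F) = z₁ := by
        push_cast; field_simp
      rw [this]; exact hz₁C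
    · have : z₂ * ((t : F)⁻¹ * (t : F)⁻¹) * ((t * t : C) : F) = z₂ := by
        push_cast; field_simp
      rw [this]; exact hz₂C
    · have e : z₁ * ((t : F)⁻¹ * (t : F)⁻¹) / algebraMap R F ϖ =
          z₁ / algebraMap R F ϖ * ((t : F)⁻¹ * (t : F)⁻¹) := by ring
      rw [e]
      exact 𝒪₁.mul_mem _ _ hz₁ (𝒪₁.mul_mem _ _ hti₁ hti₁)
    · have e : z₂ * ((t : F)⁻¹ * (t : F)⁻¹) / algebraMap R F ϖ =
          z₂ / algebraMap R F ϖ * ((t : F)⁻¹ * (t : F)⁻¹) := by ring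
      rw [e]
      exact 𝒪₂.mul_mem _ _ hz₂ (𝒪₂.mul_mem _ _ hti₂ hti₂)
    · have hz' : (t : F) * ((x : F) * t) = z₁ + z₂ := hz
      rw [← add_mul, ← hz']
      field_simp
  · obtain ⟨e, he, h1, h2⟩ := hC.sep₁
    exact ⟨e, hCB he, h1, h2⟩
  · obtain ⟨e, he, h1, h2⟩ := hC.sep₂
    exact ⟨e, hCB he, h1, h2⟩

end Fermat.Agent.GS
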