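import Fermat.Agent.GS.Abs.Basic
import Fermat.Agent.GR.E.Small

/-! GS abstract part, file `Node`: THE LOCAL LEMMA AT A NODE. -/

set_option autoImplicit false

namespace Fermat.Agent.GS

open Fermat.Agent.GR.E

variable {R : Type*} [CommRing R] [IsDomain R] [IsDiscreteValuationRing R]
variable {F : Type*} [Field F] [Algebra R F]
variable {ϖ : R} {𝒪 𝒪₁ 𝒪₂ : ValuationSubring F}

/-! ### congruences modulo `ϖ 𝒪` -/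

/-- `x ≡ y` modulo `ϖ 𝒪`. -/
def NodeCg (ϖ : R) (𝒪 : ValuationSubring F) (x y : F) : Prop :=
  (x - y) / algebraMap R F ϖ ∈ 𝒪

omit [IsDomain R] [IsDiscreteValuationRing R] in
theorem NodeCg.refl (x : F) : NodeCg ϖ 𝒪 x x := by
  unfold NodeCg
  rw [sub_self, zero_div]
  exact 𝒪.zero_mem

omit [IsDomain R] [IsDiscreteValuationRing R] in
theorem NodeCg.symm {x y : F} (h : NodeCg ϖ 𝒪 x y) : NodeCg ϖ 𝒪 y x := by
  unfold NodeCg at *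
  have : (y - x) / algebraMap R F ϖ = -((x - y) / algebraMap R F ϖ) := by ring
  rw [this]
  exact 𝒪.neg_mem _ h

omit [IsDomain R] [IsDiscreteValuationRing R] in
theorem NodeCg.trans {x y z : F} (h : NodeCg ϖ 𝒪 x y) (h' : NodeCg ϖ 𝒪 y z) :
    NodeCg ϖ 𝒪 x z := by
  unfold NodeCg at *
  have : (x - z) / algebraMap R F ϖ
      = (x - y) / algebraMap R F ϖ + (y - z) / algebraMap R F ϖ := by ring
  rw [this]
  exact 𝒪.add_mem _ _ h h'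

omit [IsDomain R] [IsDiscreteValuationRing R] in
theorem NodeCg.add {x y x' y' : F} (h : NodeCg ϖ 𝒪 x y) (h' : NodeCg ϖ 𝒪 x' y') :
    NodeCg ϖ 𝒪 (x + x') (y + y') := by
  unfold NodeCg at *
  have : (x + x' - (y + y')) / algebraMap R F ϖ
      = (x - y) / algebraMap R F ϖ + (x' - y') / algebraMap R F ϖ := by ring
  rw [this]
  exact 𝒪.add_mem _ _ h h'

omit [IsDomain R] [IsDiscreteValuationRing R] in
theorem NodeCg.sub {x y x' y' : F} (h : NodeCg ϖ 𝒪 x y) (h' : NodeCg ϖ 𝒪 x' y') :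
    NodeCg ϖ 𝒪 (x - x') (y - y') := by
  unfold NodeCg at *
  have : (x - x' - (y - y')) / algebraMap R F ϖ
      = (x - y) / algebraMap R F ϖ - (x' - y') / algebraMap R F ϖ := by ring
  rw [this]
  exact 𝒪.sub_mem h h'

omit [IsDomain R] [IsDiscreteValuationRing R] in
theorem NodeCg.mul_left {x y c : F} (hc : c ∈ 𝒪) (h : NodeCg ϖ 𝒪 x y) :
    NodeCg ϖ 𝒪 (c * x) (c * y) := by
  unfold NodeCg at *
  have : (c * x - c * y) / algebraMap R F ϖ = c * ((x - y) / algebraMap R F ϖ) := by ring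
  rw [this]
  exact 𝒪.mul_mem _ _ hc h

omit [IsDomain R] [IsDiscreteValuationRing R] in
theorem NodeCg.mul {x y x' y' : F} (h : NodeCg ϖ 𝒪 x y) (h' : NodeCg ϖ 𝒪 x' y') (hx' : x' ∈ 𝒪)
    (hy : y ∈ 𝒪) : NodeCg ϖ 𝒪 (x * x') (y * y') := by
  unfold NodeCg at *
  have : (x * x' - y * y') / algebraMap R F ϖ
      = x' * ((x - y) / algebraMap R F ϖ) + y * ((x' - y') / algebraMap R F ϖ) := by ring
  rw [this]
  exact 𝒪.add_mem _ _ (𝒪.mul_mem _ _ hx' h) (𝒪.mul_mem _ _ hy h')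

omit [IsDomain R] [IsDiscreteValuationRing R] in
theorem NodeCg.pow {x y : F} (h : NodeCg ϖ 𝒪 x y) (hx : x ∈ 𝒪) (hy : y ∈ 𝒪) (k : ℕ) :
    NodeCg ϖ 𝒪 (x ^ k) (y ^ k) := by
  induction k with
  | zero => simpa using NodeCg.refl (ϖ := ϖ) (𝒪 := 𝒪) (1 : F)
  | succ k ih =>
    rw [pow_succ, pow_succ]
    exact ih.mul h hx (𝒪.pow_mem hy k)

omit [IsDomain R] [IsDiscreteValuationRing R] in
theorem nodeCg_zero_iff {x : F} : NodeCg ϖ 𝒪 x 0 ↔ x / algebraMap R F ϖ ∈ 𝒪 := by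
  unfold NodeCg
  rw [sub_zero]

omit [IsDomain R] [IsDiscreteValuationRing R] in
/-- multiples of `ϖ` -/
theorem nodeCg_mul_unif (hG : GaussRing ϖ 𝒪) {x : F} (hx : x ∈ 𝒪) :
    NodeCg ϖ 𝒪 (algebraMap R F ϖ * x) 0 := by
  rw [nodeCg_zero_iff, mul_div_cancel_left₀ _ hG.ne_zero]
  exact hx

omit [IsDomain R] [IsDiscreteValuationRing R] in
theorem Node_inv_mem (hG : GaussRing ϖ 𝒪) {x : F} (hx : x ∈ 𝒪)
    (h : x / algebraMap R F ϖ ∉ 𝒪) : x⁻¹ ∈ 𝒪 :=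
  (hG.unif x hx).resolve_left h

omit [IsDomain R] [IsDiscreteValuationRing R] in
/-- cancelling a unit of `𝒪` -/
theorem NodeCg.cancel {x y d : F} (hd : d⁻¹ ∈ 𝒪) (hd0 : d ≠ 0)
    (h : NodeCg ϖ 𝒪 (d * x) (d * y)) : NodeCg ϖ 𝒪 x y := by
  have := h.mul_left hd
  rwa [inv_mul_cancel_left₀ hd0, inv_mul_cancel_left₀ hd0] at this

omit [IsDomain R] [IsDiscreteValuationRing R] in
/-- a unit of `𝒪` is not divisible by `ϖ` -/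
theorem Node_not_div (hG : GaussRing ϖ 𝒪) {x : F} (hx0 : x ≠ 0) (hx : x⁻¹ ∈ 𝒪) :
    x / algebraMap R F ϖ ∉ 𝒪 := by
  intro h
  apply hG.inv_not_mem
  have : (algebraMap R F ϖ)⁻¹ = x⁻¹ * (x / algebraMap R F ϖ) := by
    field_simp
  rw [this]
  exact 𝒪.mul_mem _ _ hx h

/-! ### the image of `C` in the residue field of `𝒪₁` is integrally closed -/

/-- Same statement as `exists_cong₁` of the file `Glue`. -/
theorem Node_exists_cong (hG₁ : GaussRing ϖ 𝒪₁) {C : Subalgebra R F} (hC : NodalChart ϖ 𝒪₁ 𝒪₂ C)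
    {n : ℕ} (hn : 0 < n) {a ε : F} (hε : ε ∈ C) (ha : a ∈ 𝒪₁)
    (h : (a ^ n - ε) / algebraMap R F ϖ ∈ 𝒪₁) :
    ∃ α ∈ C, (a - α) / algebraMap R F ϖ ∈ 𝒪₁ := by
  obtain ⟨d, hdC, hd, hc⟩ := hC.frac₁ a ha
  have := hC.ded₁
  have hd0 : d ≠ 0 := by
    rintro rfl
    apply hd
    rw [zero_div]
    exact 𝒪₁.zero_mem
  have hdinv : d⁻¹ ∈ 𝒪₁ := Node_inv_mem hG₁ (hC.le₁ d hdC) hd
  have hb : Ideal.Quotient.mk (vert ϖ 𝒪₁ C) ⟨d, hdC⟩ ≠ 0 := by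
    rw [Ne, Ideal.Quotient.eq_zero_iff_mem, mem_vert hC.le₁]
    exact hd
  have hpow : (Ideal.Quotient.mk (vert ϖ 𝒪₁ C) ⟨a * d, hc⟩) ^ n
      = Ideal.Quotient.mk (vert ϖ 𝒪₁ C) ⟨ε, hε⟩ * (Ideal.Quotient.mk (vert ϖ 𝒪₁ C) ⟨d, hdC⟩) ^ n := by
    rw [← map_pow, ← map_pow, ← map_mul, Ideal.Quotient.eq, mem_vert hC.le₁]
    have : (((⟨a * d, hc⟩ : C) ^ n - ⟨ε, hε⟩ * (⟨d, hdC⟩ : C) ^ n : C) : F) / algebraMap R F ϖ
        = d ^ n * ((a ^ n - ε) / algebraMap R F ϖ) := by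
      push_cast
      ring
    rw [this]
    exact 𝒪₁.mul_mem _ _ (𝒪₁.pow_mem (hC.le₁ d hdC) n) h
  obtain ⟨q, hq⟩ := dvd_of_pow_eq_mul_pow n hn _ _ _ hb hpow
  obtain ⟨α, rfl⟩ := Ideal.Quotient.mk_surjective q
  rw [← map_mul, Ideal.Quotient.eq, mem_vert hC.le₁] at hq
  refine ⟨α, α.2, ?_⟩
  have h1 : NodeCg ϖ 𝒪₁ (d * a) (d * α) := by
    unfold NodeCg
    have : (d * a - d * α) / algebraMap R F ϖ
        = (((⟨a * d, hc⟩ : C) - ⟨d, hdC⟩ * α : C) : F) / algebraMap R F ϖ := by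
      push_cast
      ring
    rw [this]
    exact hq
  exact h1.cancel hdinv hd0

/-! ### the local ring at a node -/

/-- The hypotheses of LEMMA N on the ring `B`. -/
structure NodeLoc (ϖ : R) (𝒪₁ 𝒪₂ : ValuationSubring F) (B : Subalgebra R F) : Prop where
  G₁ : GaussRing ϖ 𝒪₁
  G₂ : GaussRing ϖ 𝒪₂
  chart : NodalChart ϖ 𝒪₁ 𝒪₂ B
  hmax : ∀ x ∈ B, x⁻¹ ∈ B ∨ ∃ y₁ ∈ B, ∃ y₂ ∈ B,
      y₁ / algebraMap R F ϖ ∈ 𝒪₁ ∧ y₂ / algebraMap R F ϖ ∈ 𝒪₂ ∧ x = y₁ + y₂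
  hprop : ∀ y₁ ∈ B, ∀ y₂ ∈ B, y₁ / algebraMap R F ϖ ∈ 𝒪₁ → y₂ / algebraMap R F ϖ ∈ 𝒪₂ →
      y₁ + y₂ ≠ 1

variable {B : Subalgebra R F}

theorem NodeLoc.symm (h : NodeLoc ϖ 𝒪₁ 𝒪₂ B) : NodeLoc ϖ 𝒪₂ 𝒪₁ B where
  G₁ := h.G₂
  G₂ := h.G₁
  chart := h.chart.symm
  hmax := by
    intro x hx
    rcases h.hmax x hx with h1 | ⟨y₁, hy₁, y₂, hy₂, h1, h2, h3⟩
    · exact Or.inl h1
    · exact Or.inr ⟨y₂, hy₂, y₁, hy₁, h2, h1, by rw [h3, add_comm]⟩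
  hprop := by
    intro y₁ hy₁ y₂ hy₂ h1 h2
    rw [add_comm]
    exact h.hprop y₂ hy₂ y₁ hy₁ h2 h1

theorem NodeLoc.mem_sup_iff (h : NodeLoc ϖ 𝒪₁ 𝒪₂ B) (x : B) :
    x ∈ vert ϖ 𝒪₁ B ⊔ vert ϖ 𝒪₂ B ↔ ∃ y₁ ∈ B, ∃ y₂ ∈ B,
      y₁ / algebraMap R F ϖ ∈ 𝒪₁ ∧ y₂ / algebraMap R F ϖ ∈ 𝒪₂ ∧ (x : F) = y₁ + y₂ := by
  rw [Submodule.mem_sup]
  constructor
  · rintro ⟨y₁, hy₁, y₂, hy₂, rfl⟩
    exact ⟨y₁, y₁.2, y₂, y₂.2, (mem_vert h.chart.le₁ _).mp hy₁, (mem_vert h.chart.le₂ _).mp hy₂, rfl⟩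
  · rintro ⟨y₁, hy₁, y₂, hy₂, h1, h2, h3⟩
    exact ⟨⟨y₁, hy₁⟩, (mem_vert h.chart.le₁ _).mpr h1, ⟨y₂, hy₂⟩, (mem_vert h.chart.le₂ _).mpr h2,
      Subtype.ext h3.symm⟩

theorem NodeLoc.isUnit_or (h : NodeLoc ϖ 𝒪₁ 𝒪₂ B) (x : B) :
    IsUnit x ∨ x ∈ vert ϖ 𝒪₁ B ⊔ vert ϖ 𝒪₂ B := by
  rcases h.hmax x x.2 with h1 | h1
  · rcases eq_or_ne x 0 with rfl | hx0
    · exact Or.inr (zero_mem _)
    · left
      have hx0' : (x : F) ≠ 0 := fun h0 => hx0 (Subtype.ext h0)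
      exact ⟨⟨x, ⟨_, h1⟩, Subtype.ext (mul_inv_cancel₀ hx0'), Subtype.ext (inv_mul_cancel₀ hx0')⟩,
        rfl⟩
  · exact Or.inr ((h.mem_sup_iff x).mpr h1)

theorem NodeLoc.sup_ne_top (h : NodeLoc ϖ 𝒪₁ 𝒪₂ B) : vert ϖ 𝒪₁ B ⊔ vert ϖ 𝒪₂ B ≠ ⊤ := by
  intro htop
  have h1 : (1 : B) ∈ vert ϖ 𝒪₁ B ⊔ vert ϖ 𝒪₂ B := by rw [htop]; trivial
  obtain ⟨y₁, hy₁, y₂, hy₂, h1, h2, h3⟩ := (h.mem_sup_iff 1).mp h1
  exact h.hprop y₁ hy₁ y₂ hy₂ h1 h2 h3.symm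

theorem NodeLoc.not_isUnit (h : NodeLoc ϖ 𝒪₁ 𝒪₂ B) {x : B}
    (hx : x ∈ vert ϖ 𝒪₁ B ⊔ vert ϖ 𝒪₂ B) : ¬ IsUnit x :=
  fun hu => h.sup_ne_top (Ideal.eq_top_of_isUnit_mem _ hx hu)

theorem NodeLoc.isLocalRing (h : NodeLoc ϖ 𝒪₁ 𝒪₂ B) : IsLocalRing B := by
  apply IsLocalRing.of_nonunits_add
  intro a b ha hb
  have ha' := (h.isUnit_or a).resolve_left ha
  have hb' := (h.isUnit_or b).resolve_left hb
  exact h.not_isUnit (add_mem ha' hb')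

theorem NodeLoc.pid₁ (h : NodeLoc ϖ 𝒪₁ 𝒪₂ B) : IsPrincipalIdealRing (B ⧸ vert ϖ 𝒪₁ B) := by
  have := h.isLocalRing
  have hd := h.chart.ded₁
  have : IsLocalRing (B ⧸ vert ϖ 𝒪₁ B) :=
    IsLocalRing.of_surjective' (Ideal.Quotient.mk _) Ideal.Quotient.mk_surjective
  exact ((tfae_of_isNoetherianRing_of_isLocalRing_of_isDomain (B ⧸ vert ϖ 𝒪₁ B)).out 2 0).mp hd

/-- a uniformizer of `B / 𝔭₁` which lies in `𝔭₂`. -/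
theorem NodeLoc.exists_unif₁ (h : NodeLoc ϖ 𝒪₁ 𝒪₂ B) :
    ∃ lam : B, lam ∈ vert ϖ 𝒪₂ B ∧ lam ∉ vert ϖ 𝒪₁ B ∧
      ∀ x ∈ vert ϖ 𝒪₁ B ⊔ vert ϖ 𝒪₂ B, ∃ y : B, x - lam * y ∈ vert ϖ 𝒪₁ B := by
  have := h.pid₁
  obtain ⟨t, ht⟩ := (IsPrincipalIdealRing.principal
    ((vert ϖ 𝒪₁ B ⊔ vert ϖ 𝒪₂ B).map (Ideal.Quotient.mk (vert ϖ 𝒪₁ B)))).principal
  have ht' : (vert ϖ 𝒪₁ B ⊔ vert ϖ 𝒪₂ B).map (Ideal.Quotient.mk (vert ϖ 𝒪₁ B))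
      = Ideal.span {t} := ht
  have htm : t ∈ (vert ϖ 𝒪₁ B ⊔ vert ϖ 𝒪₂ B).map (Ideal.Quotient.mk (vert ϖ 𝒪₁ B)) := by
    rw [ht']
    exact Ideal.mem_span_singleton_self t
  obtain ⟨x₀, hx₀, rfl⟩ := (Ideal.mem_map_iff_of_surjective _ Ideal.Quotient.mk_surjective).mp htm
  obtain ⟨y₁, hy₁, y₂, hy₂, rfl⟩ := Submodule.mem_sup.mp hx₀
  have hmk : Ideal.Quotient.mk (vert ϖ 𝒪₁ B) (y₁ + y₂) = Ideal.Quotient.mk (vert ϖ 𝒪₁ B) y₂ := by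
    rw [Ideal.Quotient.eq]
    simpa using hy₁
  have hall : ∀ x ∈ vert ϖ 𝒪₁ B ⊔ vert ϖ 𝒪₂ B, ∃ y : B, x - y₂ * y ∈ vert ϖ 𝒪₁ B := by
    intro x hx
    have h1 : Ideal.Quotient.mk (vert ϖ 𝒪₁ B) x ∈ Ideal.span
        {Ideal.Quotient.mk (vert ϖ 𝒪₁ B) (y₁ + y₂)} := by
      rw [← ht']
      exact Ideal.mem_map_of_mem _ hx
    obtain ⟨q, hq⟩ := Ideal.mem_span_singleton'.mp h1
    obtain ⟨y, rfl⟩ := Ideal.Quotient.mk_surjective q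
    refine ⟨y, ?_⟩
    rw [← Ideal.Quotient.eq, ← hq, hmk, map_mul, mul_comm]
  refine ⟨y₂, hy₂, ?_, hall⟩
  intro hy₂'
  obtain ⟨e, heB, he2, he1⟩ := h.chart.sep₁
  apply he1
  have hem : (⟨e, heB⟩ : B) ∈ vert ϖ 𝒪₁ B ⊔ vert ϖ 𝒪₂ B :=
    Ideal.mem_sup_right ((mem_vert h.chart.le₂ _).mpr he2)
  obtain ⟨y, hy⟩ := hall _ hem
  have h2 : (⟨e, heB⟩ : B) ∈ vert ϖ 𝒪₁ B := by
    have h3 := add_mem hy (Ideal.mul_mem_right y _ hy₂')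
    rwa [sub_add_cancel] at h3
  exact (mem_vert h.chart.le₁ _).mp h2

/-! ### the module `I = rootSet B n w` -/

theorem Node_inv_sub_one (hG : GaussRing ϖ 𝒪) {w : F}
    (hw : (w - 1) / algebraMap R F ϖ ∈ 𝒪) : (w⁻¹ - 1) / algebraMap R F ϖ ∈ 𝒪 := by
  obtain ⟨-, hw', hw0⟩ := hG.mem_of_sub_one hw
  have : (w⁻¹ - 1) / algebraMap R F ϖ = -(w⁻¹ * ((w - 1) / algebraMap R F ϖ)) := by
    field_simp
    ring
  rw [this]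
  exact 𝒪.neg_mem _ (𝒪.mul_mem _ _ hw' hw)

omit [IsDomain R] [IsDiscreteValuationRing R] in
theorem Node_zero_mem_rootSet {n : ℕ} (hn : 0 < n) (w : F) : (0 : F) ∈ rootSet B n w := by
  show (0 : F) ^ n * w ∈ B
  rw [zero_pow hn.ne', zero_mul]
  exact B.zero_mem

omit [IsDomain R] [IsDiscreteValuationRing R] in
/-- `I(w) I(w⁻¹) ⊆ B`. -/
theorem Node_mul_mem (hcl : ∀ x : F, IsIntegral B x → x ∈ B) {n : ℕ} (hn : 0 < n) {w x y : F}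
    (hw0 : w ≠ 0) (hx : x ∈ rootSet B n w) (hy : y ∈ rootSet B n w⁻¹) : x * y ∈ B := by
  apply hcl
  apply IsIntegral.of_pow hn
  have h1 : (x * y) ^ n = (x ^ n * w) * (y ^ n * w⁻¹) := by
    rw [mul_pow]
    field_simp
  rw [h1]
  exact isIntegral_algebraMap (x := (⟨_, B.mul_mem hx hy⟩ : B))

theorem NodeLoc.mem₁ (h : NodeLoc ϖ 𝒪₁ 𝒪₂ B) {n : ℕ} (hn : 0 < n) {w a : F}
    (hw₁ : (w - 1) / algebraMap R F ϖ ∈ 𝒪₁) (ha : a ∈ rootSet B n w) : a ∈ 𝒪₁ :=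
  rootSet_subset₁ h.chart.toSatChart2 hn (h.G₁.mem_of_sub_one hw₁).2.2
    (h.G₁.mem_of_sub_one hw₁).2.1 ha

/-- every element of `I` is congruent to an element of `B` on the first branch. -/
theorem NodeLoc.exists_cong (h : NodeLoc ϖ 𝒪₁ 𝒪₂ B) {n : ℕ} (hn : 0 < n) {w a : F}
    (hw₁ : (w - 1) / algebraMap R F ϖ ∈ 𝒪₁) (ha : a ∈ rootSet B n w) :
    ∃ α ∈ B, NodeCg ϖ 𝒪₁ a α := by
  have ha1 := h.mem₁ hn hw₁ ha
  apply Node_exists_cong h.G₁ h.chart hn (ε := a ^ n * w) ha ha1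
  have : (a ^ n - a ^ n * w) / algebraMap R F ϖ = -(a ^ n * ((w - 1) / algebraMap R F ϖ)) := by
    ring
  rw [this]
  exact 𝒪₁.neg_mem _ (𝒪₁.mul_mem _ _ (𝒪₁.pow_mem ha1 n) hw₁)

/-- `a` generates the image of `I` in the residue field of `𝒪`. -/
def NodeGen (ϖ : R) (𝒪 : ValuationSubring F) (B : Subalgebra R F) (n : ℕ) (w a : F) : Prop :=
  ∀ x ∈ rootSet B n w, ∃ c ∈ B, NodeCg ϖ 𝒪 x (c * a)

theorem NodeLoc.exists_gen₁ (h : NodeLoc ϖ 𝒪₁ 𝒪₂ B) {n : ℕ} (hn : 0 < n) {w : F}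
    (hw₁ : (w - 1) / algebraMap R F ϖ ∈ 𝒪₁) :
    ∃ g ∈ rootSet B n w, NodeGen ϖ 𝒪₁ B n w g := by
  have := h.pid₁
  let J : Ideal B :=
    { carrier := {c | ∃ a ∈ rootSet B n w, NodeCg ϖ 𝒪₁ a c}
      zero_mem' := ⟨0, Node_zero_mem_rootSet hn w, NodeCg.refl _⟩
      add_mem' := by
        rintro c c' ⟨a, ha, hac⟩ ⟨a', ha', hac'⟩
        exact ⟨a + a', rootSet_add h.chart.closed hn ha ha', hac.add hac'⟩
      smul_mem' := by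
        rintro d c ⟨a, ha, hac⟩
        exact ⟨(d : F) * a, rootSet_mul d.2 ha, hac.mul_left (h.chart.le₁ _ d.2)⟩ }
  obtain ⟨t, ht⟩ := (IsPrincipalIdealRing.principal
    (J.map (Ideal.Quotient.mk (vert ϖ 𝒪₁ B)))).principal
  have ht' : J.map (Ideal.Quotient.mk (vert ϖ 𝒪₁ B)) = Ideal.span {t} := ht
  have htm : t ∈ J.map (Ideal.Quotient.mk (vert ϖ 𝒪₁ B)) := by
    rw [ht']
    exact Ideal.mem_span_singleton_self t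
  obtain ⟨γ, ⟨g, hg, hgγ⟩, rfl⟩ :=
    (Ideal.mem_map_iff_of_surjective _ Ideal.Quotient.mk_surjective).mp htm
  refine ⟨g, hg, fun x hx => ?_⟩
  obtain ⟨α, hα, hxα⟩ := h.exists_cong hn hw₁ hx
  have h1 : Ideal.Quotient.mk (vert ϖ 𝒪₁ B) ⟨α, hα⟩ ∈ Ideal.span
      {Ideal.Quotient.mk (vert ϖ 𝒪₁ B) γ} := by
    rw [← ht']
    exact Ideal.mem_map_of_mem _ ⟨x, hx, hxα⟩
  obtain ⟨q, hq⟩ := Ideal.mem_span_singleton'.mp h1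
  obtain ⟨c, rfl⟩ := Ideal.Quotient.mk_surjective q
  rw [← map_mul, Ideal.Quotient.eq, mem_vert h.chart.le₁] at hq
  refine ⟨c, c.2, ?_⟩
  have h2 : NodeCg ϖ 𝒪₁ ((c : F) * γ) α := hq
  exact hxα.trans (h2.symm.trans ((hgγ.mul_left (h.chart.le₁ _ c.2)).symm))

omit [IsDomain R] [IsDiscreteValuationRing R] in
theorem NodeGen.of_unit (hle : ∀ x ∈ B, x ∈ 𝒪) {n : ℕ} {w g a u : F}
    (hg : NodeGen ϖ 𝒪 B n w g) (hu0 : u ≠ 0) (hu' : u⁻¹ ∈ B)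
    (hau : NodeCg ϖ 𝒪 a (u * g)) : NodeGen ϖ 𝒪 B n w a := by
  intro x hx
  obtain ⟨c, hc, hxc⟩ := hg x hx
  refine ⟨c * u⁻¹, B.mul_mem hc hu', ?_⟩
  have h1 := (hau.mul_left (hle _ (B.mul_mem hc hu'))).symm
  have h2 : c * u⁻¹ * (u * g) = c * g := by
    field_simp
  rw [h2] at h1
  exact hxc.trans h1

theorem NodeLoc.inv_mem_of_not_mem (h : NodeLoc ϖ 𝒪₁ 𝒪₂ B) {x : B}
    (hx : x ∉ vert ϖ 𝒪₁ B ⊔ vert ϖ 𝒪₂ B) : (x : F) ≠ 0 ∧ (x : F)⁻¹ ∈ B := by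
  obtain ⟨u, hu⟩ := (h.isUnit_or x).resolve_right hx
  have h1 : (x : F) * ((u⁻¹ : Bˣ) : B) = 1 := by
    rw [← hu]
    exact_mod_cast congrArg Subtype.val (Units.mul_inv u)
  have hx0 : (x : F) ≠ 0 := left_ne_zero_of_mul_eq_one h1
  refine ⟨hx0, ?_⟩
  rw [← eq_inv_of_mul_eq_one_right h1]
  exact Subtype.mem _

theorem NodeLoc.one_add_not_mem (h : NodeLoc ϖ 𝒪₁ 𝒪₂ B) {c : B}
    (hc : c ∈ vert ϖ 𝒪₁ B ⊔ vert ϖ 𝒪₂ B) : 1 + c ∉ vert ϖ 𝒪₁ B ⊔ vert ϖ 𝒪₂ B := by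
  intro h1
  apply h.sup_ne_top
  rw [Ideal.eq_top_iff_one]
  have := sub_mem h1 hc
  rwa [add_sub_cancel_right] at this

/-- an element of `I` generating both projections. -/
theorem NodeLoc.exists_gen (h : NodeLoc ϖ 𝒪₁ 𝒪₂ B) {n : ℕ} (hn : 0 < n) {w : F}
    (hw₁ : (w - 1) / algebraMap R F ϖ ∈ 𝒪₁) (hw₂ : (w - 1) / algebraMap R F ϖ ∈ 𝒪₂) :
    ∃ a ∈ rootSet B n w, NodeGen ϖ 𝒪₁ B n w a ∧ NodeGen ϖ 𝒪₂ B n w a := by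
  obtain ⟨g₁, hg₁, hG₁⟩ := h.exists_gen₁ hn hw₁
  obtain ⟨g₂, hg₂, hG₂⟩ := h.symm.exists_gen₁ hn hw₂
  obtain ⟨c, hc, hc1⟩ := hG₁ g₂ hg₂
  obtain ⟨c', hc', hc2⟩ := hG₂ g₁ hg₁
  by_cases hcm : (⟨c, hc⟩ : B) ∈ vert ϖ 𝒪₁ B ⊔ vert ϖ 𝒪₂ B
  · by_cases hcm' : (⟨c', hc'⟩ : B) ∈ vert ϖ 𝒪₁ B ⊔ vert ϖ 𝒪₂ B
    · refine ⟨g₁ + g₂, rootSet_add h.chart.closed hn hg₁ hg₂, ?_, ?_⟩
      · obtain ⟨hu0, hu'⟩ := h.inv_mem_of_not_mem (h.one_add_not_mem hcm)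
        apply hG₁.of_unit h.chart.le₁ hu0 hu'
        have h1 := (NodeCg.refl (ϖ := ϖ) (𝒪 := 𝒪₁) g₁).add hc1
        have h2 : (((1 + ⟨c, hc⟩ : B) : B) : F) * g₁ = g₁ + c * g₁ := by
          push_cast
          ring
        rw [h2]
        exact h1
      · obtain ⟨hu0, hu'⟩ := h.inv_mem_of_not_mem (h.one_add_not_mem hcm')
        apply hG₂.of_unit h.chart.le₂ hu0 hu'
        have h1 := hc2.add (NodeCg.refl (ϖ := ϖ) (𝒪 := 𝒪₂) g₂)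
        have h2 : (((1 + ⟨c', hc'⟩ : B) : B) : F) * g₂ = c' * g₂ + g₂ := by
          push_cast
          ring
        rw [h2]
        exact h1
    · obtain ⟨hu0, hu'⟩ := h.inv_mem_of_not_mem hcm'
      exact ⟨g₁, hg₁, hG₁, hG₂.of_unit h.chart.le₂ hu0 hu' hc2⟩
  · obtain ⟨hu0, hu'⟩ := h.inv_mem_of_not_mem hcm
    exact ⟨g₂, hg₂, hG₁.of_unit h.chart.le₁ hu0 hu' hc1, hG₂⟩

/-- `I` is not contained in `ϖ 𝒪₁`. -/
theorem NodeLoc.exists_not_div (h : NodeLoc ϖ 𝒪₁ 𝒪₂ B) {n : ℕ} (hn : 0 < n) {w : F}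
    (hw₁ : (w - 1) / algebraMap R F ϖ ∈ 𝒪₁) (hw₂ : (w - 1) / algebraMap R F ϖ ∈ 𝒪₂)
    (hcert : CertAt ϖ B n w) :
    ∃ x ∈ rootSet B n w, x / algebraMap R F ϖ ∉ 𝒪₁ := by
  by_contra hcon
  push Not at hcon
  have hP0 := h.G₁.ne_zero
  obtain ⟨e, heB, he2, he1⟩ := h.chart.sep₁
  have he0 : e ≠ 0 := by
    rintro rfl
    apply he1
    rw [zero_div]
    exact 𝒪₁.zero_mem
  have heinv : e⁻¹ ∈ 𝒪₁ := Node_inv_mem h.G₁ (h.chart.le₁ e heB) he1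
  have hw1 := (h.G₁.mem_of_sub_one hw₁).1
  have hw2 := (h.G₂.mem_of_sub_one hw₂).1
  have key : ∀ k : ℕ, ∀ x ∈ rootSet B n w, x / algebraMap R F ϖ ^ k ∈ 𝒪₁ := by
    intro k
    induction k with
    | zero =>
      intro x hx
      simpa using h.mem₁ hn hw₁ hx
    | succ k ih =>
      intro x hx
      have hx' : e * x / algebraMap R F ϖ ^ 1 ∈ rootSet B n w := by
        apply div_pow_mem_rootSet h.chart.toSatChart2 hw1 hw2 1 (rootSet_mul heB hx)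
        · have : e * x / algebraMap R F ϖ ^ 1 = e * (x / algebraMap R F ϖ) := by
            rw [pow_one]; ring
          rw [this]
          exact 𝒪₁.mul_mem _ _ (h.chart.le₁ e heB) (hcon x hx)
        · have : e * x / algebraMap R F ϖ ^ 1 = e / algebraMap R F ϖ * x := by
            rw [pow_one]; ring
          rw [this]
          exact 𝒪₂.mul_mem _ _ he2 (h.symm.mem₁ hn hw₂ hx)
      have h1 := 𝒪₁.mul_mem _ _ heinv (ih _ hx')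
      have h2 : e⁻¹ * (e * x / algebraMap R F ϖ ^ 1 / algebraMap R F ϖ ^ k)
          = x / algebraMap R F ϖ ^ (k + 1) := by
        field_simp
        ring
      rwa [h2] at h1
  obtain ⟨M, m, a, b, ha, hb, hsum⟩ := hcert
  apply h.G₁.inv_not_mem
  have h3 : (algebraMap R F ϖ)⁻¹ = ∑ i, a i / algebraMap R F ϖ ^ (M + 1) * b i := by
    have : ∑ i, a i / algebraMap R F ϖ ^ (M + 1) * b i
        = (∑ i, a i * b i) / algebraMap R F ϖ ^ (M + 1) := by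
      rw [Finset.sum_div]
      refine Finset.sum_congr rfl fun i _ => ?_
      ring
    rw [this, hsum]
    field_simp
    ring
  rw [h3]
  refine 𝒪₁.toSubring.sum_mem fun i _ => ?_
  exact 𝒪₁.mul_mem _ _ (key _ _ (ha i)) (h.mem₁ hn (Node_inv_sub_one h.G₁ hw₁) (hb i))

theorem NodeLoc.gen_not_div (h : NodeLoc ϖ 𝒪₁ 𝒪₂ B) {n : ℕ} (hn : 0 < n) {w a : F}
    (hw₁ : (w - 1) / algebraMap R F ϖ ∈ 𝒪₁) (hw₂ : (w - 1) / algebraMap R F ϖ ∈ 𝒪₂)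
    (hcert : CertAt ϖ B n w) (ha : NodeGen ϖ 𝒪₁ B n w a) : a / algebraMap R F ϖ ∉ 𝒪₁ := by
  intro hdiv
  obtain ⟨x, hx, hx'⟩ := h.exists_not_div hn hw₁ hw₂ hcert
  apply hx'
  obtain ⟨c, hc, hxc⟩ := ha x hx
  rw [← nodeCg_zero_iff] at hdiv ⊢
  have := hdiv.mul_left (h.chart.le₁ c hc)
  rw [mul_zero] at this
  exact hxc.trans this

/-! ### Nakayama -/

/-- `I` as a `B`-submodule of `F`. -/
def NodeMod (B : Subalgebra R F) (hcl : ∀ x : F, IsIntegral B x → x ∈ B) {n : ℕ} (hn : 0 < n)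
    (w : F) : Submodule B F where
  carrier := rootSet B n w
  zero_mem' := Node_zero_mem_rootSet hn w
  add_mem' := fun ha hb => rootSet_add hcl hn ha hb
  smul_mem' := fun c x hx => by
    rw [Algebra.smul_def]
    exact rootSet_mul c.2 hx

theorem NodeMod_fg (hno : IsNoetherianRing B) (hcl : ∀ x : F, IsIntegral B x → x ∈ B) {n : ℕ}
    (hn : 0 < n) {w β : F} (hw0 : w ≠ 0) (hβ0 : β ≠ 0) (hβ : β ∈ rootSet B n w⁻¹) :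
    (NodeMod B hcl hn w).FG := by
  let g : B →ₗ[B] F := LinearMap.toSpanSingleton B F β⁻¹
  have h1 : NodeMod B hcl hn w = Submodule.map g (Submodule.comap g (NodeMod B hcl hn w)) := by
    rw [Submodule.map_comap_eq_self]
    intro x hx
    refine ⟨⟨x * β, Node_mul_mem hcl hn hw0 hx hβ⟩, ?_⟩
    show (⟨x * β, _⟩ : B) • β⁻¹ = x
    rw [Algebra.smul_def]
    show x * β * β⁻¹ = x
    rw [mul_inv_cancel_right₀ hβ0]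
  rw [h1]
  exact Submodule.FG.map _ (IsNoetherian.noetherian _)

theorem NodeLoc.nakayama (h : NodeLoc ϖ 𝒪₁ 𝒪₂ B) {n : ℕ} (hn : 0 < n) {w : F}
    (hw₁ : (w - 1) / algebraMap R F ϖ ∈ 𝒪₁) (hw₂ : (w - 1) / algebraMap R F ϖ ∈ 𝒪₂)
    (hcert : CertAt ϖ B n w) {a b : F} (ha : a ∈ rootSet B n w) (hb : b ∈ rootSet B n w)
    (H : ∀ x ∈ rootSet B n w, ∃ c₁ ∈ B, ∃ c₂ ∈ B,
      NodeCg ϖ 𝒪₁ x (c₁ * a + c₂ * b) ∧ NodeCg ϖ 𝒪₂ x (c₁ * a + c₂ * b)) :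
    ∀ x ∈ rootSet B n w, ∃ c₁ ∈ B, ∃ c₂ ∈ B, x = c₁ * a + c₂ * b := by
  have hloc := h.isLocalRing
  have hP0 := h.G₁.ne_zero
  have hw1 := h.G₁.mem_of_sub_one hw₁
  have hw2 := h.G₂.mem_of_sub_one hw₂
  have hfg : (NodeMod B h.chart.closed hn w).FG := by
    obtain ⟨M, m, a_, b_, ha_, hb_, hsum⟩ := hcert
    have : ∃ i, b_ i ≠ 0 := by
      by_contra hcon
      push Not at hcon
      apply pow_ne_zero M hP0
      rw [← hsum]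
      exact Finset.sum_eq_zero fun i _ => by rw [hcon i, mul_zero]
    obtain ⟨i, hi⟩ := this
    exact NodeMod_fg h.chart.noeth h.chart.closed hn hw1.2.2 hi (hb_ i)
  have hjac : Ideal.span {algebraMap R B ϖ} ≤ Ideal.jacobson (⊥ : Ideal B) := by
    rw [IsLocalRing.jacobson_eq_maximalIdeal _ bot_ne_top, Ideal.span_singleton_le_iff_mem,
      IsLocalRing.mem_maximalIdeal, mem_nonunits_iff]
    exact h.not_isUnit (Ideal.mem_sup_left (algebraMap_mem_vert h.G₁ B))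
  have hle : NodeMod B h.chart.closed hn w ≤ Submodule.span B {a, b} := by
    apply Submodule.le_of_le_smul_of_le_jacobson_bot hfg hjac
    intro x hx
    obtain ⟨c₁, hc₁, c₂, hc₂, h1, h2⟩ := H x hx
    have hx' : (x - (c₁ * a + c₂ * b)) / algebraMap R F ϖ ^ 1 ∈ rootSet B n w := by
      apply div_pow_mem_rootSet h.chart.toSatChart2 hw1.1 hw2.1 1
      · rw [sub_eq_add_neg]
        exact rootSet_add h.chart.closed hn hx (rootSet_neg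
          (rootSet_add h.chart.closed hn (rootSet_mul hc₁ ha) (rootSet_mul hc₂ hb)))
      · rw [pow_one]
        exact h1
      · rw [pow_one]
        exact h2
    rw [Submodule.mem_sup]
    refine ⟨c₁ * a + c₂ * b, ?_, algebraMap R B ϖ • ((x - (c₁ * a + c₂ * b)) / algebraMap R F ϖ ^ 1),
      Submodule.smul_mem_smul (Ideal.mem_span_singleton_self _) hx', ?_⟩
    · rw [Submodule.mem_span_pair]
      exact ⟨⟨c₁, hc₁⟩, ⟨c₂, hc₂⟩, rfl⟩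
    · rw [Algebra.smul_def]
      show c₁ * a + c₂ * b + algebraMap R F ϖ * ((x - (c₁ * a + c₂ * b)) / algebraMap R F ϖ ^ 1) = x
      rw [pow_one, mul_div_cancel₀ _ hP0]
      ring
  intro x hx
  obtain ⟨c₁, c₂, hc⟩ := Submodule.mem_span_pair.mp (hle hx)
  exact ⟨c₁, c₁.2, c₂, c₂.2, hc.symm⟩

/-! ### the two cases -/

omit [IsDomain R] [IsDiscreteValuationRing R] in
theorem Node_unit_of_cg (hG : GaussRing ϖ 𝒪) {x y : F} (hx : x ∈ 𝒪)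
    (hy : y / algebraMap R F ϖ ∉ 𝒪) (h : NodeCg ϖ 𝒪 x y) : x ≠ 0 ∧ x⁻¹ ∈ 𝒪 := by
  have h1 : x / algebraMap R F ϖ ∉ 𝒪 := by
    intro h2
    apply hy
    rw [← nodeCg_zero_iff] at h2 ⊢
    exact h.symm.trans h2
  refine ⟨?_, Node_inv_mem hG hx h1⟩
  rintro rfl
  apply h1
  rw [zero_div]
  exact 𝒪.zero_mem

/-- If `I` is generated by one element `a` which is a unit on both branches, then `a ^ n * w`
is a unit of `B`. -/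
theorem NodeLoc.line_case (h : NodeLoc ϖ 𝒪₁ 𝒪₂ B) {n : ℕ} (hn : 0 < n) {w : F}
    (hw₁ : (w - 1) / algebraMap R F ϖ ∈ 𝒪₁) (hw₂ : (w - 1) / algebraMap R F ϖ ∈ 𝒪₂)
    (hcert : CertAt ϖ B n w) {a : F} (ha0 : a ≠ 0) (ha1 : a⁻¹ ∈ 𝒪₁) (ha2 : a⁻¹ ∈ 𝒪₂)
    (H : ∀ x ∈ rootSet B n w, ∃ c ∈ B, x = c * a) : (a ^ n * w)⁻¹ ∈ B := by
  have hP0 := h.G₁.ne_zero
  have hw1 := h.G₁.mem_of_sub_one hw₁
  have hw2 := h.G₂.mem_of_sub_one hw₂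
  have hw0 := hw1.2.2
  obtain ⟨M, m, a_, b_, ha_, hb_, hsum⟩ := hcert
  choose c hc hac using fun i => H (a_ i) (ha_ i)
  have hβ : ∑ i, c i * b_ i ∈ rootSet B n w⁻¹ :=
    (NodeMod B h.chart.closed hn w⁻¹).sum_mem fun i _ => rootSet_mul (hc i) (hb_ i)
  have haβ : a * ∑ i, c i * b_ i = algebraMap R F ϖ ^ M := by
    rw [← hsum, Finset.mul_sum]
    refine Finset.sum_congr rfl fun i _ => ?_
    rw [hac i]
    ring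
  have e : (a ^ n * w)⁻¹ = (∑ i, c i * b_ i) ^ n * w⁻¹ / algebraMap R F ϖ ^ (M * n) := by
    rw [pow_mul, ← haβ, mul_pow]
    have hβ0 : (∑ i, c i * b_ i) ≠ 0 := by
      intro h0
      rw [h0, mul_zero] at haβ
      exact pow_ne_zero M hP0 haβ.symm
    field_simp
  have e' : (a ^ n * w)⁻¹ = a⁻¹ ^ n * w⁻¹ := by
    rw [mul_inv, inv_pow]
  rw [e]
  apply h.chart.toSatChart2.sat_pow (M * n) hβ
  · rw [← e, e']
    exact 𝒪₁.mul_mem _ _ (𝒪₁.pow_mem ha1 n) hw1.2.1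
  · rw [← e, e']
    exact 𝒪₂.mul_mem _ _ (𝒪₂.pow_mem ha2 n) hw2.2.1

/-- `I` cannot split as the normalization does. -/
theorem NodeLoc.no_split (h : NodeLoc ϖ 𝒪₁ 𝒪₂ B) {n : ℕ} (hn : 0 < n) {w : F}
    (hw₁ : (w - 1) / algebraMap R F ϖ ∈ 𝒪₁) (hw₂ : (w - 1) / algebraMap R F ϖ ∈ 𝒪₂)
    (hcert : CertAt ϖ B n w) {a' b' : F} (ha' : a' ∈ rootSet B n w) (hb' : b' ∈ rootSet B n w)
    (ha0 : a' ≠ 0) (ha1 : a'⁻¹ ∈ 𝒪₁) (ha2 : NodeCg ϖ 𝒪₂ a' 0)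
    (hb0 : b' ≠ 0) (hb1 : NodeCg ϖ 𝒪₁ b' 0) (hb2 : b'⁻¹ ∈ 𝒪₂)
    (H : ∀ x ∈ rootSet B n w, ∃ c₁ ∈ B, ∃ c₂ ∈ B, x = c₁ * a' + c₂ * b') : False := by
  obtain ⟨lam, hl2, hl1, hlam⟩ := h.exists_unif₁
  have hP0 := h.G₁.ne_zero
  have hPB : algebraMap R F ϖ ∈ B := B.algebraMap_mem ϖ
  have hw1 := h.G₁.mem_of_sub_one hw₁
  have hw2 := h.G₂.mem_of_sub_one hw₂
  have hw0 := hw1.2.2
  rw [nodeCg_zero_iff] at ha2 hb1
  have hξ : (lam : F) * b' / algebraMap R F ϖ ^ 1 ∈ rootSet B n w := by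
    apply div_pow_mem_rootSet h.chart.toSatChart2 hw1.1 hw2.1 1 (rootSet_mul lam.2 hb')
    · have : (lam : F) * b' / algebraMap R F ϖ ^ 1 = lam * (b' / algebraMap R F ϖ) := by
        rw [pow_one]; ring
      rw [this]
      exact 𝒪₁.mul_mem _ _ (h.chart.le₁ _ lam.2) hb1
    · have : (lam : F) * b' / algebraMap R F ϖ ^ 1 = lam / algebraMap R F ϖ * b' := by
        rw [pow_one]; ring
      rw [this]
      exact 𝒪₂.mul_mem _ _ ((mem_vert h.chart.le₂ _).mp hl2) (h.symm.mem₁ hn hw₂ hb')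
  obtain ⟨s, hs, s', hs', hξ'⟩ := H _ hξ
  have e1 : ((lam : F) - algebraMap R F ϖ * s') * b' = algebraMap R F ϖ * s * a' := by
    have : (lam : F) * b' = algebraMap R F ϖ * (s * a' + s' * b') := by
      rw [← hξ', pow_one, mul_div_cancel₀ _ hP0]
    linear_combination this
  have hlB : (lam : F) - algebraMap R F ϖ * s' ∈ B := B.sub_mem lam.2 (B.mul_mem hPB hs')
  obtain ⟨y, hy⟩ : ∃ y : F, y = ((lam : F) - algebraMap R F ϖ * s') / a' := ⟨_, rfl⟩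
  have hya : y * a' = lam - algebraMap R F ϖ * s' := by
    rw [hy, div_mul_cancel₀ _ ha0]
  have hyb : y * b' = algebraMap R F ϖ * s := by
    rw [hy, div_mul_eq_mul_div, e1, mul_div_cancel_right₀ _ ha0]
  have hyI : ∀ x ∈ rootSet B n w, y * x ∈ B := by
    intro x hx
    obtain ⟨c₁, hc₁, c₂, hc₂, rfl⟩ := H x hx
    have : y * (c₁ * a' + c₂ * b')
        = c₁ * (lam - algebraMap R F ϖ * s') + c₂ * (algebraMap R F ϖ * s) := by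
      rw [← hya, ← hyb]; ring
    rw [this]
    exact B.add_mem (B.mul_mem hc₁ hlB) (B.mul_mem hc₂ (B.mul_mem hPB hs))
  have hy1 : y ∈ 𝒪₁ := by
    rw [hy, div_eq_mul_inv]
    exact 𝒪₁.mul_mem _ _ (h.chart.le₁ _ hlB) ha1
  have hy2 : y / algebraMap R F ϖ ∈ 𝒪₂ := by
    have : y / algebraMap R F ϖ = s * b'⁻¹ := by
      have h3 : y = algebraMap R F ϖ * s / b' := by rw [eq_div_iff hb0, hyb]
      rw [h3]
      field_simp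
    rw [this]
    exact 𝒪₂.mul_mem _ _ (h.chart.le₂ _ hs) hb2
  have hy2' : y ∈ 𝒪₂ := by
    have : y = algebraMap R F ϖ * (y / algebraMap R F ϖ) := by
      rw [mul_div_cancel₀ _ hP0]
    rw [this]
    exact 𝒪₂.mul_mem _ _ h.G₂.mem hy2
  obtain ⟨M, m, a_, b_, ha_, hb_, hsum⟩ := hcert
  have hyM : y * algebraMap R F ϖ ^ M ∈ rootSet B n w⁻¹ := by
    rw [← hsum, Finset.mul_sum]
    refine (NodeMod B h.chart.closed hn w⁻¹).sum_mem fun i _ => ?_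
    have : y * (a_ i * b_ i) = (y * a_ i) * b_ i := by ring
    rw [this]
    exact rootSet_mul (hyI _ (ha_ i)) (hb_ i)
  have hyI' : y ∈ rootSet B n w⁻¹ := by
    have hc := mul_div_cancel_right₀ y (pow_ne_zero M hP0)
    have := div_pow_mem_rootSet h.chart.toSatChart2 hw1.2.1 hw2.2.1 M hyM
      (by rwa [hc]) (by rwa [hc])
    rwa [hc] at this
  obtain ⟨k, rfl⟩ : ∃ k, n = k + 1 := ⟨n - 1, by omega⟩
  have hz2 : (⟨y ^ (k + 1) * w⁻¹, hyI'⟩ : B) ∈ vert ϖ 𝒪₂ B := by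
    rw [mem_vert h.chart.le₂]
    have : y ^ (k + 1) * w⁻¹ / algebraMap R F ϖ = y / algebraMap R F ϖ * (y ^ k * w⁻¹) := by
      rw [pow_succ]; ring
    show y ^ (k + 1) * w⁻¹ / algebraMap R F ϖ ∈ 𝒪₂
    rw [this]
    exact 𝒪₂.mul_mem _ _ hy2 (𝒪₂.mul_mem _ _ (𝒪₂.pow_mem hy2' k) hw2.2.1)
  have ht2 : (⟨a' ^ (k + 1) * w, ha'⟩ : B) ∈ vert ϖ 𝒪₂ B := by
    rw [mem_vert h.chart.le₂]
    have : a' ^ (k + 1) * w / algebraMap R F ϖ = a' / algebraMap R F ϖ * (a' ^ k * w) := by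
      rw [pow_succ]; ring
    show a' ^ (k + 1) * w / algebraMap R F ϖ ∈ 𝒪₂
    rw [this]
    exact 𝒪₂.mul_mem _ _ ha2 (𝒪₂.mul_mem _ _ (𝒪₂.pow_mem (h.symm.mem₁ hn hw₂ ha') k) hw2.1)
  have hzt : (⟨y ^ (k + 1) * w⁻¹, hyI'⟩ : B) * ⟨a' ^ (k + 1) * w, ha'⟩
      = (lam - algebraMap R B ϖ * ⟨s', hs'⟩) ^ (k + 1) := by
    apply Subtype.ext
    show y ^ (k + 1) * w⁻¹ * (a' ^ (k + 1) * w) = ((lam : F) - algebraMap R F ϖ * s') ^ (k + 1)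
    rw [← hya, mul_pow]
    field_simp
  obtain ⟨α, hα, haα⟩ := h.exists_cong hn hw₁ ha'
  have htα : (⟨a' ^ (k + 1) * w, ha'⟩ : B) - ⟨α, hα⟩ ^ (k + 1) ∈ vert ϖ 𝒪₁ B := by
    rw [mem_vert h.chart.le₁]
    have h1 : NodeCg ϖ 𝒪₁ (a' ^ (k + 1)) (α ^ (k + 1)) :=
      haα.pow (h.mem₁ hn hw₁ ha') (h.chart.le₁ _ hα) _
    have h2 : NodeCg ϖ 𝒪₁ w 1 := hw₁
    have h3 := h1.mul h2 hw1.1 (𝒪₁.pow_mem (h.chart.le₁ _ hα) _)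
    rw [mul_one] at h3
    exact h3
  have hαm : (⟨α, hα⟩ : B) ∈ vert ϖ 𝒪₁ B ⊔ vert ϖ 𝒪₂ B := by
    by_contra hcon
    have hu := (h.isUnit_or _).resolve_right hcon
    have h3 : (⟨α, hα⟩ : B) ^ (k + 1) ∈ vert ϖ 𝒪₁ B ⊔ vert ϖ 𝒪₂ B := by
      have := sub_mem (Ideal.mem_sup_right (S := vert ϖ 𝒪₁ B) ht2)
        (Ideal.mem_sup_left (T := vert ϖ 𝒪₂ B) htα)
      rwa [sub_sub_cancel] at this
    exact h.not_isUnit h3 (hu.pow _)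
  obtain ⟨z₁, hz₁⟩ := hlam _ (Ideal.mem_sup_right hz2)
  obtain ⟨α₁, hα₁⟩ := hlam _ hαm
  have hded := h.chart.ded₁
  rw [← Ideal.Quotient.eq, map_mul] at hz₁ hα₁
  rw [← Ideal.Quotient.eq, map_pow] at htα
  have q4 : Ideal.Quotient.mk (vert ϖ 𝒪₁ B) (algebraMap R B ϖ) = 0 :=
    Ideal.Quotient.eq_zero_iff_mem.mpr (algebraMap_mem_vert h.G₁ B)
  have q5 := congrArg (Ideal.Quotient.mk (vert ϖ 𝒪₁ B)) hzt
  rw [map_mul, map_pow, map_sub, map_mul, q4, zero_mul, sub_zero, hz₁, htα, hα₁] at q5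
  have q6 : Ideal.Quotient.mk (vert ϖ 𝒪₁ B) lam ≠ 0 := by
    rwa [Ne, Ideal.Quotient.eq_zero_iff_mem]
  have q7 : Ideal.Quotient.mk (vert ϖ 𝒪₁ B) lam ^ (k + 1)
      * Ideal.Quotient.mk (vert ϖ 𝒪₁ B) (1 - lam * (z₁ * α₁ ^ (k + 1))) = 0 := by
    rw [map_sub, map_one, map_mul, map_mul, map_pow]
    linear_combination -q5
  rcases mul_eq_zero.mp q7 with h0 | h0
  · exact q6 (pow_eq_zero_iff (Nat.succ_ne_zero k) |>.mp h0)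
  · rw [Ideal.Quotient.eq_zero_iff_mem] at h0
    apply h.sup_ne_top
    rw [Ideal.eq_top_iff_one]
    have := add_mem (Ideal.mem_sup_left (T := vert ϖ 𝒪₂ B) h0)
      (Ideal.mem_sup_right (S := vert ϖ 𝒪₁ B) (Ideal.mul_mem_right (z₁ * α₁ ^ (k + 1)) _ hl2))
    rwa [sub_add_cancel] at this

/-- LEMMA N.  `B` a local nodal chart whose maximal ideal is `𝔭₁ + 𝔭₂`; `w ≡ 1` on both branches
and the horizontal divisor of `w` is divisible by `n`.  Then `w = unit * n-th power`.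
(No regularity of `B` is assumed: `B` may be `R[[X,Y]]/(XY - ϖ^k)`.) -/
theorem node_local (hϖ : Irreducible ϖ) (hG₁ : GaussRing ϖ 𝒪₁) (hG₂ : GaussRing ϖ 𝒪₂)
    {B : Subalgebra R F} (hB : NodalChart ϖ 𝒪₁ 𝒪₂ B)
    (hmax : ∀ x ∈ B, x⁻¹ ∈ B ∨ ∃ y₁ ∈ B, ∃ y₂ ∈ B,
      y₁ / algebraMap R F ϖ ∈ 𝒪₁ ∧ y₂ / algebraMap R F ϖ ∈ 𝒪₂ ∧ x = y₁ + y₂)
    (hne : ∀ y₁ ∈ B, ∀ y₂ ∈ B, y₁ / algebraMap R F ϖ ∈ 𝒪₁ → y₂ / algebraMap R F ϖ ∈ 𝒪₂ →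
      y₁ + y₂ ≠ 1)
    {n : ℕ} (hn : 0 < n) {w : F}
    (hw₁ : (w - 1) / algebraMap R F ϖ ∈ 𝒪₁) (hw₂ : (w - 1) / algebraMap R F ϖ ∈ 𝒪₂)
    (hcert : CertAt ϖ B n w) :
    ∃ a : F, a ≠ 0 ∧ a ^ n * w ∈ B ∧ (a ^ n * w)⁻¹ ∈ B := by
  have h : NodeLoc ϖ 𝒪₁ 𝒪₂ B := ⟨hG₁, hG₂, hB, hmax, hne⟩
  obtain ⟨a, ha, hg1, hg2⟩ := h.exists_gen hn hw₁ hw₂
  have ha1 : a ∈ 𝒪₁ := h.mem₁ hn hw₁ ha
  have ha2 : a ∈ 𝒪₂ := h.symm.mem₁ hn hw₂ ha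
  have hnd1 := h.gen_not_div hn hw₁ hw₂ hcert hg1
  have hnd2 := h.symm.gen_not_div hn hw₂ hw₁ hcert hg2
  obtain ⟨ha0, hinv1⟩ := Node_unit_of_cg hG₁ ha1 hnd1 (NodeCg.refl a)
  obtain ⟨-, hinv2⟩ := Node_unit_of_cg hG₂ ha2 hnd2 (NodeCg.refl a)
  refine ⟨a, ha0, ha, ?_⟩
  by_cases hL : ∀ x ∈ rootSet B n w, ∀ c₁ c₂ : B, NodeCg ϖ 𝒪₁ x (c₁ * a) → NodeCg ϖ 𝒪₂ x (c₂ * a) →
      c₁ - c₂ ∈ vert ϖ 𝒪₁ B ⊔ vert ϖ 𝒪₂ B
  · apply h.line_case hn hw₁ hw₂ hcert ha0 hinv1 hinv2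
    have key := h.nakayama hn hw₁ hw₂ hcert ha (Node_zero_mem_rootSet hn w) ?_
    · intro x hx
      obtain ⟨c₁, hc₁, c₂, -, hc⟩ := key x hx
      exact ⟨c₁, hc₁, by rw [hc, mul_zero, add_zero]⟩
    · intro x hx
      obtain ⟨c₁, hc₁, hx1⟩ := hg1 x hx
      obtain ⟨c₂, hc₂, hx2⟩ := hg2 x hx
      obtain ⟨y₁, hy₁, y₂, hy₂, h1, h2, h3⟩ :=
        (h.mem_sup_iff _).mp (hL x hx ⟨c₁, hc₁⟩ ⟨c₂, hc₂⟩ hx1 hx2)
      have h3' : c₁ - c₂ = y₁ + y₂ := h3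
      rw [← nodeCg_zero_iff] at h1 h2
      refine ⟨c₁ - y₁, B.sub_mem hc₁ hy₁, 0, B.zero_mem, ?_, ?_⟩
      · rw [zero_mul, add_zero]
        have h4 := (NodeCg.refl (ϖ := ϖ) (𝒪 := 𝒪₁) (c₁ * a)).sub (h1.mul_left ha1)
        rw [mul_zero, sub_zero] at h4
        have h5 : (c₁ - y₁) * a = c₁ * a - a * y₁ := by ring
        rw [h5]
        exact hx1.trans h4.symm
      · rw [zero_mul, add_zero]
        have h4 := (NodeCg.refl (ϖ := ϖ) (𝒪 := 𝒪₂) (c₂ * a)).add (h2.mul_left ha2)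
        rw [mul_zero, add_zero] at h4
        have h5 : (c₁ - y₁) * a = c₂ * a + a * y₂ := by
          linear_combination a * h3'
        rw [h5]
        exact hx2.trans h4.symm
  · exfalso
    push Not at hL
    obtain ⟨x, hx, c₁, c₂, hx1, hx2, hu⟩ := hL
    obtain ⟨hu0, hu'⟩ := h.inv_mem_of_not_mem hu
    have hucast : ((c₁ - c₂ : B) : F) = (c₁ : F) - c₂ := rfl
    rw [hucast] at hu0 hu'
    obtain ⟨b', hb'def⟩ : ∃ b' : F, b' = ((c₁ : F) - c₂)⁻¹ * (c₁ * a - x) := ⟨_, rfl⟩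
    have hb' : b' ∈ rootSet B n w := by
      rw [hb'def, sub_eq_add_neg (c₁ * a)]
      exact rootSet_mul hu' (rootSet_add hB.closed hn (rootSet_mul c₁.2 ha) (rootSet_neg hx))
    have hb1 : NodeCg ϖ 𝒪₁ b' 0 := by
      have h4 := ((NodeCg.refl (ϖ := ϖ) (𝒪 := 𝒪₁) (c₁ * a)).sub hx1).mul_left (hB.le₁ _ hu')
      rw [sub_self, mul_zero, ← hb'def] at h4
      exact h4
    have hb2 : NodeCg ϖ 𝒪₂ b' a := by
      have h4 := ((NodeCg.refl (ϖ := ϖ) (𝒪 := 𝒪₂) (c₁ * a)).sub hx2).mul_left (hB.le₂ _ hu')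
      have h5 : ((c₁ : F) - c₂)⁻¹ * (c₁ * a - c₂ * a) = a := by
        rw [← sub_mul, inv_mul_cancel_left₀ hu0]
      rw [h5, ← hb'def] at h4
      exact h4
    have ha' : a - b' ∈ rootSet B n w := by
      rw [sub_eq_add_neg]
      exact rootSet_add hB.closed hn ha (rootSet_neg hb')
    have ha'1 : NodeCg ϖ 𝒪₁ (a - b') a := by
      have h4 := (NodeCg.refl (ϖ := ϖ) (𝒪 := 𝒪₁) a).sub hb1
      rwa [sub_zero] at h4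
    have ha'2 : NodeCg ϖ 𝒪₂ (a - b') 0 := by
      have h4 := (NodeCg.refl (ϖ := ϖ) (𝒪 := 𝒪₂) a).sub hb2
      rwa [sub_self] at h4
    obtain ⟨ha'0, ha'inv⟩ := Node_unit_of_cg hG₁ (h.mem₁ hn hw₁ ha') hnd1 ha'1
    obtain ⟨hb'0, hb'inv⟩ := Node_unit_of_cg hG₂ (h.symm.mem₁ hn hw₂ hb') hnd2 hb2
    apply h.no_split hn hw₁ hw₂ hcert ha' hb' ha'0 ha'inv ha'2 hb'0 hb1 hb'inv
    apply h.nakayama hn hw₁ hw₂ hcert ha' hb'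
    intro x hx
    obtain ⟨d₁, hd₁, hx1⟩ := hg1 x hx
    obtain ⟨d₂, hd₂, hx2⟩ := hg2 x hx
    refine ⟨d₁, hd₁, d₂, hd₂, ?_, ?_⟩
    · have h4 := (ha'1.mul_left (hB.le₁ _ hd₁)).add (hb1.mul_left (hB.le₁ _ hd₂))
      rw [mul_zero, add_zero] at h4
      exact hx1.trans h4.symm
    · have h4 := (ha'2.mul_left (hB.le₂ _ hd₁)).add (hb2.mul_left (hB.le₂ _ hd₂))
      rw [mul_zero, zero_add] at h4
      exact hx2.trans h4.symm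

end Fermat.Agent.GS
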