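import Fermat.Agent.GS.Abs.Glue

/-! GS abstract part, file `One`: from local gluing to a global section `≡ 1`. -/

set_option autoImplicit false

namespace Fermat.Agent.GS

open Fermat.Agent.GR.E

variable {R : Type*} [CommRing R] [IsDomain R] [IsDiscreteValuationRing R]
variable {F : Type*} [Field F] [Algebra R F]
variable {ϖ : R} {𝒪₁ 𝒪₂ : ValuationSubring F}

omit [IsDomain R] [IsDiscreteValuationRing R] in
lemma One_mem_of_sub_one {𝒪 : ValuationSubring F} (hG : GaussRing ϖ 𝒪) {x : F}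
    (hx : (x - 1) / algebraMap R F ϖ ∈ 𝒪) : x ∈ 𝒪 := by
  have : x = 1 + algebraMap R F ϖ * ((x - 1) / algebraMap R F ϖ) := by
    have := hG.ne_zero
    field_simp
    ring
  rw [this]
  exact 𝒪.add_mem _ _ 𝒪.one_mem (𝒪.mul_mem _ _ hG.mem hx)

omit [IsDomain R] [IsDiscreteValuationRing R] in
lemma One_mul_sub_one {𝒪 : ValuationSubring F} (hG : GaussRing ϖ 𝒪) {x y : F}
    (hx : (x - 1) / algebraMap R F ϖ ∈ 𝒪) (hy : (y - 1) / algebraMap R F ϖ ∈ 𝒪) :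
    (x * y - 1) / algebraMap R F ϖ ∈ 𝒪 := by
  have hy' := One_mem_of_sub_one hG hy
  have : (x * y - 1) / algebraMap R F ϖ =
      (x - 1) / algebraMap R F ϖ * y + (y - 1) / algebraMap R F ϖ := by
    ring
  rw [this]
  exact 𝒪.add_mem _ _ (𝒪.mul_mem _ _ hx hy') hy

omit [IsDomain R] [IsDiscreteValuationRing R] in
lemma One_pow_sub_one {𝒪 : ValuationSubring F} (hG : GaussRing ϖ 𝒪) {x : F}
    (hx : (x - 1) / algebraMap R F ϖ ∈ 𝒪) (i : ℕ) :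
    (x ^ i - 1) / algebraMap R F ϖ ∈ 𝒪 := by
  induction i with
  | zero => simp [𝒪.zero_mem]
  | succ i ih => rw [pow_succ]; exact One_mul_sub_one hG ih hx

/-- the ideal `J` of reductions of elements of `I(C)` -/
def OneIdeal (ϖ : R) (𝒪₁ 𝒪₂ : ValuationSubring F) {C : Subalgebra R F}
    (hC : SatChart2 ϖ 𝒪₁ 𝒪₂ C) {n : ℕ} (hn : 0 < n) (w : F) : Ideal C where
  carrier := {c | ∃ a ∈ rootSet C n w, (a - (c : F)) / algebraMap R F ϖ ∈ 𝒪₁ ∧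
    (a - (c : F)) / algebraMap R F ϖ ∈ 𝒪₂}
  zero_mem' := ⟨0, by
    show (0 : F) ^ n * w ∈ C
    rw [zero_pow hn.ne', zero_mul]
    exact C.zero_mem, by simp [𝒪₁.zero_mem], by simp [𝒪₂.zero_mem]⟩
  add_mem' := by
    rintro c c' ⟨a, ha, hac₁, hac₂⟩ ⟨a', ha', hac'₁, hac'₂⟩
    have : (a + a' - ((c + c' : C) : F)) / algebraMap R F ϖ =
        (a - (c : F)) / algebraMap R F ϖ + (a' - (c' : F)) / algebraMap R F ϖ := by
      push_cast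
      ring
    refine ⟨a + a', rootSet_add hC.closed hn ha ha', ?_, ?_⟩
    · rw [this]
      exact 𝒪₁.add_mem _ _ hac₁ hac'₁
    · rw [this]
      exact 𝒪₂.add_mem _ _ hac₂ hac'₂
  smul_mem' := by
    rintro d c ⟨a, ha, hac₁, hac₂⟩
    have : ((d : F) * a - ((d • c : C) : F)) / algebraMap R F ϖ =
        (d : F) * ((a - (c : F)) / algebraMap R F ϖ) := by
      rw [smul_eq_mul]
      push_cast
      ring
    refine ⟨(d : F) * a, rootSet_mul d.2 ha, ?_, ?_⟩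
    · rw [this]
      exact 𝒪₁.mul_mem _ _ (hC.le₁ _ d.2) hac₁
    · rw [this]
      exact 𝒪₂.mul_mem _ _ (hC.le₂ _ d.2) hac₂

/-- `J = {e ∈ C : ∃ b ∈ I(C), b ≡ e}` is an ideal contained in no maximal ideal. -/
theorem exists_one (hG₁ : GaussRing ϖ 𝒪₁) (hG₂ : GaussRing ϖ 𝒪₂)
    {C : Subalgebra R F} (hC : SatChart2 ϖ 𝒪₁ 𝒪₂ C) {n : ℕ} (hn : 0 < n) {w : F}
    (hglue : ∀ 𝔪 : Ideal C, 𝔪.IsMaximal → algebraMap R C ϖ ∈ 𝔪 → GlueAt ϖ 𝒪₁ 𝒪₂ C n w 𝔪) :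
    ∃ b ∈ rootSet C n w, (b - 1) / algebraMap R F ϖ ∈ 𝒪₁ ∧ (b - 1) / algebraMap R F ϖ ∈ 𝒪₂ := by
  have hP0 : algebraMap R F ϖ ≠ 0 := hG₁.ne_zero
  set J := OneIdeal ϖ 𝒪₁ 𝒪₂ hC hn w with hJ
  by_cases hJtop : J = ⊤
  · have h1 : (1 : C) ∈ J := by rw [hJtop]; trivial
    obtain ⟨a, ha, ha1, ha2⟩ := h1
    exact ⟨a, ha, ha1, ha2⟩
  exfalso
  obtain ⟨𝔪, h𝔪, hJ𝔪⟩ := Ideal.exists_le_maximal J hJtop
  have hϖJ : algebraMap R C ϖ ∈ J := by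
    have : ((0 : F) - ((algebraMap R C ϖ : C) : F)) / algebraMap R F ϖ = -1 := by
      show ((0 : F) - algebraMap R F ϖ) / algebraMap R F ϖ = -1
      rw [zero_sub, neg_div, div_self hP0]
    refine ⟨0, ?_, ?_, ?_⟩
    · show (0 : F) ^ n * w ∈ C
      rw [zero_pow hn.ne', zero_mul]
      exact C.zero_mem
    · rw [this]
      exact 𝒪₁.neg_mem _ 𝒪₁.one_mem
    · rw [this]
      exact 𝒪₂.neg_mem _ 𝒪₂.one_mem
  obtain ⟨b, hb, e, he, h₁, h₂⟩ := hglue 𝔪 h𝔪 (hJ𝔪 hϖJ)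
  exact he (hJ𝔪 ⟨b, hb, h₁, h₂⟩)

/-- Newton refinement (`GR.E.exists_newton`). -/
theorem exists_one_pow (hG₁ : GaussRing ϖ 𝒪₁) (hG₂ : GaussRing ϖ 𝒪₂)
    {C : Subalgebra R F} (hC : SatChart2 ϖ 𝒪₁ 𝒪₂ C) {n : ℕ} (hn : IsUnit (n : R)) {w : F}
    (hw₁ : (w - 1) / algebraMap R F ϖ ∈ 𝒪₁) (hw₂ : (w - 1) / algebraMap R F ϖ ∈ 𝒪₂)
    (hglue : ∀ 𝔪 : Ideal C, 𝔪.IsMaximal → algebraMap R C ϖ ∈ 𝔪 → GlueAt ϖ 𝒪₁ 𝒪₂ C n w 𝔪)
    (m : ℕ) :
    ∃ b ∈ rootSet C n w, (b - 1) / algebraMap R F ϖ ∈ 𝒪₁ ∧ (b - 1) / algebraMap R F ϖ ∈ 𝒪₂ ∧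
      (b ^ n * w - 1) / algebraMap R F ϖ ^ m ∈ C := by
  have hP0 : algebraMap R F ϖ ≠ 0 := hG₁.ne_zero
  have hn0 : 0 < n := by
    rcases Nat.eq_zero_or_pos n with h | h
    · subst h
      simp at hn
    · exact h
  obtain ⟨a, ha, ha1, ha2⟩ := exists_one hG₁ hG₂ hC hn0 hglue
  set t : C := ⟨a ^ n * w, ha⟩ with ht
  have ht1 : algebraMap R C ϖ ∣ t - 1 := by
    have h1 : ((t - 1 : C) : F) / algebraMap R F ϖ ∈ 𝒪₁ :=
      One_mul_sub_one hG₁ (One_pow_sub_one hG₁ ha1 n) hw₁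
    have h2 : ((t - 1 : C) : F) / algebraMap R F ϖ ∈ 𝒪₂ :=
      One_mul_sub_one hG₂ (One_pow_sub_one hG₂ ha2 n) hw₂
    refine ⟨⟨((t - 1 : C) : F) / algebraMap R F ϖ, hC.sat _ (t - 1 : C).2 h1 h2⟩, Subtype.ext ?_⟩
    show ((t - 1 : C) : F) = algebraMap R F ϖ * (((t - 1 : C) : F) / algebraMap R F ϖ)
    field_simp
  have hnC : IsUnit (n : C) := by
    have := hn.map (algebraMap R C)
    rwa [map_natCast] at this
  obtain ⟨s, hs1, hsm⟩ := exists_newton (algebraMap R C ϖ) n hnC t ht1 m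
  have hs1' : ((s : F) - 1) / algebraMap R F ϖ ∈ C := by
    obtain ⟨y, hy⟩ := hs1
    have hy' : (s : F) - 1 = algebraMap R F ϖ * (y : F) := congrArg Subtype.val hy
    rw [hy']
    have : algebraMap R F ϖ * (y : F) / algebraMap R F ϖ = y := by
      field_simp
    rw [this]
    exact y.2
  refine ⟨(s : F) * a, rootSet_mul s.2 ha, ?_, ?_, ?_⟩
  · exact One_mul_sub_one hG₁ (hC.le₁ _ hs1') ha1
  · exact One_mul_sub_one hG₂ (hC.le₂ _ hs1') ha2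
  · obtain ⟨y, hy⟩ := hsm
    have hy' : ((s : F) * a) ^ n * w - 1 = algebraMap R F ϖ ^ m * (y : F) := by
      have := congrArg (Subtype.val) hy
      rw [mul_pow, mul_assoc]
      exact this
    rw [hy']
    have : algebraMap R F ϖ ^ m * (y : F) / algebraMap R F ϖ ^ m = y := by
      field_simp
    rw [this]
    exact y.2

end Fermat.Agent.GS
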