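import Fermat.Agent.GS.Abs.LocGood
import Fermat.Agent.GS.Abs.LocNode
import Fermat.Agent.GS.Abs.Node
import Fermat.Agent.GS.Abs.Cert
import Fermat.Agent.GR.E.E3b

/-! GS abstract part, file `Unit`: local triviality at every closed point of the special fibre. -/

set_option autoImplicit false

namespace Fermat.Agent.GS

open Fermat.Agent.GR.E

variable {R : Type*} [CommRing R] [IsDomain R] [IsDiscreteValuationRing R]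
variable {F : Type*} [Field F] [Algebra R F]
variable {ϖ : R} {𝒪₁ 𝒪₂ : ValuationSubring F}

/-- a closed point lying on one component only -/
theorem Unit_one_component (hϖ : Irreducible ϖ) (hG₁ : GaussRing ϖ 𝒪₁) (hG₂ : GaussRing ϖ 𝒪₂)
    {C : Subalgebra R F} (hC : NodalChart ϖ 𝒪₁ 𝒪₂ C) {n : ℕ} (hn : 0 < n) {w : F}
    (hw₁ : (w - 1) / algebraMap R F ϖ ∈ 𝒪₁)
    (hdiv : DivisibleAtPlaces R n w)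
    (𝔪 : Ideal C) (h𝔪 : 𝔪.IsMaximal) (hϖ𝔪 : algebraMap R C ϖ ∈ 𝔪)
    (h₁ : vert ϖ 𝒪₁ C ≤ 𝔪) (h₂ : ¬ vert ϖ 𝒪₂ C ≤ 𝔪) :
    ∃ a : F, ∃ h : a ^ n * w ∈ C, (⟨a ^ n * w, h⟩ : C) ∉ 𝔪 := by
  have : 𝔪.IsPrime := h𝔪.isPrime
  obtain ⟨hw, hw', hw0⟩ := hG₁.mem_of_sub_one hw₁
  have hgood := locAt_goodChart hϖ hG₁ hG₂ hC 𝔪 h𝔪 h₁ h₂
  letI : Algebra C (locAt C 𝔪) := (Subalgebra.inclusion (le_locAt C 𝔪)).toRingHom.toAlgebra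
  have hloc : IsLocalization.AtPrime (locAt C 𝔪) 𝔪 := isLocalization_locAt 𝔪
  have hlocal : IsLocalRing (locAt C 𝔪) := IsLocalization.AtPrime.isLocalRing (locAt C 𝔪) 𝔪
  have hinv : ∀ x : locAt C 𝔪, IsUnit x → (x : F)⁻¹ ∈ locAt C 𝔪 := by
    rintro x ⟨u, rfl⟩
    have h1 : ((u : locAt C 𝔪) : F) * (((u⁻¹ : (locAt C 𝔪)ˣ) : locAt C 𝔪) : F) = 1 :=
      congrArg Subtype.val u.mul_inv
    rw [← eq_inv_of_mul_eq_one_right h1]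
    exact (((u⁻¹ : (locAt C 𝔪)ˣ) : locAt C 𝔪)).2
  have hϖmem : algebraMap R (locAt C 𝔪) ϖ ∈ IsLocalRing.maximalIdeal (locAt C 𝔪) := by
    rw [IsLocalRing.mem_maximalIdeal, mem_nonunits_iff]
    intro hu
    have h1 := hinv _ hu
    have h2 : ((algebraMap R C ϖ : C) : F)⁻¹ ∈ locAt C 𝔪 := h1
    have h3 : (algebraMap R C ϖ : C) ≠ 0 := fun h0 => hG₁.ne_zero (congrArg Subtype.val h0)
    exact (inv_mem_locAt_iff 𝔪 h3).1 h2 hϖ𝔪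
  obtain ⟨a, ha, ha'⟩ := exists_mem_rootSet_not_mem hϖ hG₁ hgood hn hw hw' hw0 hdiv
    (IsLocalRing.maximalIdeal (locAt C 𝔪)) (IsLocalRing.maximalIdeal.isMaximal _) hϖmem
  rw [IsLocalRing.mem_maximalIdeal, mem_nonunits_iff, not_not] at ha'
  exact exists_of_unit_locAt 𝔪 hn ha (hinv _ ha') (fun h0 => ha'.ne_zero (Subtype.ext h0))

theorem exists_unit_at (hϖ : Irreducible ϖ) (hG₁ : GaussRing ϖ 𝒪₁) (hG₂ : GaussRing ϖ 𝒪₂)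
    {C : Subalgebra R F} (hC : NodalChart ϖ 𝒪₁ 𝒪₂ C) {n : ℕ} (hn : 0 < n) {w : F}
    (hw₁ : (w - 1) / algebraMap R F ϖ ∈ 𝒪₁) (hw₂ : (w - 1) / algebraMap R F ϖ ∈ 𝒪₂)
    (hdiv : DivisibleAtPlaces R n w) (hcert : CertAt ϖ C n w)
    (𝔪 : Ideal C) (h𝔪 : 𝔪.IsMaximal) (hϖ𝔪 : algebraMap R C ϖ ∈ 𝔪) :
    ∃ a : F, ∃ h : a ^ n * w ∈ C, (⟨a ^ n * w, h⟩ : C) ∉ 𝔪 := by
  have : 𝔪.IsPrime := h𝔪.isPrime
  by_cases h₁ : vert ϖ 𝒪₁ C ≤ 𝔪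
  · by_cases h₂ : vert ϖ 𝒪₂ C ≤ 𝔪
    · obtain ⟨a, ha0, ha, ha'⟩ := node_local hϖ hG₁ hG₂ (locAt_nodalChart hϖ hG₁ hG₂ hC 𝔪 h𝔪 h₁ h₂)
        (locAt_nonunit hϖ hG₁ hG₂ hC 𝔪 h𝔪 h₁ h₂) (locAt_ne_one hG₁ hG₂ hC 𝔪 h₁ h₂) hn hw₁ hw₂
        (hcert.mono (le_locAt C 𝔪))
      exact exists_of_unit_locAt 𝔪 hn ha ha'
        (mul_ne_zero (pow_ne_zero n ha0) (hG₁.mem_of_sub_one hw₁).2.2)
    · exact Unit_one_component hϖ hG₁ hG₂ hC hn hw₁ hdiv 𝔪 h𝔪 hϖ𝔪 h₁ h₂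
  · have h₂ : vert ϖ 𝒪₂ C ≤ 𝔪 :=
      (vert_le_or_vert_le hG₁ hC.toSatChart2 𝔪 hϖ𝔪).resolve_left h₁
    exact Unit_one_component hϖ hG₂ hG₁ hC.symm hn hw₂ hdiv 𝔪 h𝔪 hϖ𝔪 h₂ h₁

end Fermat.Agent.GS
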